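import Fermat.Agent.S55.KL.Spec2

/-!
# S55 / KL : leaf KL:SCAL (subtask 406)                                      (helper795)

    theorem Fermat.Agent.S55.KL.H795.scalars   : ScalarsSpec
    theorem Fermat.Agent.S55.KL.H795.cdScalars : CdScalarsSpec

Both unconditional.  Reusable tools in ANY degree `n` (no low-degree API needed):

* `IsCobdry A n f` : the `n`-cochain `f` is a coboundary (for `n = 0`: `f = 0`);
* `π_eq_zero_iff_isCobdry` : the class of a cocycle `c` vanishes iff its cochain is a coboundary;
* `map_π_eq_zero_iff` : `map f φ n (π c) = 0` iff the cochain `x ↦ φ (c (f ∘ x))` is a coboundary;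
* `d_comp_eq` : an additive equivariant map between representations over possibly DIFFERENT
  coefficient rings commutes with the inhomogeneous differential;
* `isCobdry_of_comp` : coboundaries can be detected after an equivariant additive equivalence.
-/


set_option autoImplicit false

open CategoryTheory groupCohomology

namespace Fermat.Agent.S55.KL.H795

section Criterion

variable {k : Type} [CommRing k] {G : Type} [Group G]

/-- The cochain `f` is a coboundary (in the complex of inhomogeneous cochains; in degree `0`
this means `f = 0`). -/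
def IsCobdry (A : Rep.{0} k G) (n : ℕ) (f : (Fin n → G) → A.V) : Prop :=
  ∃ b : (inhomogeneousCochains A).X ((ComplexShape.up ℕ).prev n),
    ((inhomogeneousCochains A).d ((ComplexShape.up ℕ).prev n) n).hom b = f

theorem π_eq_zero_iff_isCobdry (A : Rep.{0} k G) (n : ℕ) (c : cocycles A n) :
    (π A n).hom c = 0 ↔ IsCobdry A n ((iCocycles A n).hom c) := by
  set K := inhomogeneousCochains A with hK
  set i := (ComplexShape.up ℕ).prev n with hi
  have hex : (ShortComplex.mk (K.toCycles i n) (K.homologyπ n)
      (K.toCycles_comp_homologyπ i n)).Exact :=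
    ShortComplex.exact_of_g_is_cokernel _ (K.homologyIsCokernel i n hi.symm)
  rw [ShortComplex.moduleCat_exact_iff] at hex
  have hti : ∀ b, (K.iCycles n).hom ((K.toCycles i n).hom b) = (K.d i n).hom b := by
    intro b
    have := K.toCycles_i i n
    exact congrArg (fun φ => φ.hom b) this
  constructor
  · intro h
    obtain ⟨b, hb⟩ := hex c h
    refine ⟨b, ?_⟩
    rw [← hti]
    exact congrArg _ hb
  · rintro ⟨b, hb⟩
    have hinj : Function.Injective (K.iCycles n).hom :=
      (ModuleCat.mono_iff_injective (K.iCycles n)).1 inferInstance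
    have hc : (K.toCycles i n).hom b = c := hinj (by rw [hti]; exact hb)
    rw [← hc]
    have := K.toCycles_comp_homologyπ i n
    exact congrArg (fun φ => φ.hom b) this

end Criterion



section Compare

variable {k k' : Type} [CommRing k] [CommRing k'] {G : Type} [Group G]

lemma map_neg_one_pow_smul {M M' : Type} [AddCommGroup M] [AddCommGroup M'] [Module k M]
    [Module k' M'] (e : M →+ M') (m : ℕ) (x : M) :
    e ((-1 : k) ^ m • x) = (-1 : k') ^ m • e x := by
  rcases Nat.even_or_odd m with h | h
  · rw [h.neg_one_pow, h.neg_one_pow, one_smul, one_smul]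
  · rw [h.neg_one_pow, h.neg_one_pow, neg_one_smul, neg_one_smul, map_neg]

/-- An additive equivariant map between the underlying groups of two representations of `G`
(possibly over different coefficient rings) commutes with the inhomogeneous differential. -/
theorem d_comp_eq (A : Rep.{0} k G) (B : Rep.{0} k' G) (e : A.V →+ B.V)
    (he : ∀ g x, e (A.ρ g x) = B.ρ g (e x)) (n : ℕ) (f : (Fin n → G) → A.V) :
    (inhomogeneousCochains.d B n).hom (fun x => e (f x)) =
      fun x => e ((inhomogeneousCochains.d A n).hom f x) := by
  funext g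
  rw [inhomogeneousCochains.d_hom_apply, inhomogeneousCochains.d_hom_apply, map_add, he, map_sum]
  congr 1
  refine Finset.sum_congr rfl fun j _ => ?_
  exact (map_neg_one_pow_smul (k := k) (k' := k') e _ _).symm

theorem isCobdry_of_comp (A : Rep.{0} k G) (B : Rep.{0} k' G) (e : A.V ≃+ B.V)
    (he : ∀ g x, e (A.ρ g x) = B.ρ g (e x)) (n : ℕ) (f : (Fin n → G) → A.V)
    (h : IsCobdry B n (fun x => e (f x))) : IsCobdry A n f := by
  cases n with
  | zero =>
    obtain ⟨b, hb⟩ := h
    have h0 : ((inhomogeneousCochains B).d ((ComplexShape.up ℕ).prev 0) 0) = 0 := by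
      apply HomologicalComplex.shape
      simp
    rw [h0] at hb
    have hf : f = 0 := by
      funext x
      have := congrFun hb x
      apply e.injective
      show e (f x) = e 0
      rw [map_zero, ← this]
      rfl
    refine ⟨0, ?_⟩
    rw [map_zero, hf]
  | succ m =>
    obtain ⟨b, hb⟩ := h
    have hp : (ComplexShape.up ℕ).prev (m + 1) = m := CochainComplex.prev_nat_succ m
    have key : ∀ (i : ℕ) (hi : i = m) (b : (inhomogeneousCochains B).X i),
        ((inhomogeneousCochains B).d i (m + 1)).hom b = (fun x => e (f x)) →
        ∃ b' : (inhomogeneousCochains A).X i,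
          ((inhomogeneousCochains A).d i (m + 1)).hom b' = f := by
      rintro i rfl b hb
      refine ⟨fun x => e.symm (b x), ?_⟩
      rw [inhomogeneousCochains.d_def] at hb ⊢
      have h1 := d_comp_eq A B e.toAddMonoidHom he i (fun x => e.symm (b x))
      funext g
      apply e.injective
      have h2 := congrFun h1 g
      have h3 := congrFun hb g
      simp only [AddEquiv.toAddMonoidHom_eq_coe, AddMonoidHom.coe_coe,
        AddEquiv.apply_symm_apply] at h2
      rw [← h3]
      exact h2.symm
    exact key _ hp b hb

end Compare


section MapCriterion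

variable {k : Type} [CommRing k] {G G' : Type} [Group G] [Group G']

theorem map_π_eq_zero_iff {A : Rep.{0} k G} {B : Rep.{0} k G'} (f : G' →* G)
    (φ : Rep.res f A ⟶ B) (n : ℕ) (c : cocycles A n) :
    (groupCohomology.map f φ n).hom ((π A n).hom c) = 0 ↔
      IsCobdry B n (fun x => φ.hom ((iCocycles A n).hom c (fun i => f (x i)))) := by
  have h1 : (groupCohomology.map f φ n).hom ((π A n).hom c) =
      (π B n).hom ((cocyclesMap f φ n).hom c) := π_map_apply f φ n c
  rw [h1, π_eq_zero_iff_isCobdry]
  have h2 : (iCocycles B n).hom ((cocyclesMap f φ n).hom c) =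
      ((cochainsMap f φ).f n).hom ((iCocycles A n).hom c) := by
    have := HomologicalComplex.cyclesMap_i (cochainsMap f φ) n
    exact congrArg (fun ψ => ψ.hom c) this
  rw [h2]
  rfl

end MapCriterion

section Scalars

variable {k : Type} [CommRing k] {Γ : Type} [Group Γ]

/-- The invariants of `R` and of `toInt R` are the same additive group. -/
def invEquiv (R : Rep.{0} k Γ) (W : Subgroup Γ) [W.Normal] :
    (R.quotientToInvariants W).V ≃+ ((toInt R).quotientToInvariants W).V where
  toFun x := ⟨x.1, fun w => x.2 w⟩
  invFun x := ⟨x.1, fun w => x.2 w⟩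
  left_inv _ := rfl
  right_inv _ := rfl
  map_add' _ _ := rfl

lemma invEquiv_val (R : Rep.{0} k Γ) (W : Subgroup Γ) [W.Normal]
    (x : (R.quotientToInvariants W).V) : (invEquiv R W x).1 = x.1 := rfl

lemma invEquiv_equivariant (R : Rep.{0} k Γ) (W : Subgroup Γ) [W.Normal] (g : Γ ⧸ W)
    (x : (R.quotientToInvariants W).V) :
    invEquiv R W ((R.quotientToInvariants W).ρ g x) =
      ((toInt R).quotientToInvariants W).ρ g (invEquiv R W x) := by
  induction g using QuotientGroup.induction_on with
  | H g => rfl

theorem d_iCocycles {G : Type} [Group G] (A : Rep.{0} k G) (n : ℕ) (c : cocycles A n) :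
    (inhomogeneousCochains.d A n).hom ((iCocycles A n).hom c) = 0 := by
  have h := (inhomogeneousCochains A).iCycles_d n (n + 1)
  rw [inhomogeneousCochains.d_def] at h
  exact congrArg (fun φ => φ.hom c) h

theorem scalars : ScalarsSpec := by
  intro k Γ _ _ N R n hZ V y
  induction y using groupCohomology_induction_on with
  | h c =>
    have hdf' : (inhomogeneousCochains.d ((toInt R).quotientToInvariants V.W) n).hom
        (fun x => invEquiv R V.W ((iCocycles (R.quotientToInvariants V.W) n).hom c x)) = 0 := by
      have h0 := d_comp_eq (R.quotientToInvariants V.W) ((toInt R).quotientToInvariants V.W)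
        (invEquiv R V.W).toAddMonoidHom (invEquiv_equivariant R V.W) n
        ((iCocycles (R.quotientToInvariants V.W) n).hom c)
      rw [d_iCocycles] at h0
      refine h0.trans ?_
      funext x
      exact map_zero _
    obtain ⟨V', h, hV'⟩ := hZ V ((π ((toInt R).quotientToInvariants V.W) n).hom
      (cocyclesMk _ hdf'))
    refine ⟨V', h, ?_⟩
    have h1 := (map_π_eq_zero_iff _ _ n _).1 hV'
    rw [iCocycles_mk] at h1
    refine (map_π_eq_zero_iff _ _ n c).2 ?_
    refine isCobdry_of_comp _ _ (invEquiv R V'.W) (invEquiv_equivariant R V'.W) n _ ?_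
    exact h1

theorem cdScalars : CdScalarsSpec := by
  intro k Γ _ _ N p hZ R hfin hp hsm
  refine scalars k Γ N R 3 (hZ (toInt R) hfin hp ?_)
  intro b
  obtain ⟨W, hW, h⟩ := hsm b
  exact ⟨W, hW, fun w hw => h w hw⟩

end Scalars

end Fermat.Agent.S55.KL.H795
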