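import Fermat.Agent.S55.KL.SpecLocal

/-!
# S55, layer KL: the formal leaves KL-SM, KL-DIV, KL-MU, KL-OPEN                 (helper587)

* `unitsSmooth : UnitsSmoothSpec`   — `Ωˣ` is smooth for the levels `galLevels K Ω`;
* `unitsDiv : UnitsDivSpec`         — `Ωˣ` is `p`-divisible if `Ω` is algebraically closed;
* `unitsTors : UnitsTorsSpec`       — `|μ_p(Ω)| = p` if `Ω` is algebraically closed of char. 0;
* `openSubgroup : OpenSubgroupSpec` — the open subgroups of `Gal(Ω/K)` are the `Gal(Ω/E)`,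
  `E/K` finite.

Mathlib only (infinite Galois theory), no `sorry`.
-/

set_option autoImplicit false
set_option linter.style.haveILetI false

open CategoryTheory groupCohomology

namespace Fermat.Agent.S55.KL.H587

/-! ## KL-SM -/

/-- **KL-SM.** -/
theorem unitsSmooth : UnitsSmoothSpec := by
  intro K Ω _ _ _ _ b
  let u : Ωˣ := Additive.toMul b
  refine ⟨_, ⟨FiniteGaloisIntermediateField.adjoin K {(u : Ω)}, rfl⟩, ?_⟩
  intro w hw
  have hmem : (u : Ω) ∈ (FiniteGaloisIntermediateField.adjoin K {(u : Ω)}).toIntermediateField :=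
    FiniteGaloisIntermediateField.subset_adjoin K {(u : Ω)} rfl
  have hfix : w (u : Ω) = (u : Ω) := hw ⟨(u : Ω), hmem⟩
  show Additive.ofMul (w • u) = b
  have : w • u = u := Units.ext hfix
  rw [this]
  rfl

/-! ## KL-DIV -/

/-- **KL-DIV.** -/
theorem unitsDiv : UnitsDivSpec := by
  intro K Ω _ _ _ _ p hp b
  let u : Ωˣ := Additive.toMul b
  obtain ⟨z, hz⟩ := IsAlgClosed.exists_pow_nat_eq (u : Ω) hp
  have hz0 : z ≠ 0 := by
    rintro rfl
    rw [zero_pow hp.ne'] at hz
    exact u.ne_zero hz.symm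
  refine ⟨Additive.ofMul (Units.mk0 z hz0), ?_⟩
  show Additive.ofMul ((Units.mk0 z hz0) ^ p) = b
  have : (Units.mk0 z hz0) ^ p = u := Units.ext (by simpa using hz)
  rw [this]
  rfl

/-! ## KL-MU -/

/-- The `p`-torsion of `Additive Ωˣ` is `μ_p(Ω)`. -/
def torsEquivRootsOfUnity (K Ω : Type) [Field K] [Field Ω] [Algebra K Ω] (p : ℕ) :
    (tors (unitsOm K Ω) p).V ≃ rootsOfUnity p Ω where
  toFun b := ⟨Additive.toMul (b.1 : Additive Ωˣ), by
    have h : p • (b.1 : Additive Ωˣ) = 0 := b.2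
    rw [mem_rootsOfUnity]
    exact congrArg Additive.toMul h⟩
  invFun u := ⟨Additive.ofMul u.1, by
    have h : u.1 ^ p = 1 := (mem_rootsOfUnity _ _).1 u.2
    show p • Additive.ofMul u.1 = 0
    exact congrArg Additive.ofMul h⟩
  left_inv _ := rfl
  right_inv _ := rfl

/-- **KL-MU.** -/
theorem unitsTors : UnitsTorsSpec := by
  intro K Ω _ _ _ _ _ p hp
  haveI : NeZero (p : Ω) := ⟨Nat.cast_ne_zero.2 hp.ne_zero⟩
  haveI : NeZero p := ⟨hp.ne_zero⟩
  rw [Nat.card_congr (torsEquivRootsOfUnity K Ω p)]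
  exact HasEnoughRootsOfUnity.natCard_rootsOfUnity Ω p

/-! ## KL-OPEN -/

/-- **KL-OPEN.** -/
theorem openSubgroup : OpenSubgroupSpec := by
  intro K Ω _ _ _ _ U
  constructor
  · rintro ⟨W, ⟨E', rfl⟩, hWU⟩
    have hopen : IsOpen (U : Set (Ω ≃ₐ[K] Ω)) :=
      Subgroup.isOpen_mono hWU (IntermediateField.fixingSubgroup_isOpen E'.toIntermediateField)
    have hclosed : IsClosed (U : Set (Ω ≃ₐ[K] Ω)) := U.isClosed_of_isOpen hopen
    let Uc : ClosedSubgroup (Ω ≃ₐ[K] Ω) := ⟨U, hclosed⟩
    have hfix : (IntermediateField.fixedField U).fixingSubgroup = U :=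
      InfiniteGalois.fixingSubgroup_fixedField Uc
    refine ⟨IntermediateField.fixedField U, ?_, hfix.symm⟩
    exact (InfiniteGalois.isOpen_iff_finite _).1 (by rw [hfix]; exact hopen)
  · rintro ⟨E, hE, rfl⟩
    haveI : FiniteDimensional K E := hE
    let E' : FiniteGaloisIntermediateField K Ω :=
      { IntermediateField.normalClosure K E Ω with
        finiteDimensional := normalClosure.is_finiteDimensional K E Ω
        isGalois := IsGalois.normalClosure K E Ω }
    refine ⟨_, ⟨E', rfl⟩, ?_⟩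
    have hle : E ≤ E'.toIntermediateField := IntermediateField.le_normalClosure E
    exact IntermediateField.fixingSubgroup_antitone hle

end Fermat.Agent.S55.KL.H587
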