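import Fermat.Agent.S55.KL.SpecLocal
import Fermat.Agent.S55.L.H715.OuterClosed

/-!
# S55, layer KL, leaf KL-H123 (helper775)

`local_h123_of (hT : TransportSpec) (hO : OpenSubgroupSpec) :
    LocalH1Spec ∧ LocalH2Spec ∧ LocalH3Spec`

For an open subgroup `U = Gal(Ω/E)` of `Gal(ℚ̄_q/ℚ_q)` and a level `V = Gal(Ω/E') ∩ U`, the
transport isomorphism identifies `Hⁿ(U/V, (Ωˣ)^V)` with `Hⁿ(Gal(M/E), Mˣ)`, `M = E·E'`; then
* `H¹ = 0` is Hilbert 90 (Mathlib),
* `H² ≅ ℤ/[M : E]` is `L.Closed.h2Cyclic`,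
* `H³ = 0` is `L.Closed.h3`.
-/

set_option autoImplicit false
set_option linter.style.haveILetI false
set_option linter.unusedSectionVars false

open CategoryTheory groupCohomology

namespace Fermat.Agent.S55.KL.H775

open Fermat.Agent.S55 Fermat.Agent.S55.KL

/-- The finite-level cohomology of an open subgroup of `Gal(ℚ̄_q/ℚ_q)` is the Galois cohomology of
a finite Galois extension `M/E` of local fields, of degree `[U : V]`. -/
theorem exists_transport775 (hT : TransportSpec) (hO : OpenSubgroupSpec)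
    (q : ℕ) [Fact q.Prime] (U : Subgroup (PadicAlgCl q ≃ₐ[ℚ_[q]] PadicAlgCl q))
    (hU : (galLevels ℚ_[q] (PadicAlgCl q)).IsOpen U)
    (V : ((galLevels ℚ_[q] (PadicAlgCl q)).restrict U).Lvl) :
    ∃ (E M : Type) (_ : Field E) (_ : Field M) (_ : Algebra E M) (_ : FiniteDimensional E M)
      (_ : IsGalois E M) (_ : L.IsLocalFld E),
      Nat.card (↥U ⧸ V.W) = Module.finrank E M ∧
      ∀ n : ℕ, Nonempty
        (HL (Rep.res U.subtype (unitsOm ℚ_[q] (PadicAlgCl q))) V.W n ≅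
          groupCohomology (Rep.ofAlgebraAutOnUnits E M) n) := by
  obtain ⟨E, hEfin, rfl⟩ := (hO ℚ_[q] (PadicAlgCl q) U).mp hU
  rcases V with ⟨VW, hV⟩
  obtain ⟨W, ⟨E', rfl⟩, rfl⟩ := hV
  obtain ⟨h1, h2, h3, h4⟩ := hT ℚ_[q] (PadicAlgCl q) E E'
  haveI := hEfin
  haveI : L.IsLocalFld ↥E := (L.Closed.padicExtInst q E hEfin).1
  exact ⟨↥E, ↥(compositumOver E E'.toIntermediateField), inferInstance, inferInstance,
    inferInstance, h1, h2, inferInstance, h3, h4⟩

/-- **KL-H123.** -/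
theorem local_h123_of (hT : TransportSpec) (hO : OpenSubgroupSpec) :
    LocalH1Spec ∧ LocalH2Spec ∧ LocalH3Spec := by
  refine ⟨?_, ?_, ?_⟩
  · intro q _ U hU V
    obtain ⟨E, M, _, _, _, hfin, hgal, hloc, -, hiso⟩ := exists_transport775 hT hO q U hU V
    obtain ⟨e⟩ := hiso 1
    haveI := hfin
    haveI : Subsingleton (groupCohomology (Rep.ofAlgebraAutOnUnits E M) 1) :=
      (inferInstance : Subsingleton (H1 (Rep.ofAlgebraAutOnUnits E M)))
    exact e.toLinearEquiv.toEquiv.subsingleton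
  · intro q _ U hU V
    obtain ⟨E, M, _, _, _, hfin, hgal, hloc, hcard, hiso⟩ := exists_transport775 hT hO q U hU V
    obtain ⟨e⟩ := hiso 2
    haveI := hfin
    haveI := hgal
    haveI := hloc
    obtain ⟨f⟩ := L.Closed.h2Cyclic E M
    rw [hcard]
    exact ⟨e.toLinearEquiv.toAddEquiv.trans f⟩
  · intro q _ U hU V
    obtain ⟨E, M, _, _, _, hfin, hgal, hloc, -, hiso⟩ := exists_transport775 hT hO q U hU V
    obtain ⟨e⟩ := hiso 3
    haveI := hfin
    haveI := hgal
    haveI := hloc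
    haveI : Subsingleton (groupCohomology (Rep.ofAlgebraAutOnUnits E M) 3) := L.Closed.h3 E M
    exact e.toLinearEquiv.toEquiv.subsingleton

end Fermat.Agent.S55.KL.H775
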