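import Fermat.Agent.S55.KL.H496.TrUnits

/-!
# S55 / layer KL, leaf KL-TR (helper496): `TransportSpec`

For `U = Gal(Ω/E)` and the level `V = Gal(Ω/E')` (`E'/K` finite Galois): `M = E·E'` is finite
Galois over `E`, `U/(V ∩ U) ≅ Gal(M/E)` has order `[M : E]`, and
`Hⁿ(U/(V ∩ U), (Ωˣ)^{V ∩ U}) ≅ Hⁿ(Gal(M/E), Mˣ)` for all `n`.
-/

set_option autoImplicit false

noncomputable section

namespace Fermat.Agent.S55.KL.H496

open CategoryTheory groupCohomology

/-- **KL-TR.** -/
theorem transport : TransportSpec := by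
  intro K Ω _ _ _ _ E E'
  exact ⟨finiteDimensional_comp496 E E'.toIntermediateField,
    isGalois_comp496 E E'.toIntermediateField,
    card_quot496 E E'.toIntermediateField,
    fun n => ⟨transportIso496 E E'.toIntermediateField n⟩⟩

end Fermat.Agent.S55.KL.H496
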