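import Fermat.Agent.S55.KL.Defs

/-!
# S55, layer KB ("Kummer bridge", abstract part): frozen interface         (architect: helper183)

Spec pattern: every statement is a `def XxxSpec : Prop`; producers prove `theorem xxx : XxxSpec`
in `Fermat/Agent/S55/KL/<Name>H<seat>.lean` (namespace `Fermat.Agent.S55.KL.H<seat>`), consumers
take `(h : XxxSpec)`.  Blueprint with proofs: `coord/S55-KL.md` on `origin/helper183`.

Content: `cd_p ≤ 2` from a `p`-divisible smooth module `A` (`A = ℚ̄_qˣ` locally, `A = 𝒪_S^×` of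
`ℚ_S` globally) whose finite-level cohomology satisfies
`colim H³(A)[p] = 0` and `colim H²(A) ⊗ ℤ/p = 0`.
-/

set_option autoImplicit false

open CategoryTheory groupCohomology

namespace Fermat.Agent.S55.KL

/-! ## KB-NAT: naturality of the connecting homomorphism along group homomorphisms -/

/-- **KB-NAT.**  Let `f : G → H` be a group homomorphism, `X` a short exact sequence of
`H`-modules, `Y` a short exact sequence of `G`-modules and `φ : res_f X → Y` a morphism of
sequences.  Then `δ_Y ∘ (f, φ₃)^* = (f, φ₁)^* ∘ δ_X` on cohomology. -/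
def DeltaNatSpec : Prop :=
  ∀ (k G H : Type) [CommRing k] [Group G] [Group H] (f : G →* H)
    (X : ShortComplex (Rep.{0} k H)) (hX : X.ShortExact)
    (Y : ShortComplex (Rep.{0} k G)) (hY : Y.ShortExact)
    (φ₁ : Rep.res f X.X₁ ⟶ Y.X₁) (φ₂ : Rep.res f X.X₂ ⟶ Y.X₂) (φ₃ : Rep.res f X.X₃ ⟶ Y.X₃),
    (Rep.resFunctor f).map X.f ≫ φ₂ = φ₁ ≫ Y.f →
    (Rep.resFunctor f).map X.g ≫ φ₃ = φ₂ ≫ Y.g →
    ∀ (i j : ℕ) (hij : i + 1 = j),
      δ hX i j hij ≫ groupCohomology.map f φ₁ j = groupCohomology.map f φ₃ i ≫ δ hY i j hij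

/-! ## KB-KUM3: the Kummer chase in degree 3 -/

/-- **KB-KUM3.**  If `A` is smooth and `p`-divisible, `colim H³(A)[p] = 0` and
`colim H²(A)/p = 0`, then `colim H³(A[p]) = 0`. -/
def KummerH3Spec : Prop :=
  ∀ (k Γ : Type) [CommRing k] [Group Γ] (N : NLevels Γ) (A : Rep.{0} k Γ) (p : ℕ), p.Prime →
    IsSmooth N A → IsDivisibleBy A p → EffTors N A p 3 → EffDiv N A p 2 →
      EffAll N (tors A p) 3

/-! ## KB-DEV: dévissage (Sylow + filtration) -/

/-- **KB-DEV.**  Let `μ` be a smooth module of order `p` such that `colim H³(U, μ) = 0` for every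
open subgroup `U`.  Then `colim H³(Γ, R) = 0` for every finite smooth `p`-torsion module `R`.
(`k` is a quotient of `ℤ`, e.g. `ℤ` or `ZMod p`, so that modules of order `p` are isomorphic.) -/
def DevissageSpec : Prop :=
  ∀ (k Γ : Type) [CommRing k] [Group Γ], Function.Surjective (Int.cast : ℤ → k) →
    ∀ (N : NLevels Γ) (μ : Rep.{0} k Γ) (p : ℕ), p.Prime → Nat.card μ.V = p → IsSmooth N μ →
      (∀ U : Subgroup Γ, N.IsOpen U → EffAll (N.restrict U) (Rep.res U.subtype μ) 3) →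
        CdLeTwo N k p

/-- **KB-DEV-C** (filtration induction).  If `Γ` acts on `R` through a finite `p`-group and `μ` is
a module of order `p` with trivial action and `colim H³(Γ, μ) = 0`, then `colim H³(Γ, R) = 0`.
(Induct on `|R|`: a `p`-group acting on `R ≠ 0` has a stable subgroup `R₁` of index `p` with
trivial action on `R/R₁ ≅ μ`; long exact sequence in degree 3 + `DeltaNatSpec`.) -/
def DevPGroupSpec : Prop :=
  ∀ (k Γ : Type) [CommRing k] [Group Γ], Function.Surjective (Int.cast : ℤ → k) →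
    ∀ (N : NLevels Γ) (μ : Rep.{0} k Γ) (p : ℕ), p.Prime → Nat.card μ.V = p →
      (∀ (g : Γ) (m : μ.V), μ.ρ g m = m) → EffAll N μ 3 →
      ∀ R : Rep.{0} k Γ, Finite R.V → (∀ r : R.V, p • r = 0) →
        (∃ V : N.Lvl, ActsTrivially V.W R ∧ IsPGroup p (Γ ⧸ V.W)) → EffAll N R 3

/-- **KB-DEV-B** (Sylow reduction).  To prove `colim H³(Γ, R) = 0` for a finite smooth
`p`-torsion module `R` it suffices to prove `colim H³(U, R) = 0` for the open subgroups `U` such
that `U/V` is a `p`-group for some level `V ≤ V₀` acting trivially on `R`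
(`V₀` an arbitrary level).  (Take `U` = preimage of a Sylow `p`-subgroup of `Γ/V`;
restriction is injective on `p`-torsion: layer T `ResIndexSpec`.) -/
def DevSylowSpec : Prop :=
  ∀ (k Γ : Type) [CommRing k] [Group Γ] (N : NLevels Γ) (p : ℕ), p.Prime →
    ∀ R : Rep.{0} k Γ, Finite R.V → (∀ r : R.V, p • r = 0) → IsSmooth N R → ∀ V₀ : N.Lvl,
      (∀ (U : Subgroup Γ) (V : N.Lvl), V.W ≤ U → V.W ≤ V₀.W → ActsTrivially V.W R →
          IsPGroup p (↥U ⧸ V.W.subgroupOf U) →
            EffAll (N.restrict U) (Rep.res U.subtype R) 3) →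
        EffAll N R 3

/-! ## KB-CD: the abstract theorem -/

/-- The hypotheses on `(Γ, N, A, p)`: `A` is smooth and `p`-divisible, `A[p]` has order `p`, and
for every open subgroup `U`: `colim_V H³(U/V, A^V)[p] = 0`, `colim_V H²(U/V, A^V) ⊗ ℤ/p = 0`. -/
def KummerHyp {k Γ : Type} [CommRing k] [Group Γ] (N : NLevels Γ) (A : Rep.{0} k Γ) (p : ℕ) :
    Prop :=
  IsSmooth N A ∧ IsDivisibleBy A p ∧ Nat.card (tors A p).V = p ∧
    ∀ U : Subgroup Γ, N.IsOpen U →
      EffTors (N.restrict U) (Rep.res U.subtype A) p 3 ∧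
        EffDiv (N.restrict U) (Rep.res U.subtype A) p 2

/-- **KB-CD.**  `KummerHyp ⇒ cd_p ≤ 2` (finite-level form). -/
def CdSpec : Prop :=
  ∀ (k Γ : Type) [CommRing k] [Group Γ], Function.Surjective (Int.cast : ℤ → k) →
    ∀ (N : NLevels Γ) (A : Rep.{0} k Γ) (p : ℕ), p.Prime → KummerHyp N A p → CdLeTwo N k p


/-! ## KB-DICT: level-constant cocycles versus finite levels (degree 2) -/

/-- **KB-DICT2a.**  A level-constant 2-cocycle with values in a smooth module is inflated from a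
finite level (which may be chosen below any given level `V₀`). -/
def DictCocycle₂Spec : Prop :=
  ∀ (k Γ : Type) [CommRing k] [Group Γ] (N : NLevels Γ) (R : Rep.{0} k Γ), IsSmooth N R →
    ∀ c ∈ cocycles₂ R, IsLC₂ N c → ∀ V₀ : N.Lvl,
      ∃ (V : N.Lvl) (_ : V.W ≤ V₀.W) (c' : cocycles₂ (R.quotientToInvariants V.W)),
        ∀ g h : Γ, ((c'.1 ((g : Γ ⧸ V.W), (h : Γ ⧸ V.W)) : _) : R.V) = c (g, h)

/-- **KB-DICT2b.**  Inflation on classes is inflation on cocycles. -/
def DictInfl₂Spec : Prop :=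
  ∀ (k Γ : Type) [CommRing k] [Group Γ] (N : NLevels Γ) (R : Rep.{0} k Γ) (V' V : N.Lvl)
    (h : V'.W ≤ V.W) (c : cocycles₂ (R.quotientToInvariants V.W))
    (c' : cocycles₂ (R.quotientToInvariants V'.W)),
    (∀ g g' : Γ, ((c'.1 ((g : Γ ⧸ V'.W), (g' : Γ ⧸ V'.W)) : _) : R.V) =
        ((c.1 ((g : Γ ⧸ V.W), (g' : Γ ⧸ V.W)) : _) : R.V)) →
      (infl R h 2).hom ((H2π _).hom c) = (H2π _).hom c'

/-! ## KB-A4: `cd_p ≤ 2` ⇒ `H²` is right exact on level-constant cohomology (input A3 / A4 of D) -/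

/-- **KB-A4.**  If `cd_p ≤ 2` (finite-level form) then every level-constant 2-cocycle with values
in a quotient `Q` of a finite smooth `p`-torsion module `P` lifts to `P` up to the coboundary of a
level-constant 1-cochain. -/
def SurjH2Spec : Prop :=
  ∀ (k Γ : Type) [CommRing k] [Group Γ] (N : NLevels Γ) (p : ℕ), p.Prime → CdLeTwo N k p →
    ∀ (P Q : Rep.{0} k Γ) (φ : P ⟶ Q), Function.Surjective φ.hom → Finite P.V →
      (∀ x : P.V, p • x = 0) → IsSmooth N P →
      ∀ c ∈ cocycles₂ Q, IsLC₂ N c →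
        ∃ c' ∈ cocycles₂ P, IsLC₂ N c' ∧ ∃ b : Γ → Q.V, IsLC₁ N b ∧
          ∀ g h : Γ, φ.hom (c' (g, h)) = c (g, h) + (d₁₂ Q).hom b (g, h)

end Fermat.Agent.S55.KL
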