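import Fermat.Agent.S55.KL.Spec

/-!
# S55, layer KB, leaf KB-DEV-C (helper784): the filtration induction `DevPGroupSpec`

`devPGroup : DevPGroupSpec`.  Let `μ` be a module of order `p` with trivial action such that
`colim_V H³(Γ ⧸ V, μ) = 0`, and let `R` be a finite `p`-torsion module on which `Γ` acts through
a finite `p`-group `Γ ⧸ V₀`.  Then `colim_V H³(Γ ⧸ V, R^V) = 0`.

Proof: induction on `|R|`.  If `R ≠ 0`, the `p`-group `Γ ⧸ V₀` has a fixed point `r ≠ 0` on `R`
(fixed point congruence); `ℤ r ≅ μ` (both have order `p` and trivial action, and every additive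
map is `k`-linear because `ℤ → k` is surjective), so there is a short exact sequence
`0 → μ → R → R₂ → 0` with `|R₂| < |R|`.  Given a class `y` at level `V`, inflate to a level below
`V₀`, kill its image in `H³(R₂)` by a further inflation (induction hypothesis), lift to `H³(μ)`
(exactness of the middle of the long exact sequence at a level acting trivially on `R`) and kill
the lift by a last inflation.  Only exactness in the middle is used (no connecting map).

Also provided (reusable): `infl_infl`, `push_infl` (functoriality of `HLmap` along `id`),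
`push_eq_map`, `exact_push`.

No `sorry`; Mathlib + `KL/Defs`, `KL/Spec` only.
-/

set_option autoImplicit false
set_option linter.style.haveILetI false

open CategoryTheory groupCohomology

namespace Fermat.Agent.S55.KL.H784

open Fermat.Agent.S55.KL

variable {k : Type} [CommRing k] {Γ : Type} [Group Γ]

/-! ## Functoriality of `HLmap` along the identity -/

/-- Composition of two `HLmap`s along the identity of `Γ`. -/
lemma HLmap_id_comp {B B' B'' : Rep.{0} k Γ} {W W' W'' : Subgroup Γ} [W.Normal] [W'.Normal]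
    [W''.Normal] (h₁ : W' ≤ W.comap (MonoidHom.id Γ)) (h₂ : W'' ≤ W'.comap (MonoidHom.id Γ))
    (h₃ : W'' ≤ W.comap (MonoidHom.id Γ))
    (φ : Rep.res (MonoidHom.id Γ) B ⟶ B') (ψ : Rep.res (MonoidHom.id Γ) B' ⟶ B'')
    (χ : Rep.res (MonoidHom.id Γ) B ⟶ B'') (hχ : ∀ b, χ.hom b = ψ.hom (φ.hom b)) (n : ℕ) :
    HLmap (MonoidHom.id Γ) h₁ φ n ≫ HLmap (MonoidHom.id Γ) h₂ ψ n =
      HLmap (MonoidHom.id Γ) h₃ χ n := by
  unfold HLmap
  rw [← groupCohomology.map_comp]
  apply groupCohomology.map_congr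
  · ext g
    rfl
  · ext b
    exact (hχ b.1).symm

/-- Inflation is transitive. -/
lemma infl_infl (B : Rep.{0} k Γ) {W W' W'' : Subgroup Γ} [W.Normal] [W'.Normal] [W''.Normal]
    (h₁ : W' ≤ W) (h₂ : W'' ≤ W') (n : ℕ) :
    infl B h₁ n ≫ infl B h₂ n = infl B (h₂.trans h₁) n :=
  HLmap_id_comp _ _ _ _ _ _ (fun _ => rfl) n

/-- Inflation is transitive (elementwise). -/
lemma infl_infl_apply (B : Rep.{0} k Γ) {W W' W'' : Subgroup Γ} [W.Normal] [W'.Normal]
    [W''.Normal] (h₁ : W' ≤ W) (h₂ : W'' ≤ W') (n : ℕ) (y : HL B W n) :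
    (infl B h₂ n).hom ((infl B h₁ n).hom y) = (infl B (h₂.trans h₁) n).hom y := by
  rw [← infl_infl B h₁ h₂ n]
  rfl

/-- Push-forward commutes with inflation. -/
lemma push_infl {B B' : Rep.{0} k Γ} (φ : B ⟶ B') {W W' : Subgroup Γ} [W.Normal] [W'.Normal]
    (h : W' ≤ W) (n : ℕ) :
    push φ W n ≫ infl B' h n = infl B h n ≫ push φ W' n := by
  have e1 : push φ W n ≫ infl B' h n =
      HLmap (MonoidHom.id Γ) (W := W) (W' := W') (by simpa using h) φ n :=
    HLmap_id_comp _ _ _ _ _ _ (fun _ => rfl) n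
  have e2 : infl B h n ≫ push φ W' n =
      HLmap (MonoidHom.id Γ) (W := W) (W' := W') (by simpa using h) φ n :=
    HLmap_id_comp _ _ _ _ _ _ (fun _ => rfl) n
  rw [e1, e2]

/-- Push-forward commutes with inflation (elementwise). -/
lemma push_infl_apply {B B' : Rep.{0} k Γ} (φ : B ⟶ B') {W W' : Subgroup Γ} [W.Normal]
    [W'.Normal] (h : W' ≤ W) (n : ℕ) (y : HL B W n) :
    (infl B' h n).hom ((push φ W n).hom y) = (push φ W' n).hom ((infl B h n).hom y) :=
  congrArg (fun f => f.hom y) (push_infl φ h n)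

/-- `push` is the functorial map of Mathlib's `quotientToInvariantsFunctor`. -/
lemma push_eq_map {B B' : Rep.{0} k Γ} (φ : B ⟶ B') (W : Subgroup Γ) [W.Normal] (n : ℕ) :
    push φ W n =
      groupCohomology.map (MonoidHom.id (Γ ⧸ W))
        ((Rep.quotientToInvariantsFunctor k W).map φ) n := by
  unfold push HLmap
  apply groupCohomology.map_congr
  · ext g
    rfl
  · ext b
    rfl

/-! ## Exactness in the middle at a level acting trivially -/

/-- A short complex of representations is short exact if it is so on underlying modules. -/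
lemma shortExact_of {G : Type} [Group G] (X : ShortComplex (Rep.{0} k G))
    (h1 : Function.Injective X.f.hom)
    (h2 : ∀ x : X.X₂, X.g.hom x = 0 → ∃ y : X.X₁, X.f.hom y = x)
    (h3 : Function.Surjective X.g.hom) : X.ShortExact where
  exact := by
    rw [← ShortComplex.exact_map_iff_of_faithful X (forget₂ (Rep.{0} k G) (ModuleCat.{0} k)),
      ShortComplex.moduleCat_exact_iff]
    exact h2
  mono_f := (Rep.mono_iff_injective _).2 h1
  epi_g := (Rep.epi_iff_surjective _).2 h3

/-- Exactness of `Hⁿ(Γ/W, R₁^W) → Hⁿ(Γ/W, R^W) → Hⁿ(Γ/W, R₂^W)` for a short exact sequence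
`0 → R₁ → R → R₂ → 0` when `W` acts trivially on `R`. -/
lemma exact_push {R₁ R R₂ : Rep.{0} k Γ} (ι : R₁ ⟶ R) (π : R ⟶ R₂) (W : Subgroup Γ) [W.Normal]
    (hι : Function.Injective ι.hom) (hπ : Function.Surjective π.hom)
    (hex : ∀ x, π.hom x = 0 → ∃ y, ι.hom y = x) (hzero : ∀ y, π.hom (ι.hom y) = 0)
    (hW : ActsTrivially W R) (n : ℕ)
    (y : HL R W n) (hy : (push π W n).hom y = 0) : ∃ z : HL R₁ W n, (push ι W n).hom z = y := by
  let X : ShortComplex (Rep.{0} k (Γ ⧸ W)) :=
    ShortComplex.mk ((Rep.quotientToInvariantsFunctor k W).map ι)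
      ((Rep.quotientToInvariantsFunctor k W).map π) (by
        ext b
        exact Subtype.ext (hzero b.1))
  have hX : X.ShortExact := by
    apply shortExact_of
    · intro a b hab
      apply Subtype.ext
      apply hι
      exact congrArg Subtype.val hab
    · intro x hx
      obtain ⟨m, hm⟩ := hex x.1 (congrArg Subtype.val hx)
      refine ⟨⟨m, fun w => ?_⟩, Subtype.ext hm⟩
      apply hι
      have h1 := Rep.hom_comm_apply ι w.1 m
      have h2 : R.ρ w.1 x.1 = x.1 := x.2 w
      show ι.hom (R₁.ρ w.1 m) = ι.hom m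
      rw [h1, hm, h2]
    · intro x
      obtain ⟨r, hr⟩ := hπ x.1
      exact ⟨⟨r, fun w => hW w.1 w.2 r⟩, Subtype.ext hr⟩
  have hE := mapShortComplex₂_exact hX n
  rw [ShortComplex.moduleCat_exact_iff] at hE
  rw [push_eq_map] at hy
  obtain ⟨z, hz⟩ := hE y hy
  refine ⟨z, ?_⟩
  rw [push_eq_map]
  exact hz

/-- The cohomology of the zero module vanishes. -/
lemma H_eq_zero_of_subsingleton {G : Type} [Group G] (A : Rep.{0} k G) [Subsingleton A.V]
    (n : ℕ) (y : groupCohomology A n) : y = 0 := by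
  have h1 : (𝟙 A : A ⟶ A) = 0 := by
    ext b
    exact Subsingleton.elim _ _
  have h2 : groupCohomology.map (MonoidHom.id G) (𝟙 A) n = 𝟙 _ :=
    groupCohomology.map_id n
  have h3 : groupCohomology.map (MonoidHom.id G) (0 : A ⟶ A) n = 0 := by
    unfold groupCohomology.map
    rw [cochainsMap_zero, HomologicalComplex.homologyMap_zero]
    rfl
  have h4 : (𝟙 (groupCohomology A n) : groupCohomology A n ⟶ groupCohomology A n) = 0 := by
    rw [← h2, h1, h3]
  calc y = (𝟙 (groupCohomology A n) : groupCohomology A n ⟶ groupCohomology A n).hom y := rfl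
    _ = 0 := by rw [h4]; rfl

/-- The finite-level cohomology of the zero module vanishes. -/
lemma HL_eq_zero_of_subsingleton (R : Rep.{0} k Γ) [Subsingleton R.V] (W : Subgroup Γ)
    [W.Normal] (n : ℕ) (y : HL R W n) : y = 0 := by
  haveI : Subsingleton (R.quotientToInvariants W).V :=
    ⟨fun a b => Subtype.ext (Subsingleton.elim _ _)⟩
  exact H_eq_zero_of_subsingleton _ n y

/-! ## The dévissage step -/

/-- An additive map between `k`-modules is `k`-linear when `ℤ → k` is surjective. -/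
def linOfAdd (hk : Function.Surjective (Int.cast : ℤ → k)) {M M' : Type} [AddCommGroup M]
    [Module k M] [AddCommGroup M'] [Module k M'] (f : M →+ M') : M →ₗ[k] M' where
  toFun := f
  map_add' := f.map_add
  map_smul' c x := by
    obtain ⟨n, rfl⟩ := hk c
    simp only [RingHom.id_apply]
    rw [Int.cast_smul_eq_zsmul, Int.cast_smul_eq_zsmul, map_zsmul]

/-- A finite nontrivial `p`-torsion abelian group has order divisible by `p`. -/
lemma dvd_card_of_torsion (p : ℕ) [Fact p.Prime] (M : Type) [AddCommGroup M] [Nontrivial M]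
    [Finite M] (hM : ∀ r : M, p • r = 0) : p ∣ Nat.card M := by
  have hPR : IsPGroup p (Multiplicative M) := fun x => ⟨1, by
    rw [pow_one]
    exact congrArg Multiplicative.ofAdd (hM x.toAdd)⟩
  have hc : Nat.card (Multiplicative M) = Nat.card M := Nat.card_congr Multiplicative.toAdd
  rcases hPR.card_eq_or_dvd with h | h
  · exfalso
    rw [hc] at h
    have := Finite.one_lt_card_iff_nontrivial.2 (inferInstance : Nontrivial M)
    omega
  · rwa [hc] at h

/-- The dévissage step: a nonzero finite `p`-torsion module on which `Γ` acts through a `p`-group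
contains a copy of `μ` (order `p`, trivial action), with strictly smaller quotient. -/
lemma exists_step (hk : Function.Surjective (Int.cast : ℤ → k)) (μ : Rep.{0} k Γ) (p : ℕ)
    (hp : p.Prime) (hμ : Nat.card μ.V = p) (hμtriv : ∀ (g : Γ) (m : μ.V), μ.ρ g m = m)
    (R : Rep.{0} k Γ) [Finite R.V] (hR : ∀ r : R.V, p • r = 0) (W : Subgroup Γ) [W.Normal]
    (hW : ActsTrivially W R) (hP : IsPGroup p (Γ ⧸ W)) [Nontrivial R.V] :
    ∃ (R₂ : Rep.{0} k Γ) (ι : μ ⟶ R) (π : R ⟶ R₂), Function.Injective ι.hom ∧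
      Function.Surjective π.hom ∧ (∀ x, π.hom x = 0 → ∃ y, ι.hom y = x) ∧
      (∀ y, π.hom (ι.hom y) = 0) ∧ Nat.card R₂.V < Nat.card R.V := by
  haveI : Fact p.Prime := ⟨hp⟩
  -- the action of `Γ ⧸ W`
  let ρ' : Γ ⧸ W →* (R.V →ₗ[k] R.V) := QuotientGroup.lift W R.ρ (fun w hw => by
    rw [MonoidHom.mem_ker]
    ext b
    exact hW w hw b)
  letI : MulAction (Γ ⧸ W) R.V :=
    { smul := fun g x => ρ' g x
      one_smul := fun x => by
        show ρ' 1 x = x
        rw [map_one]
        rfl
      mul_smul := fun g h x => by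
        show ρ' (g * h) x = ρ' g (ρ' h x)
        rw [map_mul]
        rfl }
  have hcard : p ∣ Nat.card R.V := dvd_card_of_torsion p R.V hR
  obtain ⟨r, hrfix, hr0⟩ :=
    hP.exists_fixed_point_of_prime_dvd_card_of_fixed_point R.V hcard (a := 0) (by
      rw [MulAction.mem_fixedPoints]
      intro g
      show ρ' g 0 = 0
      exact map_zero _)
  have hr : ∀ g : Γ, R.ρ g r = r := fun g =>
    MulAction.mem_fixedPoints.1 hrfix (g : Γ ⧸ W)
  have hord : addOrderOf r = p := addOrderOf_eq_prime (hR r) (Ne.symm hr0)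
  have hZ : Nat.card (AddSubgroup.zmultiples r) = p := by rw [Nat.card_zmultiples, hord]
  let e : μ.V ≃+ AddSubgroup.zmultiples r := addEquivOfPrimeCardEq hμ hZ
  let ι₀ : μ.V →+ R.V := (AddSubgroup.zmultiples r).subtype.comp e.toAddMonoidHom
  have hι₀fix : ∀ g m, R.ρ g (ι₀ m) = ι₀ m := by
    intro g m
    obtain ⟨n, hn⟩ := AddSubgroup.mem_zmultiples_iff.1 (e m).2
    show R.ρ g (e m : R.V) = (e m : R.V)
    rw [← hn, map_zsmul, hr g]
  have hι₀inj : Function.Injective ι₀ := fun a b hab =>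
    e.injective (Subtype.ext hab)
  let ιl : μ.V →ₗ[k] R.V := linOfAdd hk ι₀
  let ι : μ ⟶ R := Rep.ofHom ⟨ιl, fun g => by
    ext m
    show ιl (μ.ρ g m) = R.ρ g (ιl m)
    rw [hμtriv]
    exact (hι₀fix g m).symm⟩
  let S : Submodule k R.V := LinearMap.range ιl
  have hS : ∀ g, S ≤ S.comap (R.ρ g) := by
    rintro g x ⟨m, rfl⟩
    show R.ρ g (ιl m) ∈ S
    rw [show R.ρ g (ιl m) = ιl m from hι₀fix g m]
    exact ⟨m, rfl⟩
  refine ⟨R.quotient S hS, ι, R.mkQ S hS, hι₀inj, Submodule.mkQ_surjective S, ?_, ?_, ?_⟩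
  · intro x hx
    have hx' : S.mkQ x = 0 := hx
    rw [Submodule.mkQ_apply, Submodule.Quotient.mk_eq_zero] at hx'
    exact hx'
  · intro y
    show S.mkQ (ιl y) = 0
    rw [Submodule.mkQ_apply, Submodule.Quotient.mk_eq_zero]
    exact ⟨y, rfl⟩
  · show Nat.card (R.V ⧸ S) < Nat.card R.V
    have h1 := Submodule.card_eq_card_quotient_mul_card S
    have h2 : 1 < Nat.card S := by
      haveI : Nontrivial S := by
        obtain ⟨m, hm⟩ : ∃ m, ι₀ m = r := by
          have hrZ : r ∈ AddSubgroup.zmultiples r := AddSubgroup.mem_zmultiples r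
          exact ⟨e.symm ⟨r, hrZ⟩, by simp [ι₀]⟩
        exact ⟨⟨⟨r, ⟨m, hm⟩⟩, 0, fun h => hr0 (congrArg Subtype.val h).symm⟩⟩
      exact Finite.one_lt_card_iff_nontrivial.2 inferInstance
    haveI : Finite (R.V ⧸ S) := Finite.of_surjective S.mkQ (Submodule.mkQ_surjective S)
    have h3 : 0 < Nat.card (R.V ⧸ S) := Nat.card_pos
    nlinarith

/-! ## The induction -/

/-- **KB-DEV-C.** -/
theorem devPGroup : DevPGroupSpec := by
  intro k Γ _ _ hk N μ p hp hμ hμtriv hμeff
  suffices H : ∀ n : ℕ, ∀ R : Rep.{0} k Γ, Finite R.V → Nat.card R.V ≤ n →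
      (∀ r : R.V, p • r = 0) →
      (∃ V : N.Lvl, ActsTrivially V.W R ∧ IsPGroup p (Γ ⧸ V.W)) → EffAll N R 3 from
    fun R hfin hR hV => H _ R hfin le_rfl hR hV
  intro n
  induction n with
  | zero =>
    intro R hfin hcard hR hV V y
    exfalso
    have := Nat.card_pos (α := R.V)
    omega
  | succ n ih =>
    intro R hfin hcard hR hV V y
    obtain ⟨V₀, hV₀, hP⟩ := hV
    by_cases hsub : Subsingleton R.V
    · exact ⟨V, le_rfl, HL_eq_zero_of_subsingleton R V.W 3 _⟩
    · haveI : Nontrivial R.V := not_subsingleton_iff_nontrivial.1 hsub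
      obtain ⟨R₂, ι, π, hι, hπ, hex, hzero, hlt⟩ :=
        exists_step hk μ p hp hμ hμtriv R hR V₀.W hV₀ hP
      have hfin₂ : Finite R₂.V := Finite.of_surjective π.hom hπ
      have hR₂ : ∀ r : R₂.V, p • r = 0 := by
        intro r
        obtain ⟨x, rfl⟩ := hπ r
        rw [← map_nsmul, hR, map_zero]
      have hV₀₂ : ActsTrivially V₀.W R₂ := by
        intro w hw r
        obtain ⟨x, rfl⟩ := hπ r
        rw [← Rep.hom_comm_apply, hV₀ w hw]
      have hE₂ : EffAll N R₂ 3 := ih R₂ hfin₂ (by omega) hR₂ ⟨V₀, hV₀₂, hP⟩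
      obtain ⟨V₁, h1V, h1V₀⟩ := N.exists_le V V₀
      obtain ⟨V₂, h21, hz₁⟩ := hE₂ V₁ ((push π V₁.W 3).hom ((infl R h1V 3).hom y))
      have hpy₂ : (push π V₂.W 3).hom ((infl R h21 3).hom ((infl R h1V 3).hom y)) = 0 := by
        rw [← push_infl_apply]
        exact hz₁
      have hW₂ : ActsTrivially V₂.W R := fun w hw b => hV₀ w (h1V₀ (h21 hw)) b
      obtain ⟨z, hz⟩ := exact_push ι π V₂.W hι hπ hex hzero hW₂ 3 _ hpy₂
      obtain ⟨V₃, h32, hz₃⟩ := hμeff V₂ z
      refine ⟨V₃, h32.trans (h21.trans h1V), ?_⟩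
      have h5 : (infl R h32 3).hom ((infl R h21 3).hom ((infl R h1V 3).hom y)) = 0 := by
        rw [← hz, push_infl_apply, hz₃, map_zero]
      rw [infl_infl_apply, infl_infl_apply] at h5
      exact h5

end Fermat.Agent.S55.KL.H784
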