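import Fermat.Agent.S55.KL.Spec
import Fermat.Agent.S55.H783.Natural

/-!
# S55, layer KB, leaf KB-NAT (helper304): naturality of `δ` along group homomorphisms

`deltaNat : DeltaNatSpec`, a repackaging of `H783.δ_naturality_map` (on main): the three
morphisms `φ₁, φ₂, φ₃` with the two commuting squares form a morphism of short complexes
`X.map (Rep.resFunctor f) ⟶ Y`.
-/

set_option autoImplicit false

open CategoryTheory groupCohomology

namespace Fermat.Agent.S55.KL.H304

open Fermat.Agent.S55.KL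

/-- **KB-NAT.** -/
theorem deltaNat : DeltaNatSpec := by
  intro k G H _ _ _ f X hX Y hY φ₁ φ₂ φ₃ h₁₂ h₂₃ i j hij
  let Φ : X.map (Rep.resFunctor f) ⟶ Y :=
    { τ₁ := φ₁
      τ₂ := φ₂
      τ₃ := φ₃
      comm₁₂ := h₁₂.symm
      comm₂₃ := h₂₃.symm }
  exact Fermat.Agent.S55.H783.δ_naturality_map f hX hY Φ i j hij

end Fermat.Agent.S55.KL.H304
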