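import Fermat.Agent.S55.PT.Levels

/-!
# S55 / layer KL, leaf KL-P1 (core): finiteness of `H¹_lc(G, N)` from finiteness of the
`p`-Frattini quotients

Setting: an abstract group `G` with a level system `L` whose levels have finite index, a field
`k`, and a uniformly smooth representation `N` of `G` over `k`, finite-dimensional.  Suppose that
for every level `U` there is a level `V ≤ U` which is killed by every level-constant function
`χ : G → k` that is additive on `U`.  Then `H¹_lc(G, N)` is finite-dimensional.

Proof: let `U` act trivially on `N`, and `V ≤ U` as above.  For a level-constant `1`-cocycle `c`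
and a functional `ℓ` on `N` the function `ℓ ∘ c` is level-constant and additive on `U`, hence
vanishes on `V`; so `c` vanishes on `V` and is therefore right-`V`-invariant.  The space of
right-`V`-invariant functions `G → N` is `(G ⧸ V → N)`, which is finite-dimensional.

This file imports only `PT/Levels.lean`.
-/

set_option autoImplicit false
set_option linter.style.haveILetI false

noncomputable section

namespace Fermat.Agent.S55.KL.H539

open groupCohomology Fermat.Agent.S55.PT

variable {G : Type} [Group G] {k : Type} [Field k]

/-- The space of right-`V`-invariant functions `G → N`. -/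
def constMod (V : Subgroup G) (N : Type) [AddCommGroup N] [Module k N] : Submodule k (G → N) where
  carrier := {f | ∀ g s : G, s ∈ V → f (g * s) = f g}
  add_mem' := by
    intro f f' hf hf' g s hs
    simp only [Pi.add_apply, hf g s hs, hf' g s hs]
  zero_mem' := fun _ _ _ => rfl
  smul_mem' := by
    intro c f hf g s hs
    simp only [Pi.smul_apply, hf g s hs]

lemma mem_constMod_iff (V : Subgroup G) (N : Type) [AddCommGroup N] [Module k N] (f : G → N) :
    f ∈ constMod (k := k) V N ↔ ∀ g s : G, s ∈ V → f (g * s) = f g := Iff.rfl

/-- Restriction of a right-`V`-invariant function to `G ⧸ V`, as a linear map into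
`(G ⧸ V → N)`; injective. -/
def constModToQuot (V : Subgroup G) (N : Type) [AddCommGroup N] [Module k N] :
    ↥(constMod (k := k) V N) →ₗ[k] (G ⧸ V → N) where
  toFun f := fun x => (f : G → N) (Quotient.out x)
  map_add' _ _ := rfl
  map_smul' _ _ := rfl

lemma constModToQuot_injective (V : Subgroup G) (N : Type) [AddCommGroup N] [Module k N] :
    Function.Injective (constModToQuot (k := k) V N) := by
  intro f f' h
  apply Subtype.ext
  funext g
  obtain ⟨u, hu⟩ := QuotientGroup.mk_out_eq_mul V g
  have h1 := congrFun h (g : G ⧸ V)
  simp only [constModToQuot, LinearMap.coe_mk, AddHom.coe_mk] at h1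
  rw [hu] at h1
  rw [f.2 g u u.2, f'.2 g u u.2] at h1
  exact h1

/-- The space of right-`V`-invariant functions is finite-dimensional if `V` has finite index and
`N` is finite-dimensional. -/
lemma finiteDimensional_constMod (V : Subgroup G) [V.FiniteIndex] (N : Type) [AddCommGroup N]
    [Module k N] [FiniteDimensional k N] : FiniteDimensional k ↥(constMod (k := k) V N) := by
  haveI : Finite (G ⧸ V) := Subgroup.finite_quotient_of_finiteIndex
  haveI : Fintype (G ⧸ V) := Fintype.ofFinite _
  exact FiniteDimensional.of_injective (constModToQuot (k := k) V N)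
    (constModToQuot_injective V N)

/-- A cocycle whose composites with all functionals vanish on `V` is right-`V`-invariant. -/
lemma cocycle_mem_constMod (N : Rep.{0, 0, 0} k G) (V : Subgroup G) (c : G → N)
    (hc : c ∈ cocycles₁ N) (hV : ∀ s ∈ V, c s = 0) : c ∈ constMod (k := k) V N := by
  intro g s hs
  have h := (mem_cocycles₁_iff c).1 hc g s
  rw [h, hV s hs, map_zero, zero_add]

/-- **KL-P1 (core).**  Finiteness of the `p`-Frattini quotients (in the cochain form of
`KL.PFrattiniFinite`, over any field `k`) implies that `H¹_lc(G, N)` is finite-dimensional for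
every finite-dimensional uniformly smooth `N`. -/
theorem finiteDimensional_H1_of_frattini (L : LevelSys G) (hFI : L.FiniteIndex)
    (hFr : ∀ U ∈ L.levels, ∃ V ∈ L.levels, V ≤ U ∧
      ∀ χ : G → k, (∀ s t : G, s ∈ U → t ∈ U → χ (s * t) = χ s + χ t) → L.IsLC₁ χ →
        ∀ s ∈ V, χ s = 0)
    (N : Rep.{0, 0, 0} k G) [FiniteDimensional k N] (hN : L.IsUSmooth N) :
    FiniteDimensional k (L.H1 N) := by
  obtain ⟨U, hU, hUN⟩ := hN
  obtain ⟨V, hV, hVU, hkill⟩ := hFr U hU
  haveI : V.FiniteIndex := hFI V hV
  -- every level-constant cocycle is right-`V`-invariant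
  have hle : L.Z1 N ≤ constMod (k := k) V N := by
    intro c hc
    apply cocycle_mem_constMod N V c hc.1
    intro s hs
    -- all functionals vanish on `c s`
    rw [← Module.forall_dual_apply_eq_zero_iff k (c s)]
    intro ℓ
    have hadd : ∀ s t : G, s ∈ U → t ∈ U → (ℓ ∘ c) (s * t) = (ℓ ∘ c) s + (ℓ ∘ c) t := by
      intro s t hs _
      have h := (mem_cocycles₁_iff c).1 hc.1 s t
      simp only [Function.comp_apply]
      rw [h, hUN s hs (c t), map_add, add_comm]
    exact hkill (ℓ ∘ c) hadd (LevelSys.IsLC₁.comp hc.2 ℓ) s hs
  haveI : FiniteDimensional k ↥(constMod (k := k) V N) := finiteDimensional_constMod V N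
  haveI : FiniteDimensional k ↥(L.Z1 N) :=
    FiniteDimensional.of_injective (Submodule.inclusion hle) (Submodule.inclusion_injective hle)
  exact Module.Finite.of_surjective (L.H1π N) (L.H1π_surjective N)

/-- Set-theoretic finiteness of the level-constant cocycles, for a finite field. -/
theorem finite_Z1_of_frattini [Finite k] (L : LevelSys G) (hFI : L.FiniteIndex)
    (hFr : ∀ U ∈ L.levels, ∃ V ∈ L.levels, V ≤ U ∧
      ∀ χ : G → k, (∀ s t : G, s ∈ U → t ∈ U → χ (s * t) = χ s + χ t) → L.IsLC₁ χ →
        ∀ s ∈ V, χ s = 0)
    (N : Rep.{0, 0, 0} k G) [FiniteDimensional k N] (hN : L.IsUSmooth N) :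
    Finite (L.H1 N) := by
  haveI := finiteDimensional_H1_of_frattini L hFI hFr N hN
  exact Module.finite_of_finite k

end Fermat.Agent.S55.KL.H539

end
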