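import Fermat.Agent.S55.PT.Levels
import Fermat.Agent.S55.PT.LevelsNormal
import Fermat.Agent.S55.H414.CycloMain

/-!
# S55 / layer KL, leaf KL-A3 (`LocalPUnboundedSpec`)   (helper707)

The `p`-part of the indices `[G_{ℚ_q} : V]` of the normal local levels `V ≤ V₀` is unbounded:

`localPUnbounded p q V₀ hV₀ m : ∃ V ∈ (localLevels q).levels, V.Normal ∧ V ≤ V₀ ∧ p ^ m ∣ V.index`.

This is the statement `KL.LocalPUnboundedSpec` of helper53's `KL/Spec.lean` with
`PUnbounded (localLevels q) p V₀ (fun V => V.index)` unfolded (so that this file only depends on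
files which are on main): `fun p _ q V₀ h => localPUnbounded p q V₀ h` has that type.

Proof: `V` = pull-back of `G_E`, `E` the normal closure of `F₀ · ℚ(ζ_{p^n})`, `n ≫ 0`, and
helper414's CYC-INF (`H414.exists_forall_pow_dvd_relIndex_primeLocal`: the local degree of
`ℚ(ζ_{p^n})` at `q` is divisible by `p ^ m`).
-/

set_option autoImplicit false
set_option linter.style.haveILetI false

namespace Fermat.Agent.S55.KL.PUnboundedH707

open Fermat.Agent.S55.PT Fermat.Agent.S55.H414 ExtCitation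

/-- the index of a pulled-back level is the local degree -/
theorem index_comap_fixingSubgroup {G : Type} [Group G] (r : G →* GQ)
    (F : IntermediateField ℚ (AlgebraicClosure ℚ)) :
    (F.fixingSubgroup.comap r).index = F.fixingSubgroup.relIndex r.range :=
  Subgroup.index_comap F.fixingSubgroup r

/-- General form: along ANY homomorphism `r : G → G_ℚ` for which the degrees
`[r(G) : r(G) ∩ G_{ℚ(ζ_{p^n})}]` are `p`-adically unbounded. -/
theorem pullback_pUnbounded {G : Type} [Group G] (r : G →* GQ) (p : ℕ) [Fact p.Prime]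
    (hcyc : ∀ k : ℕ, ∃ n : ℕ, p ^ k ∣ (cycloLevel (p ^ n)).fixingSubgroup.relIndex r.range)
    (V₀ : Subgroup G) (hV₀ : V₀ ∈ (pullbackLevels r).levels) (m : ℕ) :
    ∃ V : Subgroup G, V ∈ (pullbackLevels r).levels ∧ V.Normal ∧ V ≤ V₀ ∧ p ^ m ∣ V.index := by
  obtain ⟨F₀, hF₀, rfl⟩ := hV₀
  haveI := hF₀
  obtain ⟨n, hn⟩ := hcyc m
  haveI : FiniteDimensional ℚ (cycloLevel (p ^ n)) := by
    unfold cycloLevel
    exact IntermediateField.adjoin.finiteDimensional
      ((AlgebraicClosure.isAlgebraic ℚ).isIntegral.isIntegral _)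
  -- the level of `F₀ · ℚ(ζ_{p^n})`
  have hU : (F₀ ⊔ cycloLevel (p ^ n)).fixingSubgroup.comap r ∈ (pullbackLevels r).levels :=
    ⟨F₀ ⊔ cycloLevel (p ^ n), inferInstance, rfl⟩
  obtain ⟨V, hV, hVU, hVn⟩ := pullbackLevels_normal_cofinal724 r _ hU
  refine ⟨V, hV, hVn, ?_, ?_⟩
  · exact hVU.trans (Subgroup.comap_mono (IntermediateField.fixingSubgroup_antitone le_sup_left))
  · have h1 : ((F₀ ⊔ cycloLevel (p ^ n)).fixingSubgroup.comap r).index ∣ V.index :=
      Subgroup.index_dvd_of_le hVU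
    have h2 : (cycloLevel (p ^ n)).fixingSubgroup.relIndex r.range ∣
        (F₀ ⊔ cycloLevel (p ^ n)).fixingSubgroup.relIndex r.range :=
      relIndex_fixingSubgroup_dvd_of_le le_sup_right _
    rw [index_comap_fixingSubgroup] at h1
    exact hn.trans (h2.trans h1)

/-- **KL-A3** (`LocalPUnboundedSpec`, unfolded). -/
theorem localPUnbounded (p : ℕ) [Fact p.Prime] (q : Nat.Primes) (V₀ : Subgroup (Gl q))
    (hV₀ : V₀ ∈ (localLevels q).levels) (m : ℕ) :
    ∃ V : Subgroup (Gl q), V ∈ (localLevels q).levels ∧ V.Normal ∧ V ≤ V₀ ∧ p ^ m ∣ V.index := by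
  refine pullback_pUnbounded (rl q) p ?_ V₀ hV₀ m
  intro k
  obtain ⟨n₀, hn₀⟩ := exists_forall_pow_dvd_relIndex_primeLocal p q k
  exact ⟨n₀, hn₀ n₀ le_rfl⟩

end Fermat.Agent.S55.KL.PUnboundedH707
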