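import Fermat.Agent.S55.KL.Spec
import Fermat.Agent.S55.T.CoresH572

/-!
# S55, layer KL / KB, leaf KB-DEV-B : `DevSylowSpec` (helper543)

Sylow reduction for `colim H³(Γ, R) = 0`:  to prove that every class of
`H³(Γ ⧸ V', R^{V'})` is effaceable (for a finite smooth `p`-torsion module `R`) it suffices to
prove it for the open subgroups `U` such that `U ⧸ V` is a `p`-group for a level `V ≤ V₀` acting
trivially on `R`.

Proof.  Choose a level `V ≤ V₀` acting trivially on `R`, a Sylow `p`-subgroup `P` of `Γ ⧸ V` and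
let `U` be its preimage.  For every level `W ≤ V` the index of the image of `U` in `Γ ⧸ W` is
`[Γ : U]`, prime to `p`; hence (`ResIndexSpec`) `rest : Hⁿ(Γ ⧸ W, R^W) → Hⁿ(U ⧸ W, R^W)` is
injective.  As `rest` commutes with inflation, a class which becomes effaceable after `rest` is
effaceable.

Main results:
* `HLmap_comp`, `HLmap_congr`, `infl_infl`, `rest_infl` : functoriality of finite-level cohomology;
* `eq_zero_of_rest_eq_zero` : injectivity of `rest` in the coprime index case;
* `devSylow_of : T.ResIndexSpec → DevSylowSpec`, `devSylow : DevSylowSpec`.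
-/

set_option autoImplicit false
set_option linter.style.haveILetI false

open CategoryTheory groupCohomology

namespace Fermat.Agent.S55.KL.H543

open Fermat.Agent.S55.KL

variable {k : Type} [CommRing k]

/-! ## Functoriality of `HLmap` -/

section Functoriality

variable {Γ Γ' Γ'' : Type} [Group Γ] [Group Γ'] [Group Γ'']

lemma HLmap_congr {B : Rep.{0} k Γ} {B' : Rep.{0} k Γ'} {f f' : Γ' →* Γ} {W : Subgroup Γ}
    [W.Normal] {W' : Subgroup Γ'} [W'.Normal] (hf : W' ≤ W.comap f) (hf' : W' ≤ W.comap f')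
    (φ : Rep.res f B ⟶ B') (φ' : Rep.res f' B ⟶ B') (h : f = f')
    (hφ : ∀ b : B.V, φ.hom b = φ'.hom b) (n : ℕ) :
    HLmap f hf φ n = HLmap f' hf' φ' n := by
  subst h
  refine groupCohomology.map_congr rfl ?_ n
  ext b
  exact hφ b.1

lemma HLmap_comp {B : Rep.{0} k Γ} {B' : Rep.{0} k Γ'} {B'' : Rep.{0} k Γ''}
    (f : Γ' →* Γ) (g : Γ'' →* Γ') {W : Subgroup Γ} [W.Normal] {W' : Subgroup Γ'} [W'.Normal]
    {W'' : Subgroup Γ''} [W''.Normal] (hf : W' ≤ W.comap f) (hg : W'' ≤ W'.comap g)
    (φ : Rep.res f B ⟶ B') (ψ : Rep.res g B' ⟶ B'') (n : ℕ) :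
    HLmap f hf φ n ≫ HLmap g hg ψ n =
      HLmap (f.comp g) (fun _ hx => hf (hg hx)) ((Rep.resFunctor g).map φ ≫ ψ) n := by
  unfold HLmap
  rw [← groupCohomology.map_comp]
  refine groupCohomology.map_congr ?_ ?_ n
  · ext x
    rfl
  · ext b
    rfl

end Functoriality

section InflRest

variable {Γ : Type} [Group Γ]

/-- Inflation is transitive. -/
lemma infl_infl (B : Rep.{0} k Γ) {W'' W' W : Subgroup Γ} [W''.Normal] [W'.Normal] [W.Normal]
    (h' : W'' ≤ W') (h : W' ≤ W) (n : ℕ) (y : HL B W n) :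
    (infl B h' n).hom ((infl B h n).hom y) = (infl B (h'.trans h) n).hom y := by
  have e : infl B h n ≫ infl B h' n = infl B (h'.trans h) n := by
    unfold infl
    rw [HLmap_comp]
    exact HLmap_congr _ _ _ _ rfl (fun b => rfl) n
  rw [← e]
  rfl

/-- Restriction commutes with inflation. -/
lemma rest_infl (B : Rep.{0} k Γ) (U : Subgroup Γ) {W' W : Subgroup Γ} [W'.Normal] [W.Normal]
    (h : W' ≤ W) (n : ℕ) (y : HL B W n) :
    (rest B U W' n).hom ((infl B h n).hom y) =
      (infl (Rep.res U.subtype B) (W' := W'.subgroupOf U) (W := W.subgroupOf U)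
        (fun _ hx => h hx) n).hom ((rest B U W n).hom y) := by
  have e : infl B h n ≫ rest B U W' n =
      rest B U W n ≫ infl (Rep.res U.subtype B) (W' := W'.subgroupOf U) (W := W.subgroupOf U)
        (fun _ hx => h hx) n := by
    have e1 := HLmap_comp (B := B) (B' := B) (B'' := Rep.res U.subtype B) (MonoidHom.id Γ)
      U.subtype (W := W) (W' := W') (W'' := W'.subgroupOf U) (by simpa using h) le_rfl
      (𝟙 B) (𝟙 (Rep.res U.subtype B)) n
    have e2 := HLmap_comp (B := B) (B' := Rep.res U.subtype B) (B'' := Rep.res U.subtype B)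
      U.subtype (MonoidHom.id ↥U) (W := W) (W' := W.subgroupOf U) (W'' := W'.subgroupOf U)
      le_rfl (fun _ hx => h hx) (𝟙 (Rep.res U.subtype B)) (𝟙 (Rep.res U.subtype B)) n
    exact e1.trans ((HLmap_congr _ _ _ _ rfl (fun b => rfl) n).trans e2.symm)
  have e' := congrArg (fun f => f.hom y) e
  exact e'

end InflRest

/-! ## Injectivity of restriction to a subgroup of index prime to `p` -/

section RestInj

variable {Γ : Type} [Group Γ]

/-- The natural map `U ⧸ (W ∩ U) → Γ ⧸ W`. -/
noncomputable abbrev quotIncl (U W : Subgroup Γ) [W.Normal] :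
    ↥U ⧸ W.subgroupOf U →* Γ ⧸ W :=
  QuotientGroup.map (W.subgroupOf U) W U.subtype le_rfl

lemma quotIncl_injective (U W : Subgroup Γ) [W.Normal] : Function.Injective (quotIncl U W) := by
  rw [injective_iff_map_eq_one]
  intro x hx
  induction x using QuotientGroup.induction_on with
  | H u =>
    have h1 : ((u : Γ) : Γ ⧸ W) = 1 := hx
    rw [QuotientGroup.eq_one_iff] at h1 ⊢
    exact h1

lemma comap_range_quotIncl (U W : Subgroup Γ) [W.Normal] (hWU : W ≤ U) :
    (quotIncl U W).range.comap (QuotientGroup.mk' W) = U := by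
  ext g
  simp only [Subgroup.mem_comap, MonoidHom.mem_range]
  constructor
  · rintro ⟨x, hx⟩
    induction x using QuotientGroup.induction_on with
    | H u =>
      have h1 : ((u : Γ) : Γ ⧸ W) = (g : Γ ⧸ W) := hx
      rw [QuotientGroup.eq] at h1
      have h2 := U.mul_mem u.2 (hWU h1)
      simpa using h2
  · intro hg
    exact ⟨((⟨g, hg⟩ : U) : ↥U ⧸ W.subgroupOf U), rfl⟩

lemma index_range_quotIncl (U W : Subgroup Γ) [W.Normal] (hWU : W ≤ U) :
    (quotIncl U W).range.index = U.index := by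
  conv_rhs => rw [← comap_range_quotIncl U W hWU]
  exact (Subgroup.index_comap_of_surjective _ (QuotientGroup.mk'_surjective W)).symm

/-- The section of `quotIncl` over its range. -/
noncomputable def quotSec (U W : Subgroup Γ) [W.Normal] :
    ↥(quotIncl U W).range →* ↥U ⧸ W.subgroupOf U :=
  (MonoidHom.ofInjective (quotIncl_injective U W)).symm.toMonoidHom

lemma quotIncl_quotSec (U W : Subgroup Γ) [W.Normal] (h : ↥(quotIncl U W).range) :
    quotIncl U W (quotSec U W h) = (h : Γ ⧸ W) := by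
  have := (MonoidHom.ofInjective (quotIncl_injective U W)).apply_symm_apply h
  exact congrArg Subtype.val this

/-- `B^{W ∩ U} → B^W` for `W ≤ U` (underlying linear map). -/
def invBackLin (B : Rep.{0} k Γ) (U W : Subgroup Γ) (hWU : W ≤ U) :
    ↥(Representation.invariants ((Rep.res U.subtype B).ρ.comp (W.subgroupOf U).subtype)) →ₗ[k]
      ↥(Representation.invariants (B.ρ.comp W.subtype)) where
  toFun b := ⟨b.1, fun w => b.2 ⟨⟨w.1, hWU w.2⟩, Subgroup.mem_subgroupOf.2 w.2⟩⟩
  map_add' _ _ := rfl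
  map_smul' _ _ := rfl

/-- `B^{W ∩ U} → B^W` as a morphism of representations of the image of `U` in `Γ ⧸ W`. -/
noncomputable def invBack (B : Rep.{0} k Γ) (U W : Subgroup Γ) [W.Normal] (hWU : W ≤ U) :
    Rep.res (quotSec U W) ((Rep.res U.subtype B).quotientToInvariants (W.subgroupOf U)) ⟶
      Rep.res (quotIncl U W).range.subtype (B.quotientToInvariants W) :=
  Rep.ofHom ⟨invBackLin B U W hWU, fun h => by
    have hj := quotIncl_quotSec U W h
    ext b
    show (((Rep.res U.subtype B).quotientToInvariants (W.subgroupOf U)).ρ (quotSec U W h) b).1 =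
      ((B.quotientToInvariants W).ρ (h : Γ ⧸ W) (invBackLin B U W hWU b)).1
    rw [← hj]
    generalize quotSec U W h = x
    induction x using QuotientGroup.induction_on with
    | H u => rfl⟩

/-- `rest` followed by the transport back is the restriction to the image of `U` in `Γ ⧸ W`. -/
lemma rest_comp_back (B : Rep.{0} k Γ) (U W : Subgroup Γ) [W.Normal] (hWU : W ≤ U) (n : ℕ) :
    rest B U W n ≫ groupCohomology.map (quotSec U W) (invBack B U W hWU) n =
      Fermat.Agent.S55.T.resMap (B.quotientToInvariants W) (quotIncl U W).range n := by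
  unfold rest HLmap Fermat.Agent.S55.T.resMap
  rw [← groupCohomology.map_comp]
  refine groupCohomology.map_congr ?_ ?_ n
  · ext h
    exact quotIncl_quotSec U W h
  · ext b
    rfl

/-- If `rest y = 0` then `[Γ : U] • y = 0` (for `W ≤ U`). -/
theorem index_nsmul_eq_zero_of_rest (hRI : Fermat.Agent.S55.T.ResIndexSpec) (B : Rep.{0} k Γ)
    (U W : Subgroup Γ) [W.Normal] [W.FiniteIndex] (hWU : W ≤ U) (n : ℕ) (hn : 0 < n)
    (y : HL B W n) (hy : (rest B U W n).hom y = 0) : U.index • y = 0 := by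
  haveI : Finite (Γ ⧸ W) := Subgroup.finite_quotient_of_finiteIndex
  have h1 : (Fermat.Agent.S55.T.resMap (B.quotientToInvariants W) (quotIncl U W).range n).hom y
      = 0 := by
    rw [← rest_comp_back B U W hWU n]
    simp [hy]
  have h2 := hRI k (Γ ⧸ W) (B.quotientToInvariants W) (quotIncl U W).range n hn y h1
  rwa [index_range_quotIncl U W hWU] at h2

lemma nsmul_eq_zero_of_coeff {G : Type} [Group G] (A : Rep.{0} k G) (p n : ℕ)
    (hA : ∀ a : A.V, p • a = 0) (x : groupCohomology A n) : p • x = 0 := by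
  induction x using groupCohomology_induction_on with
  | h c =>
    have hc : p • c = 0 := by
      apply (ModuleCat.mono_iff_injective (iCocycles A n)).1 inferInstance
      rw [map_nsmul, map_zero]
      funext g
      exact hA _
    rw [← map_nsmul, hc, map_zero]

/-- **Injectivity of `rest`** on the cohomology of a `p`-torsion module, for `U` of index prime
to `p`. -/
theorem eq_zero_of_rest_eq_zero (hRI : Fermat.Agent.S55.T.ResIndexSpec) (B : Rep.{0} k Γ)
    (p : ℕ) (hB : ∀ b : B.V, p • b = 0)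
    (U W : Subgroup Γ) [W.Normal] [W.FiniteIndex] (hWU : W ≤ U) (hU : Nat.Coprime U.index p)
    (n : ℕ) (hn : 0 < n)
    (y : HL B W n) (hy : (rest B U W n).hom y = 0) : y = 0 := by
  have h1 := index_nsmul_eq_zero_of_rest hRI B U W hWU n hn y hy
  have h2 : p • y = 0 :=
    nsmul_eq_zero_of_coeff (B.quotientToInvariants W) p n
      (fun a => Subtype.ext (hB a.1)) y
  have h3 : addOrderOf y ∣ 1 := by
    rw [← Nat.Coprime.gcd_eq_one hU]
    exact Nat.dvd_gcd (addOrderOf_dvd_of_nsmul_eq_zero h1) (addOrderOf_dvd_of_nsmul_eq_zero h2)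
  exact AddMonoid.addOrderOf_eq_one_iff.1 (Nat.dvd_one.1 h3)

end RestInj

/-! ## Levels acting trivially, Sylow subgroups -/

section Sylow

variable {Γ : Type} [Group Γ]

/-- A finite smooth module is fixed by a level (which may be chosen below a given level). -/
lemma exists_lvl_actsTrivially (N : NLevels Γ) (R : Rep.{0} k Γ) [Finite R.V]
    (hs : IsSmooth N R) (V₀ : N.Lvl) : ∃ V : N.Lvl, V.W ≤ V₀.W ∧ ActsTrivially V.W R := by
  classical
  have key : ∀ s : Finset R.V, ∃ V : N.Lvl, V.W ≤ V₀.W ∧ ∀ w ∈ V.W, ∀ b ∈ s, R.ρ w b = b := by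
    intro s
    induction s using Finset.induction_on with
    | empty => exact ⟨V₀, le_rfl, by simp⟩
    | insert a s ha ih =>
      obtain ⟨V, hV, hVs⟩ := ih
      obtain ⟨W, hW, hWa⟩ := hs a
      obtain ⟨X, hX1, hX2⟩ := N.exists_le V ⟨W, hW⟩
      refine ⟨X, hX1.trans hV, fun w hw b hb => ?_⟩
      rcases Finset.mem_insert.1 hb with rfl | hb
      · exact hWa w (hX2 hw)
      · exact hVs w (hX1 hw) b hb
  haveI := Fintype.ofFinite R.V
  obtain ⟨V, hV, h⟩ := key Finset.univ
  exact ⟨V, hV, fun w hw b => h w hw b (Finset.mem_univ b)⟩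

/-- The preimage of a Sylow `p`-subgroup of `Γ ⧸ W`. -/
lemma exists_sylow_preimage (W : Subgroup Γ) [W.Normal] [W.FiniteIndex] (p : ℕ) (hp : p.Prime) :
    ∃ U : Subgroup Γ, W ≤ U ∧ IsPGroup p (↥U ⧸ W.subgroupOf U) ∧ Nat.Coprime U.index p := by
  haveI : Fact p.Prime := ⟨hp⟩
  haveI : Finite (Γ ⧸ W) := Subgroup.finite_quotient_of_finiteIndex
  obtain ⟨P⟩ : Nonempty (Sylow p (Γ ⧸ W)) := inferInstance
  refine ⟨(P : Subgroup (Γ ⧸ W)).comap (QuotientGroup.mk' W), ?_, ?_, ?_⟩
  · intro w hw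
    show ((w : Γ) : Γ ⧸ W) ∈ (P : Subgroup (Γ ⧸ W))
    rw [(QuotientGroup.eq_one_iff w).2 hw]
    exact Subgroup.one_mem _
  · intro x
    induction x using QuotientGroup.induction_on with
    | H u =>
      obtain ⟨j, hj⟩ := P.isPGroup' ⟨((u : Γ) : Γ ⧸ W), u.2⟩
      refine ⟨j, ?_⟩
      have h1 : (((u : Γ) : Γ ⧸ W)) ^ (p ^ j) = 1 := congrArg Subtype.val hj
      rw [← QuotientGroup.mk_pow, QuotientGroup.eq_one_iff] at h1
      rw [← QuotientGroup.mk_pow, QuotientGroup.eq_one_iff, Subgroup.mem_subgroupOf]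
      simpa using h1
  · rw [Subgroup.index_comap_of_surjective _ (QuotientGroup.mk'_surjective W)]
    exact ((Nat.Prime.coprime_iff_not_dvd hp).2 P.not_dvd_index).symm

end Sylow

/-! ## The Sylow reduction -/

/-- **KB-DEV-B** from `ResIndexSpec`. -/
theorem devSylow_of (hRI : Fermat.Agent.S55.T.ResIndexSpec) : DevSylowSpec := by
  intro k Γ _ _ N p hp R hfin htors hsm V₀ H V' y
  haveI := hfin
  obtain ⟨V, hVV₀, hVtriv⟩ := exists_lvl_actsTrivially N R hsm V₀
  obtain ⟨U, hVU, hPG, hcop⟩ := exists_sylow_preimage V.W p hp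
  have hEff := H U V hVU hVV₀ hVtriv hPG
  obtain ⟨X, hXV', hXV⟩ := N.exists_le V' V
  obtain ⟨Y', hY', hz⟩ := hEff (X.restrict U) ((rest R U X.W 3).hom ((infl R hXV' 3).hom y))
  obtain ⟨W'', hW'', hYW⟩ := Y'.mem
  obtain ⟨X', hX'W, hX'X⟩ := N.exists_le ⟨W'', hW''⟩ X
  have hle : X'.W.subgroupOf U ≤ Y'.W := by
    rw [hYW]
    exact fun _ hx => hX'W hx
  refine ⟨X', hX'X.trans hXV', ?_⟩
  rw [← infl_infl R hX'X hXV' 3 y]
  apply eq_zero_of_rest_eq_zero hRI R p htors U X'.W (hX'X.trans (hXV.trans hVU)) hcop 3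
    (by norm_num)
  rw [rest_infl R U hX'X 3]
  have h1 := infl_infl (Rep.res U.subtype R) hle hY' 3
    ((rest R U X.W 3).hom ((infl R hXV' 3).hom y))
  rw [hz, map_zero] at h1
  exact h1.symm

/-- **KB-DEV-B.** -/
theorem devSylow : DevSylowSpec := devSylow_of Fermat.Agent.S55.T.H572.resIndex

end Fermat.Agent.S55.KL.H543
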