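import Fermat.Agent.S55.KL.H289.PFunct

/-!
# S55, layer KB, leaf KB-KUM3 (helper289): the finite-level Kummer chase in degree 3

`kummerH3_of : DeltaNatSpec → KummerH3Spec`  (the closed form `kummerH3 : KummerH3Spec` is in
`KummerH3ClosedH289.lean`, which plugs in `H304.deltaNat`).

Let `A` be smooth and `p`-divisible with `colim H³(A)[p] = 0` and `colim H²(A) ⊗ ℤ/p = 0`.
For `y ∈ H³(Γ ⧸ V, (A[p])^V)`:

1. `p • ι_* y = 0`, so `ι_* y` dies at a level `V₁` (`EffTors`);
2. at level `V₁` the sequence `0 → (A[p])^{V₁} → A^{V₁} → p • A^{V₁} → 0` (`ses1`) gives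
   `infl y = δ z`, `z ∈ H²(p • A^{V₁})`;
3. at a level `V₂`, `infl (j_* z) = p • w` (`EffDiv`), so `z₂ := infl z - π_* w` is killed by `j_*`
   and the sequence `0 → p • A^{V₂} → A^{V₂} → A^{V₂} ⧸ p → 0` (`ses2`) gives `z₂ = δ' u`,
   `u ∈ H¹(A^{V₂} ⧸ p)`;
4. `u` dies at a level `V₃` (`kill_H1`: the finitely many values of a cocycle representing `u`
   have `p`-th roots in `A`, all fixed by a common level);
5. hence `infl z = π_* (infl w)` at level `V₃` and `infl y = δ π_* (infl w) = 0`.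
-/

set_option autoImplicit false
set_option linter.style.haveILetI false

open CategoryTheory groupCohomology

namespace Fermat.Agent.S55.KL.H289

open Fermat.Agent.S55.KL

variable {k : Type} [CommRing k] {G : Type} [Group G]

/-- Exactness of the long exact sequence at `Hʲ(X₁)`, elementwise. -/
lemma exists_δ_eq {X : ShortComplex (Rep.{0} k G)} (hX : X.ShortExact) (i j : ℕ) (hij : i + 1 = j)
    (y : groupCohomology X.X₁ j)
    (hy : (groupCohomology.map (MonoidHom.id G) X.f j).hom y = 0) :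
    ∃ z : groupCohomology X.X₃ i, (δ hX i j hij).hom z = y := by
  have hex := mapShortComplex₁_exact hX hij
  rw [ShortComplex.moduleCat_exact_iff_ker_sub_range] at hex
  obtain ⟨z, hz⟩ := hex hy
  exact ⟨z, hz⟩

/-- `δ ∘ g_* = 0`, elementwise. -/
lemma δ_map_g {X : ShortComplex (Rep.{0} k G)} (hX : X.ShortExact) (i j : ℕ) (hij : i + 1 = j)
    (w : groupCohomology X.X₂ i) :
    (δ hX i j hij).hom ((groupCohomology.map (MonoidHom.id G) X.g i).hom w) = 0 := by
  have h := (mapShortComplex₃ hX hij).zero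
  exact congrArg (fun F => F.hom w) h

/-- A commutative square of coefficient maps over a group homomorphism. -/
lemma map_sq_id {G' : Type} [Group G'] (f : G' →* G) {A A' : Rep.{0} k G} {B B' : Rep.{0} k G'}
    (α : A ⟶ A') (β : B ⟶ B') (φ : Rep.res f A ⟶ B) (φ' : Rep.res f A' ⟶ B')
    (h : ∀ a : A.V, φ'.hom (α.hom a) = β.hom (φ.hom a)) (n : ℕ) (x : groupCohomology A n) :
    (groupCohomology.map f φ' n).hom ((groupCohomology.map (MonoidHom.id G) α n).hom x) =
      (groupCohomology.map (MonoidHom.id G') β n).hom ((groupCohomology.map f φ n).hom x) :=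
  map_sq_apply (MonoidHom.id G) f f (MonoidHom.id G') α φ' φ β rfl h n x

section Levels

variable {Γ : Type} [Group Γ] (A : Rep.{0} k Γ) (p : ℕ)

/-- `A^W` as a representation of `Γ ⧸ W`. -/
noncomputable abbrev BL (W : Subgroup Γ) [W.Normal] : Rep.{0} k (Γ ⧸ W) :=
  A.quotientToInvariants W

/-- `(A[p])^W` as a representation of `Γ ⧸ W`. -/
noncomputable abbrev ML (W : Subgroup Γ) [W.Normal] : Rep.{0} k (Γ ⧸ W) :=
  (tors A p).quotientToInvariants W

/-- The transition homomorphism `Γ ⧸ W' → Γ ⧸ W`. -/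
def qL {W' W : Subgroup Γ} [W'.Normal] [W.Normal] (h : W' ≤ W) : Γ ⧸ W' →* Γ ⧸ W :=
  QuotientGroup.map W' W (MonoidHom.id Γ) (by simpa using h)

lemma qL_comp {W'' W' W : Subgroup Γ} [W''.Normal] [W'.Normal] [W.Normal] (h' : W'' ≤ W')
    (h : W' ≤ W) : (qL h).comp (qL h') = qL (h'.trans h) := by
  ext g
  rfl

lemma qL_refl (W : Subgroup Γ) [W.Normal] : qL (le_refl W) = MonoidHom.id (Γ ⧸ W) := by
  ext g
  rfl

/-- The transition map `A^W → A^{W'}`. -/
noncomputable def tB {W' W : Subgroup Γ} [W'.Normal] [W.Normal] (h : W' ≤ W) :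
    Rep.res (qL h) (BL A W) ⟶ BL A W' :=
  invMap (MonoidHom.id Γ) (W := W) (W' := W') (by simpa using h) (𝟙 A)

lemma tB_apply_coe {W' W : Subgroup Γ} [W'.Normal] [W.Normal] (h : W' ≤ W) (b : (BL A W).V) :
    (show ↥(Representation.invariants (A.ρ.comp W'.subtype)) from (tB A h).hom b).1 =
      (show ↥(Representation.invariants (A.ρ.comp W.subtype)) from b).1 := rfl

lemma infl_eq {W' W : Subgroup Γ} [W'.Normal] [W.Normal] (h : W' ≤ W) (n : ℕ) :
    infl A h n = groupCohomology.map (qL h) (tB A h) n := rfl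

/-- The inclusion `(A[p])^W ⟶ A^W` as a morphism of representations of `Γ ⧸ W`. -/
noncomputable def iotaL (W : Subgroup Γ) [W.Normal] : ML A p W ⟶ BL A W :=
  Rep.ofHom ⟨invMapLin (MonoidHom.id Γ) (W := W) (W' := W) (by simp) (torsIncl A p), fun g => by
    induction g using QuotientGroup.induction_on with
    | H g =>
      ext b
      rfl⟩

lemma iotaL_apply_coe (W : Subgroup Γ) [W.Normal] (x : (ML A p W).V) :
    (show ↥(Representation.invariants (A.ρ.comp W.subtype)) from (iotaL A p W).hom x).1 =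
      ((show ↥(Representation.invariants ((tors A p).ρ.comp W.subtype)) from x).1 :
        ↥(torsSub A p)).1 := rfl

lemma push_torsIncl_eq (W : Subgroup Γ) [W.Normal] (n : ℕ) :
    push (torsIncl A p) W n = groupCohomology.map (MonoidHom.id (Γ ⧸ W)) (iotaL A p W) n :=
  groupCohomology.map_congr (qL_refl W) rfl n

/-- The transition map `(A[p])^W → (A[p])^{W'}`. -/
noncomputable def tM {W' W : Subgroup Γ} [W'.Normal] [W.Normal] (h : W' ≤ W) :
    Rep.res (qL h) (ML A p W) ⟶ ML A p W' :=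
  invMap (MonoidHom.id Γ) (W := W) (W' := W') (by simpa using h) (𝟙 (tors A p))

lemma infl_tors_eq {W' W : Subgroup Γ} [W'.Normal] [W.Normal] (h : W' ≤ W) (n : ℕ) :
    infl (tors A p) h n = groupCohomology.map (qL h) (tM A p h) n := rfl

lemma iotaL_comp_pMul (W : Subgroup Γ) [W.Normal] : iotaL A p W ≫ pMul (BL A W) p = 0 := by
  apply Rep.hom_ext
  apply DFunLike.ext
  intro x
  apply Subtype.ext
  apply Subtype.ext
  exact ((show ↥(Representation.invariants ((tors A p).ρ.comp W.subtype)) from x).1 :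
        ↥(torsSub A p)).2

/-- The first Kummer sequence at level `W`: `0 → (A[p])^W → A^W → p • A^W → 0`. -/
noncomputable def ses1 (W : Subgroup Γ) [W.Normal] : ShortComplex (Rep.{0} k (Γ ⧸ W)) :=
  ShortComplex.mk (iotaL A p W) (pMul (BL A W) p) (iotaL_comp_pMul A p W)

lemma ses1_shortExact (W : Subgroup Γ) [W.Normal] : (ses1 A p W).ShortExact where
  exact := by
    rw [← ShortComplex.exact_map_iff_of_faithful _ (forget₂ (Rep k (Γ ⧸ W)) (ModuleCat k)),
      ShortComplex.moduleCat_exact_iff_ker_sub_range]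
    intro b hb
    have hb' : (pMul (BL A W) p).hom (show (BL A W).V from b) = 0 := hb
    have hb1 : p • (show ↥(Representation.invariants (A.ρ.comp W.subtype)) from b).1 = 0 :=
      congrArg (fun x : ↥(pSub (BL A W) p) =>
        ((x.1 : ↥(Representation.invariants (A.ρ.comp W.subtype))).1 : A.V)) hb'
    refine ⟨(⟨(⟨(show ↥(Representation.invariants (A.ρ.comp W.subtype)) from b).1, hb1⟩ :
      ↥(torsSub A p)), fun w => Subtype.ext
        ((show ↥(Representation.invariants (A.ρ.comp W.subtype)) from b).2 w)⟩ :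
        ↥(Representation.invariants ((tors A p).ρ.comp W.subtype))), rfl⟩
  mono_f := by
    rw [Rep.mono_iff_injective]
    intro x y hxy
    apply Subtype.ext
    apply Subtype.ext
    exact congrArg (fun z : ↥(Representation.invariants (A.ρ.comp W.subtype)) => (z.1 : A.V)) hxy
  epi_g := by
    rw [Rep.epi_iff_surjective]
    exact pMul_surjective (BL A W) p

/-- The transition map `p • A^W → p • A^{W'}`. -/
noncomputable abbrev tP {W' W : Subgroup Γ} [W'.Normal] [W.Normal] (h : W' ≤ W) :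
    Rep.res (qL h) (pImg (BL A W) p) ⟶ pImg (BL A W') p :=
  pImgMap (qL h) (tB A h) p

/-- The transition map `A^W ⧸ p → A^{W'} ⧸ p`. -/
noncomputable abbrev tQ {W' W : Subgroup Γ} [W'.Normal] [W.Normal] (h : W' ≤ W) :
    Rep.res (qL h) (pCok (BL A W) p) ⟶ pCok (BL A W') p :=
  pCokMap (qL h) (tB A h) p

/-- Naturality of `δ` for the first Kummer sequence under inflation. -/
lemma δ_ses1_nat (hnat : DeltaNatSpec) {W' W : Subgroup Γ} [W'.Normal] [W.Normal] (h : W' ≤ W)
    (i j : ℕ) (hij : i + 1 = j) (z : groupCohomology (pImg (BL A W) p) i) :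
    (infl (tors A p) h j).hom ((δ (ses1_shortExact A p W) i j hij).hom z) =
      (δ (ses1_shortExact A p W') i j hij).hom
        ((groupCohomology.map (qL h) (tP A p h) i).hom z) := by
  have key := hnat k (Γ ⧸ W') (Γ ⧸ W) (qL h) (ses1 A p W) (ses1_shortExact A p W)
    (ses1 A p W') (ses1_shortExact A p W') (tM A p h) (tB A h) (tP A p h)
    (by
      apply Rep.hom_ext
      apply DFunLike.ext
      intro x
      rfl)
    (by
      apply Rep.hom_ext
      apply DFunLike.ext
      intro x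
      exact pImgMap_pMul (qL h) (tB A h) p x)
    i j hij
  exact congrArg (fun F => F.hom z) key

/-- Naturality of `δ` for the second Kummer sequence under inflation. -/
lemma δ_ses2_nat (hnat : DeltaNatSpec) {W' W : Subgroup Γ} [W'.Normal] [W.Normal] (h : W' ≤ W)
    (i j : ℕ) (hij : i + 1 = j) (u : groupCohomology (pCok (BL A W) p) i) :
    (groupCohomology.map (qL h) (tP A p h) j).hom
        ((δ (ses2_shortExact (BL A W) p) i j hij).hom u) =
      (δ (ses2_shortExact (BL A W') p) i j hij).hom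
        ((groupCohomology.map (qL h) (tQ A p h) i).hom u) := by
  have key := hnat k (Γ ⧸ W') (Γ ⧸ W) (qL h) (ses2 (BL A W) p) (ses2_shortExact (BL A W) p)
    (ses2 (BL A W') p) (ses2_shortExact (BL A W') p) (tP A p h) (tB A h) (tQ A p h)
    (by
      apply Rep.hom_ext
      apply DFunLike.ext
      intro x
      rfl)
    (by
      apply Rep.hom_ext
      apply DFunLike.ext
      intro x
      rfl)
    i j hij
  exact congrArg (fun F => F.hom u) key

/-- A finite family of levels has a common lower bound (below a given level). -/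
lemma exists_common_level (N : NLevels Γ) {ι : Type} [Finite ι] (f : ι → Subgroup Γ)
    (hf : ∀ i, f i ∈ N.carrier) (V₀ : N.Lvl) :
    ∃ X : N.Lvl, X.W ≤ V₀.W ∧ ∀ i, X.W ≤ f i := by
  classical
  haveI : Fintype ι := Fintype.ofFinite ι
  have key : ∀ s : Finset ι, ∃ X : N.Lvl, X.W ≤ V₀.W ∧ ∀ i ∈ s, X.W ≤ f i := by
    intro s
    induction s using Finset.induction_on with
    | empty => exact ⟨V₀, le_rfl, fun i hi => absurd hi (Finset.notMem_empty i)⟩
    | insert a s _ ih =>
      obtain ⟨X, hX₀, hX⟩ := ih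
      obtain ⟨Y, hYX, hYa⟩ := N.exists_le X ⟨f a, hf a⟩
      refine ⟨Y, hYX.trans hX₀, fun i hi => ?_⟩
      rcases Finset.mem_insert.1 hi with rfl | hi
      · exact hYa
      · exact hYX.trans (hX i hi)
  obtain ⟨X, hX₀, hX⟩ := key Finset.univ
  exact ⟨X, hX₀, fun i => hX i (Finset.mem_univ i)⟩

/-- **KILL.** Every class in `H¹(Γ ⧸ V, A^V ⧸ p)` dies at a smaller level. -/
lemma kill_H1 (N : NLevels Γ) (hs : IsSmooth N A) (hd : IsDivisibleBy A p) (V : N.Lvl)
    (u : groupCohomology (pCok (BL A V.W) p) 1) :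
    ∃ (V' : N.Lvl) (h : V'.W ≤ V.W),
      (groupCohomology.map (qL h) (tQ A p h) 1).hom u = 0 := by
  induction u using H1_induction_on with
  | h c =>
    haveI : Finite (Γ ⧸ V.W) := Subgroup.finite_quotient_of_finiteIndex
    have h1 : ∀ g : Γ ⧸ V.W, ∃ a : (BL A V.W).V, (pProj (BL A V.W) p).hom a = c.1 g :=
      fun g => pProj_surjective (BL A V.W) p (c.1 g)
    choose a ha using h1
    have h2 : ∀ g : Γ ⧸ V.W, ∃ b : A.V,
        p • b = (show ↥(Representation.invariants (A.ρ.comp V.W.subtype)) from a g).1 :=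
      fun g => hd _
    choose b hb using h2
    have h3 : ∀ g : Γ ⧸ V.W, ∃ W ∈ N.carrier, ∀ w ∈ W, A.ρ w (b g) = b g := fun g => hs (b g)
    choose Wg hWg hfix using h3
    obtain ⟨V', hV', hle⟩ := exists_common_level N Wg hWg V
    refine ⟨V', hV', ?_⟩
    have hmap := H1π_comp_map_apply (qL hV') (tQ A p hV') c
    refine hmap.trans ?_
    have hzero : (mapCocycles₁ (qL hV') (tQ A p hV')).hom c = 0 := by
      apply Subtype.ext
      funext g'
      show (tQ A p hV').hom (c.1 (qL hV' g')) = 0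
      rw [← ha, pCokMap_pProj, pProj_eq_zero_iff]
      refine ⟨(⟨b (qL hV' g'), fun w => hfix _ w.1 (hle _ w.2)⟩ :
        ↥(Representation.invariants (A.ρ.comp V'.W.subtype))), ?_⟩
      apply Subtype.ext
      exact hb (qL hV' g')
    rw [hzero, map_zero]

/-! ### Compatibilities on cohomology -/

section Compat

variable {W' W : Subgroup Γ} [W'.Normal] [W.Normal] (h : W' ≤ W) (n : ℕ)

lemma iotaL_infl (y : groupCohomology (ML A p W) n) :
    (groupCohomology.map (MonoidHom.id (Γ ⧸ W')) (iotaL A p W') n).hom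
        ((infl (tors A p) h n).hom y) =
      (infl A h n).hom ((push (torsIncl A p) W n).hom y) := by
  rw [push_torsIncl_eq]
  exact (map_sq_id (qL h) (iotaL A p W) (iotaL A p W') (tM A p h) (tB A h)
    (fun _ => rfl) n y).symm

lemma pIncl_tP (z : groupCohomology (pImg (BL A W) p) n) :
    (groupCohomology.map (MonoidHom.id (Γ ⧸ W')) (pIncl (BL A W') p) n).hom
        ((groupCohomology.map (qL h) (tP A p h) n).hom z) =
      (infl A h n).hom
        ((groupCohomology.map (MonoidHom.id (Γ ⧸ W)) (pIncl (BL A W) p) n).hom z) :=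
  (map_sq_id (qL h) (pIncl (BL A W) p) (pIncl (BL A W') p) (tP A p h) (tB A h)
    (fun _ => rfl) n z).symm

lemma tP_pMul (w : groupCohomology (BL A W) n) :
    (groupCohomology.map (qL h) (tP A p h) n).hom
        ((groupCohomology.map (MonoidHom.id (Γ ⧸ W)) (pMul (BL A W) p) n).hom w) =
      (groupCohomology.map (MonoidHom.id (Γ ⧸ W')) (pMul (BL A W') p) n).hom
        ((infl A h n).hom w) :=
  map_sq_id (qL h) (pMul (BL A W) p) (pMul (BL A W') p) (tB A h) (tP A p h)
    (fun a => pImgMap_pMul (qL h) (tB A h) p a) n w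

variable {W'' : Subgroup Γ} [W''.Normal] (h' : W'' ≤ W')

lemma tP_tP (z : groupCohomology (pImg (BL A W) p) n) :
    (groupCohomology.map (qL h') (tP A p h') n).hom
        ((groupCohomology.map (qL h) (tP A p h) n).hom z) =
      (groupCohomology.map (qL (h'.trans h)) (tP A p (h'.trans h)) n).hom z :=
  map_tri_apply (qL h) (qL h') (qL (h'.trans h)) (tP A p h) (tP A p h') (tP A p (h'.trans h))
    (qL_comp h' h) (fun _ => rfl) n z

lemma infl_infl_tors (y : groupCohomology (ML A p W) n) :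
    (infl (tors A p) h' n).hom ((infl (tors A p) h n).hom y) =
      (infl (tors A p) (h'.trans h) n).hom y :=
  map_tri_apply (qL h) (qL h') (qL (h'.trans h)) (tM A p h) (tM A p h') (tM A p (h'.trans h))
    (qL_comp h' h) (fun _ => rfl) n y

end Compat

lemma pIncl_pMul_apply {G : Type} [Group G] (B : Rep.{0} k G) (n : ℕ)
    (w : groupCohomology B n) :
    (groupCohomology.map (MonoidHom.id G) (pIncl B p) n).hom
        ((groupCohomology.map (MonoidHom.id G) (pMul B p) n).hom w) = p • w := by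
  rw [← map_id_nsmul_id_apply B p n w, ← pMul_comp_pIncl]
  exact map_tri_apply (MonoidHom.id G) (MonoidHom.id G) (MonoidHom.id G) (pMul B p) (pIncl B p)
    (pMul B p ≫ pIncl B p) rfl (fun _ => rfl) n w

end Levels

/-- **KB-KUM3**, assuming KB-NAT. -/
theorem kummerH3_of (hnat : DeltaNatSpec) : KummerH3Spec := by
  intro k Γ _ _ N A p _ hs hd hT hD V y
  -- Step 1: `ι_* y` is killed by `p`, hence effaceable.
  have hpy : p • y = 0 := nsmul_eq_zero_of_kills (ML A p V.W) p 3 (fun a => by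
    apply Subtype.ext
    apply Subtype.ext
    exact ((show ↥(Representation.invariants ((tors A p).ρ.comp V.W.subtype)) from a).1 :
        ↥(torsSub A p)).2) y
  have hx : p • (push (torsIncl A p) V.W 3).hom y = 0 := by
    rw [← map_nsmul, hpy, map_zero]
  obtain ⟨V₁, h₁, hV₁⟩ := hT V _ hx
  have hy₁0 : (groupCohomology.map (MonoidHom.id (Γ ⧸ V₁.W)) (iotaL A p V₁.W) 3).hom
      ((infl (tors A p) h₁ 3).hom y) = 0 := by
    rw [iotaL_infl A p h₁ 3 y]
    exact hV₁
  -- Step 2: `infl y = δ z`.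
  obtain ⟨z, hz⟩ := exists_δ_eq (ses1_shortExact A p V₁.W) 2 3 rfl
    ((infl (tors A p) h₁ 3).hom y) hy₁0
  -- Step 3: correct `z` by a multiple of `p`.
  obtain ⟨V₂, h₂, w, hw⟩ :=
    hD V₁ ((groupCohomology.map (MonoidHom.id (Γ ⧸ V₁.W)) (pIncl (BL A V₁.W) p) 2).hom z)
  have hz₂ : (groupCohomology.map (MonoidHom.id (Γ ⧸ V₂.W)) (pIncl (BL A V₂.W) p) 2).hom
      ((groupCohomology.map (qL h₂) (tP A p h₂) 2).hom z -
        (groupCohomology.map (MonoidHom.id (Γ ⧸ V₂.W)) (pMul (BL A V₂.W) p) 2).hom w) = 0 := by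
    rw [map_sub, sub_eq_zero, pIncl_tP A p h₂ 2 z, pIncl_pMul_apply p (BL A V₂.W) 2 w]
    exact hw
  obtain ⟨u, hu⟩ := exists_δ_eq (ses2_shortExact (BL A V₂.W) p) 1 2 rfl _ hz₂
  -- Step 4: kill `u`.
  obtain ⟨V₃, h₃, hV₃⟩ := kill_H1 A p N hs hd V₂ u
  -- Step 5: conclude.
  have e1 : (groupCohomology.map (qL h₃) (tP A p h₃) 2).hom
      ((groupCohomology.map (qL h₂) (tP A p h₂) 2).hom z -
        (groupCohomology.map (MonoidHom.id (Γ ⧸ V₂.W)) (pMul (BL A V₂.W) p) 2).hom w) = 0 := by
    rw [← hu, δ_ses2_nat A p hnat h₃ 1 2 rfl u, hV₃]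
    exact map_zero (δ (ses2_shortExact (BL A V₃.W) p) 1 2 rfl).hom
  rw [map_sub, sub_eq_zero, tP_tP A p h₂ 2 h₃ z, tP_pMul A p h₃ 2 w] at e1
  have e4 : (infl (tors A p) (h₃.trans h₂) 3).hom ((infl (tors A p) h₁ 3).hom y) = 0 := by
    rw [← hz, δ_ses1_nat A p hnat (h₃.trans h₂) 2 3 rfl z, e1]
    exact δ_map_g (ses1_shortExact A p V₃.W) 2 3 rfl _
  refine ⟨V₃, (h₃.trans h₂).trans h₁, ?_⟩
  rw [← e4]
  exact (infl_infl_tors A p h₁ 3 (h₃.trans h₂) y).symm

end Fermat.Agent.S55.KL.H289
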