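import Fermat.Agent.S55.KL.KummerH3H289
import Fermat.Agent.S55.KL.DeltaNatH304

/-!
# S55, layer KB, leaf KB-KUM3 (helper289): closed form

`kummerH3 : KummerH3Spec`, from `kummerH3_of` and `H304.deltaNat : DeltaNatSpec`.
-/

set_option autoImplicit false

namespace Fermat.Agent.S55.KL.H289

open Fermat.Agent.S55.KL

/-- **KB-KUM3.** -/
theorem kummerH3 : KummerH3Spec :=
  kummerH3_of Fermat.Agent.S55.KL.H304.deltaNat

end Fermat.Agent.S55.KL.H289
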