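import Fermat.Agent.S55.KL.Closed
import Fermat.Agent.S55.KL.KummerH3ClosedH289
import Fermat.Agent.S55.KL.ScalarsH795
import Fermat.Agent.S55.KL.TransportH496
import Fermat.Agent.S55.KL.LocalH123H775

/-!
# S55, layer KL: input A4 (`PT.Surj2LocSpec`) of the duality engine, CLOSED

`surj2Loc : PT.Surj2LocSpec p S`, unconditionally, together with the closed forms of the
local facts used on the way (`localH1`, `localH2`, `localH3`, `cd`, `localCd`,
`localKummerHyp`, `localSurjH2`).

Architect/owner: helper183.
-/

set_option autoImplicit false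

namespace Fermat.Agent.S55.KL.A4

open Fermat.Agent.S55.KL

/-- Hilbert 90, `H²` cyclic of order the degree, `H³ = 0` for the levels of `Gal(ℚ̄_q/E)`. -/
theorem localH123 : LocalH1Spec ∧ LocalH2Spec ∧ LocalH3Spec :=
  H775.local_h123_of H496.transport H587.openSubgroup

theorem localH1 : LocalH1Spec := localH123.1

theorem localH2 : LocalH2Spec := localH123.2.1

theorem localH3 : LocalH3Spec := localH123.2.2

/-- The abstract Kummer/dévissage machine: `KummerHyp ⇒ cd ≤ 2`. -/
theorem cd : CdSpec := cd_of_kummer H289.kummerH3

/-- The local hypotheses of the machine. -/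
theorem localKummerHyp : LocalKummerHypSpec := localKummerHyp_of_h23 localH2 localH3

/-- `cd_p(Gal(ℚ̄_q/ℚ_q)) ≤ 2`. -/
theorem localCd : LocalCdSpec :=
  localCd_of_leaves H289.kummerH3 H795.cdScalars localH2 localH3

/-- **Input A4 of layer D**: `H²` of the local Galois groups is right exact on the
`F_p`-representations. -/
theorem surj2Loc (p : ℕ) [Fact p.Prime] (S : Finset Nat.Primes) : PT.Surj2LocSpec p S :=
  surj2Loc_of_leaves H289.kummerH3 H795.cdScalars localH2 localH3 p S

end Fermat.Agent.S55.KL.A4
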