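import Fermat.Agent.S55.KL.SpecLocal
import Fermat.Agent.S55.PT.Spec
import Fermat.Agent.S55.Bridge.Krasner

/-!
# S55, layer KL: final adapter to layer D — `LocalSurjH2Spec ⇒ PT.Surj2LocSpec` (input A4)

Architect/owner: helper183.
-/

set_option autoImplicit false
set_option linter.style.haveILetI false

open CategoryTheory groupCohomology ExtCitation

namespace Fermat.Agent.S55.KL

section Krasner

variable (q : ℕ) [Fact q.Prime]

/-- Every finite extension of `ℚ_q` inside `PadicAlgCl q` is contained in a finite Galois one. -/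
lemma exists_finiteGalois_ge (E : IntermediateField ℚ_[q] (PadicAlgCl q))
    [FiniteDimensional ℚ_[q] E] :
    ∃ E' : FiniteGaloisIntermediateField ℚ_[q] (PadicAlgCl q), E ≤ E'.toIntermediateField := by
  haveI : FiniteDimensional ℚ_[q] ↥(IntermediateField.normalClosure ℚ_[q] E (PadicAlgCl q)) :=
    inferInstance
  haveI : IsGalois ℚ_[q] ↥(IntermediateField.normalClosure ℚ_[q] E (PadicAlgCl q)) :=
    ⟨⟩
  exact ⟨{ toIntermediateField := IntermediateField.normalClosure ℚ_[q] E (PadicAlgCl q) },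
    IntermediateField.le_normalClosure E⟩

/-- level-constancy for `galLevels` = level-constancy modulo `Gal(Ω/E)`, `E/ℚ_q` finite. -/
lemma isLC₂_galLevels_iff {X : Type*}
    (f : (PadicAlgCl q ≃ₐ[ℚ_[q]] PadicAlgCl q) × (PadicAlgCl q ≃ₐ[ℚ_[q]] PadicAlgCl q) → X) :
    IsLC₂ (galLevels ℚ_[q] (PadicAlgCl q)) f ↔
      ∃ E : IntermediateField ℚ_[q] (PadicAlgCl q), FiniteDimensional ℚ_[q] E ∧
        ∀ g g' s s' : PadicAlgCl q ≃ₐ[ℚ_[q]] PadicAlgCl q, s ∈ E.fixingSubgroup →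
          s' ∈ E.fixingSubgroup → f (g * s, g' * s') = f (g, g') := by
  constructor
  · rintro ⟨W, ⟨E', rfl⟩, h⟩
    exact ⟨E'.toIntermediateField, inferInstance, h⟩
  · rintro ⟨E, hE, h⟩
    haveI := hE
    obtain ⟨E', hE'⟩ := exists_finiteGalois_ge q E
    refine ⟨_, ⟨E', rfl⟩, fun g g' s s' hs hs' => h g g' s s' ?_ ?_⟩
    · exact IntermediateField.fixingSubgroup_antitone hE' hs
    · exact IntermediateField.fixingSubgroup_antitone hE' hs'

lemma isLC₁_galLevels_iff {X : Type*}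
    (f : (PadicAlgCl q ≃ₐ[ℚ_[q]] PadicAlgCl q) → X) :
    IsLC₁ (galLevels ℚ_[q] (PadicAlgCl q)) f ↔
      ∃ E : IntermediateField ℚ_[q] (PadicAlgCl q), FiniteDimensional ℚ_[q] E ∧
        ∀ g s : PadicAlgCl q ≃ₐ[ℚ_[q]] PadicAlgCl q, s ∈ E.fixingSubgroup →
          f (g * s) = f g := by
  constructor
  · rintro ⟨W, ⟨E', rfl⟩, h⟩
    exact ⟨E'.toIntermediateField, inferInstance, h⟩
  · rintro ⟨E, hE, h⟩
    haveI := hE
    obtain ⟨E', hE'⟩ := exists_finiteGalois_ge q E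
    exact ⟨_, ⟨E', rfl⟩, fun g s hs => h g s (IntermediateField.fixingSubgroup_antitone hE' hs)⟩

end Krasner

/-! ## The adapter -/

/-- PT-level-constancy on the local group = `galLevels`-level-constancy. -/
lemma pt_isLC₂_iff (q : Nat.Primes) {X : Type*} (f : PT.Gl q × PT.Gl q → X) :
    (PT.localLevels q).IsLC₂ f ↔
      letI : Fact (q : ℕ).Prime := ⟨q.2⟩
      IsLC₂ (galLevels ℚ_[(q : ℕ)] (PadicAlgCl (q : ℕ))) f := by
  letI : Fact (q : ℕ).Prime := ⟨q.2⟩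
  rw [PT.isLC₂_pullbackLevels_iff]
  exact (Bridge.isLevelConstant₂_local_iff (q : ℕ) f).trans (isLC₂_galLevels_iff (q : ℕ) f).symm

lemma pt_isLC₁_iff (q : Nat.Primes) {X : Type*} (f : PT.Gl q → X) :
    (PT.localLevels q).IsLC₁ f ↔
      letI : Fact (q : ℕ).Prime := ⟨q.2⟩
      IsLC₁ (galLevels ℚ_[(q : ℕ)] (PadicAlgCl (q : ℕ))) f := by
  letI : Fact (q : ℕ).Prime := ⟨q.2⟩
  rw [PT.isLC₁_pullbackLevels_iff]
  exact (Bridge.isLevelConstant₁_local_iff (q : ℕ) f).trans (isLC₁_galLevels_iff (q : ℕ) f).symm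

/-- **General adapter** (local and global): if the level system `𝓛` of layer D and the normal
level system `N` define the same level-constant cochains, then the elementwise lifting property
(conclusion of `SurjH2Spec`) gives right exactness of `H²` in the form consumed by layer D. -/
theorem pushH2_surjective_of_lift {Γ : Type} [Group Γ] (𝓛 : PT.LevelSys Γ) (N : NLevels Γ)
    (p : ℕ) [Fact p.Prime]
    (h1 : ∀ (X : Type) (f : Γ → X), 𝓛.IsLC₁ f ↔ IsLC₁ N f)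
    (h2 : ∀ (X : Type) (f : Γ × Γ → X), 𝓛.IsLC₂ f ↔ IsLC₂ N f)
    (hlift : ∀ (P Q : Rep.{0} (ZMod p) Γ) (Φ : P ⟶ Q), Function.Surjective Φ.hom → Finite P.V →
      IsSmooth N P → ∀ c ∈ cocycles₂ Q, IsLC₂ N c →
        ∃ c' ∈ cocycles₂ P, IsLC₂ N c' ∧ ∃ b : Γ → Q.V, IsLC₁ N b ∧
          ∀ g h : Γ, Φ.hom (c' (g, h)) = c (g, h) + (d₁₂ Q).hom b (g, h))
    (P Q : Rep.{0, 0, 0} (ZMod p) Γ) (φ : P →ₗ[ZMod p] Q) (hφ : PT.IsEquivariant φ)
    (hfd : FiniteDimensional (ZMod p) P) (hsmP : 𝓛.IsUSmooth P) (hsurj : Function.Surjective φ) :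
    Function.Surjective (PT.pushH2 φ hφ 𝓛) := by
  intro y
  obtain ⟨c, rfl⟩ := 𝓛.H2π_surjective Q y
  have hc1 : (c : Γ × Γ → Q) ∈ cocycles₂ Q := c.2.1
  have hc2 : 𝓛.IsLC₂ (c : Γ × Γ → Q) := c.2.2
  let Φ : P ⟶ Q := Rep.ofHom ⟨φ, fun g => by ext x; exact hφ g x⟩
  have hfin : Finite P.V := Module.finite_of_finite (ZMod p)
  have hsm : IsSmooth N P := by
    obtain ⟨U, hU, hUt⟩ := hsmP
    have hconst : 𝓛.IsLC₁ (fun g : Γ => P.ρ g) := by
      refine ⟨U, hU, fun g s hs => ?_⟩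
      ext a
      simp [map_mul, hUt s hs a]
    obtain ⟨W, hW, hWc⟩ := (h1 _ _).1 hconst
    intro b
    refine ⟨W, hW, fun w hw => ?_⟩
    have := hWc 1 w hw
    simp only [one_mul] at this
    have h2 := LinearMap.congr_fun this b
    exact h2.trans (LinearMap.congr_fun (map_one P.ρ) b)
  obtain ⟨c', hc'1, hc'2, b, hb, hcb⟩ :=
    hlift P Q Φ (fun x => hsurj x) hfin hsm (c : Γ × Γ → Q) hc1 ((h2 _ _).1 hc2)
  have hc'Z : c' ∈ 𝓛.Z2 P := ⟨hc'1, (h2 _ _).2 hc'2⟩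
  refine ⟨𝓛.H2π P ⟨c', hc'Z⟩, ?_⟩
  rw [PT.pushH2_mk]
  have hsub : 𝓛.H2π Q (PT.pushZ2 φ hφ 𝓛 ⟨c', hc'Z⟩) - 𝓛.H2π Q c = 0 := by
    rw [← map_sub, PT.LevelSys.H2π_eq_zero_iff]
    refine ⟨b, (h1 _ _).2 hb, ?_⟩
    funext ⟨g, g'⟩
    have h3 : φ (c' (g, g')) = (c : Γ × Γ → Q) (g, g') + (d₁₂ Q).hom b (g, g') := hcb g g'
    show (d₁₂ Q).hom b (g, g') = φ (c' (g, g')) - (c : Γ × Γ → Q) (g, g')
    rw [h3]
    abel
  exact sub_eq_zero.1 hsub

/-- The same with the abstract machine plugged in: `SurjH2Spec` + `cd_p ≤ 2`. -/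
theorem pushH2_surjective_of_cd {Γ : Type} [Group Γ] (𝓛 : PT.LevelSys Γ) (N : NLevels Γ)
    (p : ℕ) [Fact p.Prime]
    (h1 : ∀ (X : Type) (f : Γ → X), 𝓛.IsLC₁ f ↔ IsLC₁ N f)
    (h2 : ∀ (X : Type) (f : Γ × Γ → X), 𝓛.IsLC₂ f ↔ IsLC₂ N f)
    (hS : SurjH2Spec) (hcd : CdLeTwo N (ZMod p) p)
    (P Q : Rep.{0, 0, 0} (ZMod p) Γ) (φ : P →ₗ[ZMod p] Q) (hφ : PT.IsEquivariant φ)
    (hfd : FiniteDimensional (ZMod p) P) (hsmP : 𝓛.IsUSmooth P) (hsurj : Function.Surjective φ) :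
    Function.Surjective (PT.pushH2 φ hφ 𝓛) :=
  pushH2_surjective_of_lift 𝓛 N p h1 h2
    (fun P Q Φ hΦ hfin hsm c hc hlc =>
      hS (ZMod p) Γ N p Fact.out hcd P Q Φ hΦ hfin
        (fun x => by
          have h0 : (p : ZMod p) = 0 := ZMod.natCast_self p
          rw [← Nat.cast_smul_eq_nsmul (ZMod p), h0, zero_smul]) hsm c hc hlc)
    P Q φ hφ hfd hsmP hsurj

/-- **Input A4 of layer D** from the finite-level statement `LocalSurjH2Spec`. -/
theorem surj2Loc_of (p : ℕ) [Fact p.Prime] (S : Finset Nat.Primes) (h : LocalSurjH2Spec) :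
    PT.Surj2LocSpec p S := by
  intro q _ P N φ hφ hfd hsmP _ hsurj
  letI : Fact (q : ℕ).Prime := ⟨q.2⟩
  exact pushH2_surjective_of_lift (PT.localLevels q)
    (galLevels ℚ_[(q : ℕ)] (PadicAlgCl (q : ℕ))) p
    (fun X f => pt_isLC₁_iff q f) (fun X f => pt_isLC₂_iff q f)
    (fun P Q Φ hΦ hfin hsm c hc hlc => h (q : ℕ) p Fact.out P Q Φ hΦ hfin hsm c hc hlc)
    P N φ hφ hfd hsmP hsurj

/-- **Input A4 of layer D** from `SurjH2Spec` and `LocalCdSpec`. -/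
theorem surj2Loc_of_cd (p : ℕ) [Fact p.Prime] (S : Finset Nat.Primes) (hS : SurjH2Spec)
    (hcd : LocalCdSpec) : PT.Surj2LocSpec p S := by
  intro q _ P N φ hφ hfd hsmP _ hsurj
  letI : Fact (q : ℕ).Prime := ⟨q.2⟩
  exact pushH2_surjective_of_cd (PT.localLevels q)
    (galLevels ℚ_[(q : ℕ)] (PadicAlgCl (q : ℕ))) p
    (fun X f => pt_isLC₁_iff q f) (fun X f => pt_isLC₂_iff q f) hS
    (hcd (q : ℕ) p Fact.out).2 P N φ hφ hfd hsmP hsurj

end Fermat.Agent.S55.KL
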