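import Fermat.Agent.S55.KL.Spec

/-!
# S55, layer KB: leaf KB-CD (glue)                                   (helper297)

`cd_of : KummerH3Spec → DevissageSpec → CdSpec`.
-/

set_option autoImplicit false

open CategoryTheory groupCohomology

namespace Fermat.Agent.S55.KL.H297

open Fermat.Agent.S55.KL

variable {k : Type} [CommRing k] {Γ : Type} [Group Γ]

/-- Smoothness passes to the `p`-torsion. -/
lemma isSmooth_tors {N : NLevels Γ} {A : Rep.{0} k Γ} (hA : IsSmooth N A) (p : ℕ) :
    IsSmooth N (tors A p) := by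
  intro b
  obtain ⟨W, hW, hfix⟩ := hA b.1
  refine ⟨W, hW, fun w hw => ?_⟩
  apply Subtype.ext
  exact hfix w hw

/-- Smoothness passes to subgroups with the induced levels. -/
lemma isSmooth_res {N : NLevels Γ} {A : Rep.{0} k Γ} (hA : IsSmooth N A) (U : Subgroup Γ) :
    IsSmooth (N.restrict U) (Rep.res U.subtype A) := by
  intro b
  obtain ⟨W, hW, hfix⟩ := hA b
  refine ⟨W.subgroupOf U, ⟨W, hW, rfl⟩, fun w hw => ?_⟩
  exact hfix w.1 (Subgroup.mem_subgroupOf.1 hw)

/-- Divisibility passes to subgroups. -/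
lemma isDivisibleBy_res {A : Rep.{0} k Γ} {p : ℕ} (hA : IsDivisibleBy A p) (U : Subgroup Γ) :
    IsDivisibleBy (Rep.res U.subtype A) p := fun b => hA b

/-- **KB-CD.** `KummerHyp ⇒ cd_p ≤ 2`, from the Kummer chase and the dévissage. -/
theorem cd_of (hK : KummerH3Spec) (hD : DevissageSpec) : CdSpec := by
  intro k Γ _ _ hk N A p hp hyp
  obtain ⟨hsm, hdiv, hcard, hU⟩ := hyp
  refine hD k Γ hk N (tors A p) p hp hcard (isSmooth_tors hsm p) ?_
  intro U hUopen
  obtain ⟨hT, hDv⟩ := hU U hUopen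
  exact hK k ↥U (N.restrict U) (Rep.res U.subtype A) p hp (isSmooth_res hsm U)
    (isDivisibleBy_res hdiv U) hT hDv

end Fermat.Agent.S55.KL.H297
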