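import Fermat.Agent.S55.KL.Spec

/-!
# S55, layer KB, leaf KB-DEV-C (helper783): filtration induction

`devPGroup : DevPGroupSpec`: if `Γ` acts on the finite `p`-torsion module `R` through a finite
`p`-group, and `μ` is a module of order `p` with trivial action and `colim H³(Γ, μ) = 0`, then
`colim H³(Γ, R) = 0`.

Proof: induction on `|R|`.  A `p`-group acting on `R ≠ 0` fixes some `r ≠ 0`; this gives an
exact sequence `0 → μ → R → Q → 0` with `|Q| < |R|`, which stays exact on the invariants of every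
level acting trivially on `R`; chase in the exact sequence `H³(μ) → H³(R) → H³(Q)`.
-/

set_option autoImplicit false

open CategoryTheory CategoryTheory.Limits groupCohomology

namespace Fermat.Agent.S55.KL.H783

open Fermat.Agent.S55.KL

variable {k : Type} [CommRing k]

/-! ### functoriality of `HLmap` -/

section Functoriality

variable {Γ Γ' Γ'' : Type} [Group Γ] [Group Γ'] [Group Γ'']

lemma HLmap_comp {B : Rep.{0} k Γ} {B' : Rep.{0} k Γ'} {B'' : Rep.{0} k Γ''}
    (f : Γ' →* Γ) (f' : Γ'' →* Γ') {W : Subgroup Γ} [W.Normal] {W' : Subgroup Γ'} [W'.Normal]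
    {W'' : Subgroup Γ''} [W''.Normal] (hf : W' ≤ W.comap f) (hf' : W'' ≤ W'.comap f')
    (φ : Rep.res f B ⟶ B') (φ' : Rep.res f' B' ⟶ B'') (n : ℕ) :
    HLmap f hf φ n ≫ HLmap f' hf' φ' n =
      HLmap (f.comp f') (W := W) (W' := W'') (fun _ hx => hf (hf' hx))
        ((Rep.resFunctor f').map φ ≫ φ') n := by
  unfold HLmap
  rw [← groupCohomology.map_comp]
  refine groupCohomology.map_congr ?_ ?_ n
  · exact QuotientGroup.map_comp_map W'' W' W f' f hf' hf
  · rfl

variable {B B' : Rep.{0} k Γ}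

lemma infl_infl (B : Rep.{0} k Γ) {W'' W' W : Subgroup Γ} [W''.Normal] [W'.Normal] [W.Normal]
    (h : W' ≤ W) (h' : W'' ≤ W') (n : ℕ) :
    infl B h n ≫ infl B h' n = infl B (h'.trans h) n := by
  unfold infl
  rw [HLmap_comp]
  refine groupCohomology.map_congr rfl ?_ n
  rfl

lemma infl_infl_apply (B : Rep.{0} k Γ) {W'' W' W : Subgroup Γ} [W''.Normal] [W'.Normal]
    [W.Normal] (h : W' ≤ W) (h' : W'' ≤ W') (n : ℕ) (y : HL B W n) :
    (infl B h' n).hom ((infl B h n).hom y) = (infl B (h'.trans h) n).hom y :=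
  congrArg (fun f => f.hom y) (infl_infl B h h' n)

lemma push_infl (φ : B ⟶ B') {W' W : Subgroup Γ} [W'.Normal] [W.Normal] (h : W' ≤ W) (n : ℕ) :
    push φ W n ≫ infl B' h n = infl B h n ≫ push φ W' n := by
  unfold push infl
  rw [HLmap_comp, HLmap_comp]
  refine groupCohomology.map_congr rfl ?_ n
  rfl

lemma push_infl_apply (φ : B ⟶ B') {W' W : Subgroup Γ} [W'.Normal] [W.Normal] (h : W' ≤ W)
    (n : ℕ) (y : HL B W n) :
    (infl B' h n).hom ((push φ W n).hom y) = (push φ W' n).hom ((infl B h n).hom y) :=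
  congrArg (fun f => f.hom y) (push_infl φ h n)

lemma push_eq_functor_map (φ : B ⟶ B') (W : Subgroup Γ) [W.Normal] (n : ℕ) :
    push φ W n =
      (groupCohomology.functor k (Γ ⧸ W) n).map ((Rep.quotientToInvariantsFunctor k W).map φ) := by
  unfold push HLmap
  refine groupCohomology.map_congr ?_ ?_ n
  · exact QuotientGroup.map_id W
  · rfl

end Functoriality

/-! ### exactness on the invariants of a level acting trivially -/

section Exact

variable {Γ : Type} [Group Γ] (X : ShortComplex (Rep.{0} k Γ)) (W : Subgroup Γ) [W.Normal]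

/-- The sequence of `W`-invariants, as a short complex of `Γ ⧸ W`-modules. -/
noncomputable def invComplex : ShortComplex (Rep.{0} k (Γ ⧸ W)) :=
  ShortComplex.mk ((Rep.quotientToInvariantsFunctor k W).map X.f)
    ((Rep.quotientToInvariantsFunctor k W).map X.g) (by
      rw [← Functor.map_comp, X.zero]
      ext x
      rfl)

lemma invariants_shortExact (hX : X.ShortExact) (hW : ActsTrivially W X.X₂) :
    (invComplex X W).ShortExact where
  exact := by
    rw [← ShortComplex.exact_map_iff_of_faithful _ (forget₂ (Rep k (Γ ⧸ W)) (ModuleCat k)),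
      ShortComplex.moduleCat_exact_iff_ker_sub_range]
    intro x hx
    have hx1 : X.g.hom (x : Representation.invariants (X.X₂.ρ.comp W.subtype)).1 = 0 :=
      congrArg Subtype.val hx
    have hex := hX.exact
    rw [← ShortComplex.exact_map_iff_of_faithful _ (forget₂ (Rep k Γ) (ModuleCat k)),
      ShortComplex.moduleCat_exact_iff_ker_sub_range] at hex
    have hex' : ∃ a : X.X₁.V,
        X.f.hom a = (x : Representation.invariants (X.X₂.ρ.comp W.subtype)).1 := hex hx1
    obtain ⟨a, ha'⟩ := hex'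
    have hinj : Function.Injective X.f.hom := (Rep.mono_iff_injective X.f).1 hX.mono_f
    have haW : a ∈ Representation.invariants (X.X₁.ρ.comp W.subtype) := by
      intro w
      apply hinj
      change X.f.hom (X.X₁.ρ (w : Γ) a) = X.f.hom a
      rw [Rep.hom_comm_apply, ha']
      exact hW w w.2 _
    exact ⟨⟨a, haW⟩, Subtype.ext ha'⟩
  mono_f := by
    rw [Rep.mono_iff_injective]
    have hinj : Function.Injective X.f.hom := (Rep.mono_iff_injective X.f).1 hX.mono_f
    intro x y h
    exact Subtype.ext (hinj (congrArg Subtype.val h))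
  epi_g := by
    rw [Rep.epi_iff_surjective]
    have hsurj : Function.Surjective X.g.hom := (Rep.epi_iff_surjective X.g).1 hX.epi_g
    intro q
    obtain ⟨x, hx⟩ := hsurj (q : Representation.invariants (X.X₃.ρ.comp W.subtype)).1
    exact ⟨⟨x, fun w => hW w w.2 x⟩, Subtype.ext hx⟩

/-- Exactness of `Hⁿ(Γ/W, X₁^W) → Hⁿ(Γ/W, X₂^W) → Hⁿ(Γ/W, X₃^W)` if `W` acts trivially on
`X₂`. -/
lemma exists_push_eq (hX : X.ShortExact) (hW : ActsTrivially W X.X₂) (n : ℕ)
    (y : HL X.X₂ W n) (hy : (push X.g W n).hom y = 0) :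
    ∃ z : HL X.X₁ W n, (push X.f W n).hom z = y := by
  have hex := mapShortComplex₂_exact (invariants_shortExact X W hX hW) n
  rw [push_eq_functor_map] at hy
  obtain ⟨z, hz⟩ := (ShortComplex.moduleCat_exact_iff _).1 hex y hy
  refine ⟨z, ?_⟩
  rw [push_eq_functor_map]
  exact hz

end Exact

/-! ### the zero module -/

section Zero

variable {Γ : Type} [Group Γ]

lemma HL_eq_zero_of_subsingleton (R : Rep.{0} k Γ) [Subsingleton R.V] (W : Subgroup Γ)
    [W.Normal] (n : ℕ) (y : HL R W n) : y = 0 := by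
  have h0 : IsZero (R.quotientToInvariants W) := by
    rw [IsZero.iff_id_eq_zero]
    ext x
    exact Subsingleton.elim (α := R.V) _ _
  have h1 : IsZero (HL R W n) := (groupCohomology.functor k (Γ ⧸ W) n).map_isZero h0
  exact (ModuleCat.subsingleton_of_isZero h1).elim _ _

end Zero

/-! ### the exact sequence `0 → μ → R → Q → 0` attached to a fixed vector -/

section Construct

variable {Γ : Type} [Group Γ]

/-- An additive map between `k`-modules is `k`-linear if `ℤ → k` is surjective. -/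
def linOfAdd (hk : Function.Surjective (Int.cast : ℤ → k)) {M M' : Type} [AddCommGroup M]
    [Module k M] [AddCommGroup M'] [Module k M'] (ψ : M →+ M') : M →ₗ[k] M' where
  toFun := ψ
  map_add' := ψ.map_add
  map_smul' c m := by
    obtain ⟨n, rfl⟩ := hk c
    simp only [RingHom.id_apply]
    rw [Int.cast_smul_eq_zsmul, Int.cast_smul_eq_zsmul, map_zsmul]

@[simp]
lemma linOfAdd_apply (hk : Function.Surjective (Int.cast : ℤ → k)) {M M' : Type}
    [AddCommGroup M] [Module k M] [AddCommGroup M'] [Module k M'] (ψ : M →+ M') (m : M) :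
    linOfAdd hk ψ m = ψ m := rfl

variable (p : ℕ) [Fact p.Prime]

/-- A group of order `p` is isomorphic to `ZMod p`. -/
noncomputable def zmodEquiv {M : Type} [AddCommGroup M] (hM : Nat.card M = p) : M ≃+ ZMod p :=
  addEquivOfPrimeCardEq hM (Nat.card_zmod p)

/-- The additive map `ZMod p → R`, `1 ↦ r`, for `p • r = 0`. -/
noncomputable def zmodLift {M' : Type} [AddCommGroup M'] (r : M') (hr : p • r = 0) :
    ZMod p →+ M' :=
  ZMod.lift p ⟨zmultiplesHom M' r, by simpa using hr⟩

lemma zmodLift_intCast {M' : Type} [AddCommGroup M'] (r : M') (hr : p • r = 0) (n : ℤ) :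
    zmodLift p r hr (n : ZMod p) = n • r := by
  unfold zmodLift
  rw [ZMod.lift_coe]
  simp

/-- The additive map `μ → R` attached to `r ∈ R` with `p • r = 0`, for `|μ| = p`. -/
noncomputable def fixAdd {M M' : Type} [AddCommGroup M] [AddCommGroup M'] (hM : Nat.card M = p)
    (r : M') (hr : p • r = 0) : M →+ M' :=
  (zmodLift p r hr).comp (zmodEquiv p hM).toAddMonoidHom

lemma fixAdd_mem {M M' : Type} [AddCommGroup M] [AddCommGroup M'] (hM : Nat.card M = p)
    (r : M') (hr : p • r = 0) (m : M) : ∃ n : ℤ, fixAdd p hM r hr m = n • r := by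
  obtain ⟨n, hn⟩ := ZMod.intCast_surjective (zmodEquiv p hM m)
  refine ⟨n, ?_⟩
  change zmodLift p r hr (zmodEquiv p hM m) = _
  rw [← hn, zmodLift_intCast]

lemma fixAdd_injective {M M' : Type} [AddCommGroup M] [AddCommGroup M'] (hM : Nat.card M = p)
    (r : M') (hr : p • r = 0) (hr0 : r ≠ 0) : Function.Injective (fixAdd p hM r hr) := by
  rw [injective_iff_map_eq_zero]
  intro m hm
  by_contra hm0
  have h1 : zmodEquiv p hM m ≠ 0 := by
    intro h
    exact hm0 ((AddEquiv.map_eq_zero_iff _).1 h)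
  have h2 : zmodLift p r hr (zmodEquiv p hM m) = 0 := hm
  have h3 : zmodLift p r hr ((zmodEquiv p hM m)⁻¹ * zmodEquiv p hM m) = 0 := by
    obtain ⟨n, hn⟩ := ZMod.intCast_surjective (zmodEquiv p hM m)⁻¹
    rw [← hn, ← zsmul_eq_mul, map_zsmul, h2, smul_zero]
  rw [inv_mul_cancel₀ h1] at h3
  have h4 : zmodLift p r hr ((1 : ℤ) : ZMod p) = 0 := by
    simpa using h3
  rw [zmodLift_intCast, one_smul] at h4
  exact hr0 h4

end Construct

/-! ### fixed vectors of `p`-groups -/

section Fixed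

variable {Γ : Type} [Group Γ] (p : ℕ) [Fact p.Prime]

lemma exists_fixed_ne_zero (R : Rep.{0} k Γ) [Finite R.V] (htors : ∀ r : R.V, p • r = 0)
    (hnt : ¬ Subsingleton R.V) (W : Subgroup Γ) [W.Normal] (hW : ActsTrivially W R)
    (hPG : IsPGroup p (Γ ⧸ W)) : ∃ r : R.V, r ≠ 0 ∧ ∀ g : Γ, R.ρ g r = r := by
  classical
  let X := Representation.invariants (R.ρ.comp W.subtype)
  let _ : MulAction (Γ ⧸ W) X := MulAction.compHom X (R.quotientToInvariants W).ρ
  have hsmul : ∀ (q : Γ ⧸ W) (x : X), q • x = (R.quotientToInvariants W).ρ q x := fun _ _ => rfl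
  -- a nonzero element
  obtain ⟨a, ha⟩ : ∃ a : R.V, a ≠ 0 := by
    by_contra h
    have h' : ∀ a : R.V, a = 0 := fun a => by
      by_contra ha
      exact h ⟨a, ha⟩
    exact hnt ⟨fun x y => by rw [h' x, h' y]⟩
  have haX : a ∈ X := fun w => hW w w.2 a
  have hx0 : (⟨a, haX⟩ : X) ≠ 0 := fun h => ha (congrArg Subtype.val h)
  have hpx : p • (⟨a, haX⟩ : X) = 0 := Subtype.ext (htors a)
  have hdvd : p ∣ Nat.card X := by
    have h1 := addOrderOf_eq_prime hpx hx0
    rw [← h1]
    exact addOrderOf_dvd_natCard _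
  have h0 : (0 : X) ∈ MulAction.fixedPoints (Γ ⧸ W) X := by
    intro q
    rw [hsmul, map_zero]
  obtain ⟨b, hb, hb0⟩ := hPG.exists_fixed_point_of_prime_dvd_card_of_fixed_point X hdvd h0
  refine ⟨b.1, fun h => hb0 (Subtype.ext h.symm), fun g => ?_⟩
  have h2 : ((g : Γ ⧸ W) • b : X) = b := hb (g : Γ ⧸ W)
  exact congrArg Subtype.val h2

end Fixed

/-! ### the extension attached to a fixed vector -/

section Seq

variable {Γ : Type} [Group Γ] (hk : Function.Surjective (Int.cast : ℤ → k)) (p : ℕ)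
  [Fact p.Prime] (μ : Rep.{0} k Γ) (hμ : Nat.card μ.V = p)
  (hμtriv : ∀ (g : Γ) (m : μ.V), μ.ρ g m = m)
  (R : Rep.{0} k Γ) (r : R.V) (hr : p • r = 0) (hfix : ∀ g : Γ, R.ρ g r = r)

include hfix in
lemma fixAdd_fixed (g : Γ) (m : μ.V) : R.ρ g (fixAdd p hμ r hr m) = fixAdd p hμ r hr m := by
  obtain ⟨n, hn⟩ := fixAdd_mem p hμ r hr m
  rw [hn, map_zsmul, hfix]

/-- The morphism `μ ⟶ R` attached to a fixed vector `r`. -/
noncomputable def fixHom : μ ⟶ R :=
  Rep.ofHom (ρ := μ.ρ) (σ := R.ρ) ⟨linOfAdd hk (fixAdd p hμ r hr), fun g => by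
    refine LinearMap.ext fun m => ?_
    have h1 : R.ρ g (fixAdd p hμ r hr m) = fixAdd p hμ r hr m := fixAdd_fixed p μ hμ R r hr hfix g m
    have h2 : μ.ρ g m = m := hμtriv g m
    simp [h1, h2]⟩

lemma fixHom_apply (m : μ.V) :
    (fixHom hk p μ hμ hμtriv R r hr hfix).hom m = fixAdd p hμ r hr m := rfl

/-- The image of `μ` in `R`. -/
noncomputable def fixRange : Submodule k R.V :=
  LinearMap.range (fixHom hk p μ hμ hμtriv R r hr hfix).hom.toLinearMap

lemma fixRange_le_comap (g : Γ) :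
    fixRange hk p μ hμ hμtriv R r hr hfix ≤
      (fixRange hk p μ hμ hμtriv R r hr hfix).comap (R.ρ g) := by
  rintro _ ⟨m, rfl⟩
  rw [Submodule.mem_comap]
  refine ⟨m, ?_⟩
  exact (fixAdd_fixed p μ hμ R r hr hfix g m).symm

/-- The quotient `Q = R / μ`. -/
noncomputable abbrev fixQuot : Rep.{0} k Γ :=
  Rep.quotient R (fixRange hk p μ hμ hμtriv R r hr hfix)
    (fixRange_le_comap hk p μ hμ hμtriv R r hr hfix)

/-- The projection `R ⟶ Q`. -/
noncomputable abbrev fixProj : R ⟶ fixQuot hk p μ hμ hμtriv R r hr hfix :=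
  Rep.mkQ R (fixRange hk p μ hμ hμtriv R r hr hfix)
    (fixRange_le_comap hk p μ hμ hμtriv R r hr hfix)

lemma fixProj_surjective : Function.Surjective (fixProj hk p μ hμ hμtriv R r hr hfix).hom :=
  Submodule.mkQ_surjective _

lemma fixProj_eq_zero_iff (x : R.V) :
    (fixProj hk p μ hμ hμtriv R r hr hfix).hom x = 0 ↔
      x ∈ fixRange hk p μ hμ hμtriv R r hr hfix :=
  Submodule.Quotient.mk_eq_zero _

lemma fixHom_comp_fixProj :
    fixHom hk p μ hμ hμtriv R r hr hfix ≫ fixProj hk p μ hμ hμtriv R r hr hfix = 0 := by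
  ext m
  exact (fixProj_eq_zero_iff hk p μ hμ hμtriv R r hr hfix _).2 ⟨m, rfl⟩

/-- The short complex `μ ⟶ R ⟶ Q`. -/
noncomputable def fixSC : ShortComplex (Rep.{0} k Γ) :=
  ShortComplex.mk (fixHom hk p μ hμ hμtriv R r hr hfix) (fixProj hk p μ hμ hμtriv R r hr hfix)
    (fixHom_comp_fixProj hk p μ hμ hμtriv R r hr hfix)

lemma fixSC_shortExact (hr0 : r ≠ 0) : (fixSC hk p μ hμ hμtriv R r hr hfix).ShortExact where
  exact := by
    rw [← ShortComplex.exact_map_iff_of_faithful _ (forget₂ (Rep k Γ) (ModuleCat k)),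
      ShortComplex.moduleCat_exact_iff_ker_sub_range]
    intro x hx
    exact (fixProj_eq_zero_iff hk p μ hμ hμtriv R r hr hfix x).1 hx
  mono_f := (Rep.mono_iff_injective _).2 (fixAdd_injective p hμ r hr hr0)
  epi_g := (Rep.epi_iff_surjective _).2 (fixProj_surjective hk p μ hμ hμtriv R r hr hfix)

lemma card_fixQuot_lt [Finite R.V] (hr0 : r ≠ 0) :
    Nat.card (fixQuot hk p μ hμ hμtriv R r hr hfix).V < Nat.card R.V := by
  classical
  let _ : Fintype R.V := Fintype.ofFinite _
  have hfinQ : Finite (fixQuot hk p μ hμ hμtriv R r hr hfix).V :=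
    Finite.of_surjective _ (fixProj_surjective hk p μ hμ hμtriv R r hr hfix)
  let _ : Fintype (fixQuot hk p μ hμ hμtriv R r hr hfix).V := Fintype.ofFinite _
  rw [Nat.card_eq_fintype_card, Nat.card_eq_fintype_card]
  refine Fintype.card_lt_of_surjective_not_injective _
    (fixProj_surjective hk p μ hμ hμtriv R r hr hfix) (fun hinj => ?_)
  -- a nonzero element of `μ`
  have hμ1 : 1 < Nat.card μ.V := by
    rw [hμ]
    exact (Fact.out (p := p.Prime)).one_lt
  have hfinμ : Finite μ.V := Nat.finite_of_card_ne_zero (by omega)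
  obtain ⟨m, hm⟩ : ∃ m : μ.V, m ≠ 0 := by
    rw [Finite.one_lt_card_iff_nontrivial] at hμ1
    exact exists_ne 0
  have h1 : (fixProj hk p μ hμ hμtriv R r hr hfix).hom (fixAdd p hμ r hr m) = 0 :=
    (fixProj_eq_zero_iff hk p μ hμ hμtriv R r hr hfix _).2 ⟨m, rfl⟩
  have h2 : fixAdd p hμ r hr m = 0 := hinj (by rw [h1, map_zero])
  exact hm (fixAdd_injective p hμ r hr hr0 (by rw [h2, map_zero]))

lemma fixQuot_tors (htors : ∀ x : R.V, p • x = 0)
    (q : (fixQuot hk p μ hμ hμtriv R r hr hfix).V) : p • q = 0 := by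
  obtain ⟨x, rfl⟩ := fixProj_surjective hk p μ hμ hμtriv R r hr hfix q
  rw [← map_nsmul, htors, map_zero]

lemma fixQuot_actsTrivially (W : Subgroup Γ) (hW : ActsTrivially W R) :
    ActsTrivially W (fixQuot hk p μ hμ hμtriv R r hr hfix) := by
  intro w hw q
  obtain ⟨x, rfl⟩ := fixProj_surjective hk p μ hμ hμtriv R r hr hfix q
  have h := Rep.hom_comm_apply (fixProj hk p μ hμ hμtriv R r hr hfix) w x
  rw [← h, hW w hw x]

end Seq

/-! ### the induction -/

/-- **KB-DEV-C.** -/
theorem devPGroup : DevPGroupSpec := by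
  intro k Γ _ _ hk N μ p hp hμ hμtriv hμeff
  have : Fact p.Prime := ⟨hp⟩
  have key : ∀ n : ℕ, ∀ R : Rep.{0} k Γ, Nat.card R.V = n → Finite R.V →
      (∀ r : R.V, p • r = 0) →
      (∃ V : N.Lvl, ActsTrivially V.W R ∧ IsPGroup p (Γ ⧸ V.W)) → EffAll N R 3 := by
    intro n
    induction n using Nat.strong_induction_on with
    | _ n ih =>
      rintro R hcard hfin htors ⟨V₀, hV₀, hPG⟩ V y
      by_cases hsub : Subsingleton R.V
      · exact ⟨V, le_rfl, HL_eq_zero_of_subsingleton R _ 3 _⟩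
      · obtain ⟨r, hr0, hfix⟩ := exists_fixed_ne_zero p R htors hsub V₀.W hV₀ hPG
        have hr : p • r = 0 := htors r
        -- the exact sequence `0 → μ → R → Q → 0`
        have hX := fixSC_shortExact hk p μ hμ hμtriv R r hr hfix hr0
        have hQfin : Finite (fixQuot hk p μ hμ hμtriv R r hr hfix).V :=
          Finite.of_surjective _ (fixProj_surjective hk p μ hμ hμtriv R r hr hfix)
        have hQ : EffAll N (fixQuot hk p μ hμ hμtriv R r hr hfix) 3 :=
          ih _ (hcard ▸ card_fixQuot_lt hk p μ hμ hμtriv R r hr hfix hr0) _ rfl hQfin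
            (fixQuot_tors hk p μ hμ hμtriv R r hr hfix htors)
            ⟨V₀, fixQuot_actsTrivially hk p μ hμ hμtriv R r hr hfix V₀.W hV₀, hPG⟩
        -- go to a level acting trivially on `R`
        obtain ⟨V₁, hV₁V, hV₁V₀⟩ := N.exists_le V V₀
        -- efface the image in `H³(Q)`
        obtain ⟨V₂, hV₂, h2⟩ := hQ V₁
          ((push (fixProj hk p μ hμ hμtriv R r hr hfix) V₁.W 3).hom
            ((infl R hV₁V 3).hom y))
        rw [push_infl_apply, infl_infl_apply] at h2
        have hV₂triv : ActsTrivially V₂.W R := fun w hw => hV₀ w (hV₁V₀ (hV₂ hw))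
        obtain ⟨z, hz⟩ := exists_push_eq (fixSC hk p μ hμ hμtriv R r hr hfix) V₂.W hX hV₂triv 3
          ((infl R (hV₂.trans hV₁V) 3).hom y) h2
        -- efface `z`
        obtain ⟨V₃, hV₃, h3⟩ := hμeff V₂ z
        refine ⟨V₃, hV₃.trans (hV₂.trans hV₁V), ?_⟩
        have h4 := push_infl_apply (fixHom hk p μ hμ hμtriv R r hr hfix) hV₃ 3 z
        rw [h3, map_zero] at h4
        have h5 : (push (fixSC hk p μ hμ hμtriv R r hr hfix).f V₂.W 3).hom z =
            (push (fixHom hk p μ hμ hμtriv R r hr hfix) V₂.W 3).hom z := rfl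
        rw [h5] at hz
        rw [hz, infl_infl_apply] at h4
        exact h4
  intro R hfin htors hV
  exact key _ R rfl hfin htors hV

end Fermat.Agent.S55.KL.H783
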