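import Fermat.Agent.S55.KL.Spec

/-!
# S55 / layer KB: the two glue leaves KB-DEV and KB-CD   (helper593)

* `devissage_of (hB : DevSylowSpec) (hC : DevPGroupSpec) : DevissageSpec`
  (Sylow reduction + filtration induction ⇒ dévissage; the only extra input is the elementary
  fact that a `p`-group acts trivially on a module of order `p`);
* `cd_of (hK : KummerH3Spec) (hD : DevissageSpec) : CdSpec`;
* `cd_of_leaves (hK) (hB) (hC) : CdSpec`.

Reusable lemmas: `exists_lvl_le_forall` (common lower bound of finitely many levels),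
`exists_lvl_actsTrivially` (a finite smooth module is fixed by a level, below any given level),
`isSmooth_res`, `isSmooth_tors`, `isDivisibleBy_res`, `actsTrivially_of_isPGroup`.
Mathlib + `KL/Spec.lean` only.
-/

set_option autoImplicit false
set_option linter.style.haveILetI false

open CategoryTheory groupCohomology

namespace Fermat.Agent.S55.KL.H593

open Fermat.Agent.S55.KL

variable {k : Type} [CommRing k] {Γ : Type} [Group Γ]

/-! ## Levels -/

/-- Finitely many levels have a common lower bound. -/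
theorem exists_lvl_le_forall (N : NLevels Γ) {ι : Type*} [Finite ι] (V : ι → N.Lvl) :
    ∃ X : N.Lvl, ∀ i, X.W ≤ (V i).W := by
  classical
  haveI := Fintype.ofFinite ι
  suffices h : ∀ s : Finset ι, ∃ X : N.Lvl, ∀ i ∈ s, X.W ≤ (V i).W by
    obtain ⟨X, hX⟩ := h Finset.univ
    exact ⟨X, fun i => hX i (Finset.mem_univ i)⟩
  intro s
  induction s using Finset.induction_on with
  | empty =>
    obtain ⟨X⟩ := (inferInstance : Nonempty N.Lvl)
    exact ⟨X, fun i hi => absurd hi (Finset.notMem_empty i)⟩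
  | insert a s _ ih =>
    obtain ⟨X, hX⟩ := ih
    obtain ⟨Y, hY1, hY2⟩ := N.exists_le X (V a)
    refine ⟨Y, fun i hi => ?_⟩
    rcases Finset.mem_insert.1 hi with rfl | hi
    · exact hY2
    · exact hY1.trans (hX i hi)

/-- A finite smooth module is fixed pointwise by some level, which may be chosen below any
given level. -/
theorem exists_lvl_actsTrivially (N : NLevels Γ) (R : Rep.{0} k Γ) [Finite R.V]
    (hR : IsSmooth N R) (V₀ : N.Lvl) : ∃ V : N.Lvl, V.W ≤ V₀.W ∧ ActsTrivially V.W R := by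
  classical
  choose W hW hfix using hR
  obtain ⟨X, hX⟩ := exists_lvl_le_forall N (fun r : R.V => (⟨W r, hW r⟩ : N.Lvl))
  obtain ⟨Y, hY1, hY2⟩ := N.exists_le X V₀
  exact ⟨Y, hY2, fun w hw r => hfix r w (hX r (hY1 hw))⟩

/-- Smoothness passes to subgroups. -/
theorem isSmooth_res (N : NLevels Γ) (B : Rep.{0} k Γ) (U : Subgroup Γ) (hB : IsSmooth N B) :
    IsSmooth (N.restrict U) (Rep.res U.subtype B) := by
  intro b
  obtain ⟨W, hW, h⟩ := hB b
  exact ⟨W.subgroupOf U, ⟨W, hW, rfl⟩, fun w hw => h w.1 (Subgroup.mem_subgroupOf.1 hw)⟩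

/-- Smoothness passes to the `p`-torsion. -/
theorem isSmooth_tors (N : NLevels Γ) (A : Rep.{0} k Γ) (p : ℕ) (hA : IsSmooth N A) :
    IsSmooth N (tors A p) := by
  intro b
  obtain ⟨W, hW, h⟩ := hA b.1
  exact ⟨W, hW, fun w hw => Subtype.ext (h w hw)⟩

/-- Divisibility passes to subgroups. -/
theorem isDivisibleBy_res (A : Rep.{0} k Γ) (p : ℕ) (U : Subgroup Γ) (hA : IsDivisibleBy A p) :
    IsDivisibleBy (Rep.res U.subtype A) p := hA

/-! ## A `p`-group acts trivially on a module of order `p` -/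

/-- An additive endomorphism `T` of a group of prime order `p` whose `p^n`-th iterate is the
identity is the identity. -/
theorem addMonoidHom_eq_id_of_iterate {M : Type*} [AddCommGroup M] {p : ℕ} (hp : p.Prime)
    (hcard : Nat.card M = p) (T : M →+ M) (n : ℕ) (hT : ∀ m, T^[p ^ n] m = m) (m : M) :
    T m = m := by
  classical
  haveI : Fact p.Prime := ⟨hp⟩
  haveI : Fact (Nat.card M).Prime := ⟨by rw [hcard]; exact hp⟩
  by_cases hm : m = 0
  · rw [hm, map_zero]
  -- `m` generates `M`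
  have htop : AddSubgroup.zmultiples m = ⊤ := by
    rcases AddSubgroup.eq_bot_or_eq_top_of_prime_card (AddSubgroup.zmultiples m) with h | h
    · exact absurd (AddSubgroup.zmultiples_eq_bot.1 h) hm
    · exact h
  have hgen : ∀ x : M, ∃ a : ℤ, a • m = x := fun x => by
    have : x ∈ AddSubgroup.zmultiples m := by rw [htop]; trivial
    exact AddSubgroup.mem_zmultiples_iff.1 this
  obtain ⟨a, ha⟩ := hgen (T m)
  have hpow : ∀ j : ℕ, T^[j] m = (a ^ j) • m := by
    intro j
    induction j with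
    | zero => simp
    | succ j ih =>
      rw [Function.iterate_succ_apply', ih, map_zsmul, ← ha, smul_smul, pow_succ]
  have hpm : ∀ b : ℤ, b • m = 0 → (p : ℤ) ∣ b := by
    intro b hb
    have hord : addOrderOf m = p := by
      have h1 : addOrderOf m ∣ p := by
        rw [← hcard]
        exact addOrderOf_dvd_natCard m
      rcases (Nat.dvd_prime hp).1 h1 with h | h
      · exact absurd (AddMonoid.addOrderOf_eq_one_iff.1 h) hm
      · exact h
    rw [← hord]
    exact (addOrderOf_dvd_iff_zsmul_eq_zero).2 hb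
  have h1 : (a ^ p ^ n - 1) • m = 0 := by
    rw [sub_smul, one_smul, ← hpow, hT, sub_self]
  have h2 : ((a ^ p ^ n - 1 : ℤ) : ZMod p) = 0 :=
    (ZMod.intCast_zmod_eq_zero_iff_dvd _ p).2 (hpm _ h1)
  have h3 : ((a - 1 : ℤ) : ZMod p) = 0 := by
    have h4 : ((a : ZMod p)) ^ p ^ n = (a : ZMod p) := ZMod.pow_card_pow (a : ZMod p)
    push_cast at h2 ⊢
    rw [h4] at h2
    exact h2
  have h5 : (p : ℤ) ∣ a - 1 := (ZMod.intCast_zmod_eq_zero_iff_dvd _ p).1 h3
  obtain ⟨c, hc⟩ := h5
  have hpz : (p : ℤ) • m = 0 := by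
    rw [natCast_zsmul, ← hcard]
    exact card_nsmul_eq_zero'
  have : (a - 1) • m = 0 := by rw [hc, mul_comm, mul_smul, hpz, smul_zero]
  rw [sub_smul, one_smul, sub_eq_zero] at this
  rw [← ha, this]

/-- If `V ≤ U` acts trivially on a module `μ` of order `p` and `U/V` is a `p`-group, then `U`
acts trivially on `μ`. -/
theorem actsTrivially_of_isPGroup (μ : Rep.{0} k Γ) {p : ℕ} (hp : p.Prime)
    (hcard : Nat.card μ.V = p) (U V : Subgroup Γ) [V.Normal] (hV : ActsTrivially V μ)
    (hP : IsPGroup p (↥U ⧸ V.subgroupOf U)) (u : ↥U) (m : μ.V) :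
    (Rep.res U.subtype μ).ρ u m = m := by
  obtain ⟨n, hn⟩ := hP (QuotientGroup.mk u)
  have hmem : (u ^ p ^ n : ↥U) ∈ V.subgroupOf U := by
    rw [← QuotientGroup.eq_one_iff, QuotientGroup.mk_pow]
    exact hn
  have hmem' : ((u : Γ) ^ p ^ n) ∈ V := by
    have := Subgroup.mem_subgroupOf.1 hmem
    simpa using this
  let T : μ.V →+ μ.V := (μ.ρ (u : Γ)).toAddMonoidHom
  have hTpow : ∀ (j : ℕ) (x : μ.V), T^[j] x = μ.ρ ((u : Γ) ^ j) x := by
    intro j
    induction j with
    | zero => intro x; simp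
    | succ j ih =>
      intro x
      rw [Function.iterate_succ_apply', ih, pow_succ', map_mul]
      rfl
  have hT : ∀ x, T^[p ^ n] x = x := fun x => by rw [hTpow]; exact hV _ hmem' x
  exact addMonoidHom_eq_id_of_iterate hp hcard T n hT m

/-! ## KB-DEV -/

/-- **KB-DEV** from KB-DEV-B (Sylow) and KB-DEV-C (filtration). -/
theorem devissage_of (hB : DevSylowSpec) (hC : DevPGroupSpec) : DevissageSpec := by
  intro k Γ _ _ hk N μ p hp hcard hμ hU R hRfin hRp hRsm
  haveI : Finite μ.V := Nat.finite_of_card_ne_zero (by rw [hcard]; exact hp.ne_zero)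
  obtain ⟨V₁⟩ := (inferInstance : Nonempty N.Lvl)
  obtain ⟨V₀, -, hV₀⟩ := exists_lvl_actsTrivially N μ hμ V₁
  refine hB k Γ N p hp R hRfin hRp hRsm V₀ ?_
  intro U V hVU hVV₀ hVR hPg
  have hVμ : ActsTrivially V.W μ := fun w hw m => hV₀ w (hVV₀ hw) m
  refine hC k ↥U hk (N.restrict U) (Rep.res U.subtype μ) p hp hcard
    (fun u m => actsTrivially_of_isPGroup μ hp hcard U V.W hVμ hPg u m)
    (hU U ⟨V.W, V.mem, hVU⟩) (Rep.res U.subtype R) hRfin hRp ⟨V.restrict U, ?_, hPg⟩
  intro w hw r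
  exact hVR w.1 (Subgroup.mem_subgroupOf.1 hw) r

/-! ## KB-CD -/

/-- **KB-CD** from KB-KUM3 and KB-DEV. -/
theorem cd_of (hK : KummerH3Spec) (hD : DevissageSpec) : CdSpec := by
  intro k Γ _ _ hk N A p hp hA
  obtain ⟨hsm, hdiv, hcard, hU⟩ := hA
  refine hD k Γ hk N (tors A p) p hp hcard (isSmooth_tors N A p hsm) ?_
  intro U hUo
  exact hK k ↥U (N.restrict U) (Rep.res U.subtype A) p hp (isSmooth_res N A U hsm)
    (isDivisibleBy_res A p U hdiv) (hU U hUo).1 (hU U hUo).2

/-- **KB-CD** from the three leaves KUM3, DEV-B, DEV-C. -/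
theorem cd_of_leaves (hK : KummerH3Spec) (hB : DevSylowSpec) (hC : DevPGroupSpec) : CdSpec :=
  cd_of hK (devissage_of hB hC)

end Fermat.Agent.S55.KL.H593
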