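import Fermat.Agent.S55.KL.SpecLocal

/-!
# S55, layer KL, leaf KL-DEG: `LocalDegreeSpec`                         (producer: helper215)

Degrees of finite Galois extensions of `ℚ_q` are unbounded at every prime `p`: below every level
`V` of an open subgroup `U` of `Gal(ℚ̄_q/ℚ_q)` there is a level `V'` with `p · [U : V] ∣ [U : V']`.

Proof.  A finite extension `E/ℚ_q` of degree `d` contains an element which is not a `p`-th power:
otherwise `q = b ^ (p ^ d)` with `b ∈ E`, and taking norms to `ℚ_q` and then the `q`-adic valuation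
gives `p ^ d ∣ d`.  For such an `a ∈ E` the polynomial `X ^ p - a` is irreducible over `E`, so
adjoining a root `α` gives an extension of degree `p` of `E`; the Galois closure of `E(α)` over
`ℚ_q` is a finite Galois extension of degree divisible by `p · [E : ℚ_q]`.  The statement follows
by multiplicativity of indices.
-/

set_option autoImplicit false

namespace Fermat.Agent.S55.KL.H215

open IntermediateField Polynomial

/-- In a finite extension `E` of `ℚ_q`, not every element is a `p`-th power. -/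
theorem exists_not_pow_h215 (q : ℕ) [Fact q.Prime] (p : ℕ) (hp : p.Prime)
    (E : Type) [Field E] [Algebra ℚ_[q] E] [FiniteDimensional ℚ_[q] E] :
    ∃ a : E, ∀ b : E, b ^ p ≠ a := by
  by_contra hcon
  have hcon' : ∀ a : E, ∃ b : E, b ^ p = a := by
    intro a
    by_contra h
    exact hcon ⟨a, fun b hb => h ⟨b, hb⟩⟩
  have hiter : ∀ k : ℕ, ∀ a : E, ∃ b : E, b ^ (p ^ k) = a := by
    intro k
    induction k with
    | zero => intro a; exact ⟨a, by simp⟩
    | succ k ih =>
      intro a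
      obtain ⟨b, hb⟩ := ih a
      obtain ⟨c, hc⟩ := hcon' b
      exact ⟨c, by rw [pow_succ', pow_mul, hc, hb]⟩
  set d : ℕ := Module.finrank ℚ_[q] E with hd
  have hdpos : 0 < d := Module.finrank_pos
  obtain ⟨b, hb⟩ := hiter d (algebraMap ℚ_[q] E (q : ℚ_[q]))
  have hN : (Algebra.norm ℚ_[q] b) ^ (p ^ d) = (q : ℚ_[q]) ^ d := by
    rw [← map_pow, hb, Algebra.norm_algebraMap]
  have hv := congrArg Padic.valuation hN
  rw [Padic.valuation_pow, Padic.valuation_pow, Padic.valuation_p, mul_one] at hv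
  have hdvd : ((p ^ d : ℕ) : ℤ) ∣ (d : ℤ) := ⟨_, hv.symm⟩
  have hdvd' : p ^ d ∣ d := Int.natCast_dvd_natCast.mp hdvd
  have hle : p ^ d ≤ d := Nat.le_of_dvd hdpos hdvd'
  have h2 : d < 2 ^ d := Nat.lt_two_pow_self
  have h3 : 2 ^ d ≤ p ^ d := Nat.pow_le_pow_left hp.two_le d
  omega

/-- Kummer-type step: if `a ∈ E₁` is not a `p`-th power in `E₁` and `α ^ p = a`, then every
intermediate field `E₂ ⊇ E₁` containing `α` has degree divisible by `p · [E₁ : K]` (in terms of
indices of fixing subgroups). -/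
theorem mul_index_dvd_h215 {K Ω : Type} [Field K] [Field Ω] [Algebra K Ω] [IsGalois K Ω]
    (p : ℕ) (hp : p.Prime) (E₁ E₂ : IntermediateField K Ω)
    (h12 : E₁ ≤ E₂) (a : E₁) (ha : ∀ b : E₁, b ^ p ≠ a) (α : Ω) (hα : α ^ p = (a : Ω))
    (hα2 : α ∈ E₂) :
    p * E₁.fixingSubgroup.index ∣ E₂.fixingSubgroup.index := by
  have hirr : Irreducible (X ^ p - C a : (↥E₁)[X]) := X_pow_sub_C_irreducible_of_prime hp ha
  have hmonic : (X ^ p - C a : (↥E₁)[X]).Monic := monic_X_pow_sub_C a hp.ne_zero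
  have hroot : aeval α (X ^ p - C a : (↥E₁)[X]) = 0 := by
    simp [hα]
  have hmin : minpoly ↥E₁ α = X ^ p - C a :=
    (minpoly.eq_of_irreducible_of_monic hirr hroot hmonic).symm
  have hint : IsIntegral ↥E₁ α := ⟨_, hmonic, by simpa using hroot⟩
  have hdeg : Module.finrank ↥E₁ ↥(E₁⟮α⟯) = p := by
    rw [IntermediateField.adjoin.finrank hint, hmin, natDegree_X_pow_sub_C]
  set L : IntermediateField K Ω := (E₁⟮α⟯).restrictScalars K with hL
  have hLfin : Module.finrank K ↥L = Module.finrank K ↥E₁ * p := by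
    rw [← hdeg]
    exact (Module.finrank_mul_finrank K ↥E₁ ↥(E₁⟮α⟯)).symm
  have hLle : L ≤ E₂ := by
    rw [hL, restrictScalars_adjoin, adjoin_le_iff]
    rintro x (hx | hx)
    · exact h12 hx
    · rw [Set.mem_singleton_iff] at hx
      rw [hx]; exact hα2
  have hfix : E₂.fixingSubgroup ≤ L.fixingSubgroup :=
    IntermediateField.fixingSubgroup_antitone hLle
  have h1 : L.fixingSubgroup.index ∣ E₂.fixingSubgroup.index := Subgroup.index_dvd_of_le hfix
  rw [← finrank_eq_fixingSubgroup_index Ω L, hLfin, finrank_eq_fixingSubgroup_index Ω E₁,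
    mul_comm] at h1
  exact h1

/-- Above every finite Galois extension `E₁/ℚ_q` inside `ℚ̄_q` there is a finite Galois extension
`E₂/ℚ_q` with `p · [E₁ : ℚ_q] ∣ [E₂ : ℚ_q]`. -/
theorem exists_finiteGalois_mul_dvd_h215 (q : ℕ) [Fact q.Prime] (p : ℕ) (hp : p.Prime)
    (E₁ : FiniteGaloisIntermediateField ℚ_[q] (PadicAlgCl q)) :
    ∃ E₂ : FiniteGaloisIntermediateField ℚ_[q] (PadicAlgCl q), E₁ ≤ E₂ ∧
      p * E₁.toIntermediateField.fixingSubgroup.index ∣
        E₂.toIntermediateField.fixingSubgroup.index := by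
  obtain ⟨a, ha⟩ := exists_not_pow_h215 q p hp ↥E₁.toIntermediateField
  obtain ⟨α, hα⟩ := IsAlgClosed.exists_pow_nat_eq (a : PadicAlgCl q) hp.pos
  refine ⟨E₁ ⊔ FiniteGaloisIntermediateField.adjoin ℚ_[q] {α}, le_sup_left, ?_⟩
  refine mul_index_dvd_h215 p hp E₁.toIntermediateField _ ?_ a ha α hα ?_
  · exact (FiniteGaloisIntermediateField.le_iff _ _).mp le_sup_left
  · have h1 : FiniteGaloisIntermediateField.adjoin ℚ_[q] {α} ≤
        E₁ ⊔ FiniteGaloisIntermediateField.adjoin ℚ_[q] {α} := le_sup_right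
    exact (FiniteGaloisIntermediateField.le_iff _ _).mp h1
      (FiniteGaloisIntermediateField.subset_adjoin ℚ_[q] {α} (Set.mem_singleton α))

/-- **KL-DEG.** -/
theorem localDegree : LocalDegreeSpec := by
  intro q _ p hp U hU V
  obtain ⟨W₀, ⟨E₀, rfl⟩, hW₀⟩ := hU
  obtain ⟨W, ⟨E', rfl⟩, hVW⟩ := V.mem
  obtain ⟨E₂, h12, hdvd⟩ := exists_finiteGalois_mul_dvd_h215 q p hp (E' ⊔ E₀)
  have hfix1 : (E' ⊔ E₀).toIntermediateField.fixingSubgroup =
      E'.toIntermediateField.fixingSubgroup ⊓ E₀.toIntermediateField.fixingSubgroup := by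
    show (E'.toIntermediateField ⊔ E₀.toIntermediateField).fixingSubgroup = _
    rw [IntermediateField.fixingSubgroup_sup]
  set W₁ := (E' ⊔ E₀).toIntermediateField.fixingSubgroup with hW₁
  set W₂ := E₂.toIntermediateField.fixingSubgroup with hW₂
  have h1U : W₁ ≤ U := by rw [hfix1]; exact inf_le_right.trans hW₀
  have h1W : W₁ ≤ E'.toIntermediateField.fixingSubgroup := by rw [hfix1]; exact inf_le_left
  have h21 : W₂ ≤ W₁ :=
    IntermediateField.fixingSubgroup_antitone ((FiniteGaloisIntermediateField.le_iff _ _).mp h12)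
  refine ⟨⟨W₂.subgroupOf U, W₂, ⟨E₂, rfl⟩, rfl⟩, ?_, ?_⟩
  · show W₂.subgroupOf U ≤ V.W
    rw [hVW]
    intro x hx
    exact h1W (h21 hx)
  · show p * Nat.card (↥U ⧸ V.W) ∣ Nat.card (↥U ⧸ W₂.subgroupOf U)
    rw [hVW]
    show p * (E'.toIntermediateField.fixingSubgroup).relIndex U ∣ W₂.relIndex U
    have hfin : W₁.index ≠ 0 := by
      rw [hW₁, ← finrank_eq_fixingSubgroup_index]
      exact Module.finrank_pos.ne'
    have hp21 : p ∣ W₂.relIndex W₁ := by
      have h := Subgroup.relIndex_mul_index h21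
      rw [← h] at hdvd
      exact (Nat.mul_dvd_mul_iff_right (Nat.pos_of_ne_zero hfin)).mp hdvd
    have hmul : W₂.relIndex W₁ * W₁.relIndex U = W₂.relIndex U :=
      Subgroup.relIndex_mul_relIndex W₂ W₁ U h21 h1U
    have hWdvd : (E'.toIntermediateField.fixingSubgroup).relIndex U ∣ W₁.relIndex U :=
      Subgroup.relIndex_dvd_of_le_left U h1W
    rw [← hmul]
    exact Nat.mul_dvd_mul hp21 hWdvd

end Fermat.Agent.S55.KL.H215
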