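import Fermat.Agent.S55.KL.SpecLocal

/-!
# S55 / layer KL: the local glue leaves KL-HYP and KL-CD   (helper593)

* `localKummerHyp_of` : KL-SM + KL-DIV + KL-MU + KL-H2 + KL-H3 + KL-DEG + T1b ⇒ `LocalKummerHypSpec`
  (the hypotheses of the abstract Kummer machine for `(Gal(ℚ̄_q/ℚ_q), ℚ̄_qˣ, p)`);
* `localCd_of` : KB-CD + KL-HYP + KB-SCAL' ⇒ `LocalCdSpec`;
* `localSurjH2_of` : KB-A4 + KL-CD ⇒ `LocalSurjH2Spec` (= input A4 of layer D, elementwise).

The abstract core is stated for any `(Γ, N, A)`: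
`effTors_of_subsingleton`, `effDiv_of_cyclic` (`H²` cyclic of order `[Γ : V]`, killed by
`[Γ : V]`, degrees unbounded at `p` ⇒ `colim H² ⊗ ℤ/p = 0`).
Mathlib + `KL/SpecLocal.lean` only.
-/

set_option autoImplicit false
set_option linter.style.haveILetI false

open CategoryTheory groupCohomology

namespace Fermat.Agent.S55.KL.H593

open Fermat.Agent.S55.KL

/-! ## Abstract core -/

section abstract

variable {k : Type} [CommRing k] {Γ : Type} [Group Γ]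

/-- If all `Hⁿ(Γ/V, B^V)` vanish then `colim Hⁿ[p] = 0`. -/
theorem effTors_of_subsingleton (N : NLevels Γ) (B : Rep.{0} k Γ) (p n : ℕ)
    (h : ∀ V : N.Lvl, Subsingleton (HL B V.W n)) : EffTors N B p n := by
  intro V y _
  haveI := h V
  refine ⟨V, le_rfl, ?_⟩
  rw [Subsingleton.elim y 0, map_zero]

/-- If all `Hⁿ(Γ/V, B^V)` vanish then `colim Hⁿ = 0`. -/
theorem effAll_of_subsingleton (N : NLevels Γ) (B : Rep.{0} k Γ) (n : ℕ)
    (h : ∀ V : N.Lvl, Subsingleton (HL B V.W n)) : EffAll N B n := by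
  intro V y
  haveI := h V
  refine ⟨V, le_rfl, ?_⟩
  rw [Subsingleton.elim y 0, map_zero]

/-- In `ZMod n'`, an element killed by `n` is divisible by `p` as soon as `p * n ∣ n'`
(`0 < n`). -/
theorem zmod_exists_nsmul_of_dvd {n n' p : ℕ} (hn : 0 < n) (hdvd : p * n ∣ n') (z : ZMod n')
    (hz : n • z = 0) : ∃ w : ZMod n', z = p • w := by
  obtain ⟨m, hm⟩ := hdvd
  rcases Nat.eq_zero_or_pos n' with h0 | hpos
  · -- `n' = 0`: `ZMod 0 = ℤ` is torsion-free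
    subst h0
    have hz' : z = 0 := by
      rcases smul_eq_zero.1 hz with h | h
      · exact absurd h hn.ne'
      · exact h
    exact ⟨0, by rw [hz', smul_zero]⟩
  haveI : NeZero n' := ⟨hpos.ne'⟩
  have hval : (z.val : ZMod n') = z := ZMod.natCast_zmod_val z
  have h1 : ((n * z.val : ℕ) : ZMod n') = 0 := by
    rw [Nat.cast_mul, hval, ← nsmul_eq_mul]
    exact hz
  have h2 : n' ∣ n * z.val := (ZMod.natCast_eq_zero_iff _ _).1 h1
  have h3 : p * m ∣ z.val := by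
    have h4 : n * (p * m) ∣ n * z.val := by
      have : n * (p * m) = n' := by rw [hm]; ring
      rw [this]
      exact h2
    exact (Nat.mul_dvd_mul_iff_left hn).1 h4
  obtain ⟨b, hb⟩ := h3
  refine ⟨((m * b : ℕ) : ZMod n'), ?_⟩
  rw [← hval, hb, nsmul_eq_mul, ← Nat.cast_mul]
  congr 1
  ring

/-- **EffDiv in degree `n`** from: `Hⁿ(Γ/V, B^V)` is cyclic of order `[Γ : V]` and killed by
`[Γ : V]`, and below every level there is a level of index divisible by `p · [Γ : V]`. -/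
theorem effDiv_of_cyclic (N : NLevels Γ) (B : Rep.{0} k Γ) (p n : ℕ)
    (hcyc : ∀ V : N.Lvl, Nonempty (HL B V.W n ≃+ ZMod (Nat.card (Γ ⧸ V.W))))
    (hkill : ∀ (V : N.Lvl) (x : HL B V.W n), Nat.card (Γ ⧸ V.W) • x = 0)
    (hdeg : ∀ V : N.Lvl, ∃ V' : N.Lvl, V'.W ≤ V.W ∧
      p * Nat.card (Γ ⧸ V.W) ∣ Nat.card (Γ ⧸ V'.W)) :
    EffDiv N B p n := by
  intro V x
  obtain ⟨V', hle, hdvd⟩ := hdeg V
  obtain ⟨e⟩ := hcyc V'
  refine ⟨V', hle, ?_⟩
  haveI : Finite (Γ ⧸ V.W) := Subgroup.finite_quotient_of_finiteIndex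
  have hn : 0 < Nat.card (Γ ⧸ V.W) := Nat.card_pos
  have hx' : Nat.card (Γ ⧸ V.W) • (infl B hle n).hom x = 0 := by
    rw [← map_nsmul, hkill V x, map_zero]
  have hz : Nat.card (Γ ⧸ V.W) • e ((infl B hle n).hom x) = 0 := by
    rw [← map_nsmul, hx', map_zero]
  obtain ⟨w, hw⟩ := zmod_exists_nsmul_of_dvd hn hdvd _ hz
  refine ⟨e.symm w, ?_⟩
  apply e.injective
  rw [hw, map_nsmul, AddEquiv.apply_symm_apply]

end abstract

/-! ## KL-HYP -/

/-- **KL-HYP.** -/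
theorem localKummerHyp_of (hSm : UnitsSmoothSpec) (hDiv : UnitsDivSpec) (hMu : UnitsTorsSpec)
    (hH2 : LocalH2Spec) (hH3 : LocalH3Spec) (hDeg : LocalDegreeSpec)
    (hCT : Fermat.Agent.S55.T.CardTorsionSpec) : LocalKummerHypSpec := by
  intro q _ p hp
  refine ⟨hSm ℚ_[q] (PadicAlgCl q), hDiv ℚ_[q] (PadicAlgCl q) p hp.pos,
    hMu ℚ_[q] (PadicAlgCl q) p hp, fun U hU => ⟨?_, ?_⟩⟩
  · exact effTors_of_subsingleton _ _ p 3 (fun V => hH3 q U hU V)
  · refine effDiv_of_cyclic _ _ p 2 (fun V => hH2 q U hU V) (fun V x => ?_)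
      (fun V => hDeg q p hp U hU V)
    haveI : Finite (↥U ⧸ V.W) := Subgroup.finite_quotient_of_finiteIndex
    exact hCT ℤ (↥U ⧸ V.W) _ 2 (by norm_num) x

/-! ## KL-CD -/

/-- **KL-CD.** -/
theorem localCd_of (hCd : CdSpec) (hHyp : LocalKummerHypSpec) (hSc : CdScalarsSpec) :
    LocalCdSpec := by
  intro q _ p hp
  have hZ : CdLeTwo (galLevels ℚ_[q] (PadicAlgCl q)) ℤ p :=
    hCd ℤ _ (fun z => ⟨z, Int.cast_id⟩) _ (unitsOm ℚ_[q] (PadicAlgCl q)) p hp (hHyp q p hp)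
  exact ⟨hZ, hSc (ZMod p) _ _ p hZ⟩

/-- **KL-A4.** -/
theorem localSurjH2_of (hS : SurjH2Spec) (hCd : LocalCdSpec) : LocalSurjH2Spec := by
  intro q _ p hp P Q φ hφ hPfin hPsm c hc hcLC
  refine hS (ZMod p) _ _ p hp (hCd q p hp).2 P Q φ hφ hPfin (fun x => ?_) hPsm c hc hcLC
  have h : (p : ZMod p) • x = 0 := by rw [ZMod.natCast_self, zero_smul]
  rwa [Nat.cast_smul_eq_nsmul] at h

end Fermat.Agent.S55.KL.H593
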