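import Fermat.Agent.S55.KL.DeltaNatH304

/-!
# S55, layer KB, leaf KB-A4 (helper898): `cd_p ≤ 2` ⇒ `H²` is right exact

`surjH2 : SurjH2Spec`.
-/

set_option autoImplicit false

open CategoryTheory groupCohomology

namespace Fermat.Agent.S55.KL.H898

open Fermat.Agent.S55.KL

variable {k : Type} [CommRing k] {Γ : Type} [Group Γ]

/-! ## Levels acting trivially on a finite smooth module -/

lemma exists_lvl_fixing (N : NLevels Γ) (P : Rep.{0} k Γ) (hsm : IsSmooth N P)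
    (V₁ : N.Lvl) (s : Finset P.V) :
    ∃ V : N.Lvl, V.W ≤ V₁.W ∧ ∀ b ∈ s, ∀ w ∈ V.W, P.ρ w b = b := by
  classical
  induction s using Finset.induction_on with
  | empty => exact ⟨V₁, le_rfl, by simp⟩
  | insert a s _ ih =>
    obtain ⟨V, hV, hfix⟩ := ih
    obtain ⟨W, hW, hWa⟩ := hsm a
    obtain ⟨X, hXV, hXW⟩ := N.exists_le V ⟨W, hW⟩
    refine ⟨X, hXV.trans hV, ?_⟩
    intro b hb w hw
    rcases Finset.mem_insert.1 hb with rfl | hb
    · exact hWa w (hXW hw)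
    · exact hfix b hb w (hXV hw)

lemma exists_lvl_actsTrivially (N : NLevels Γ) (P : Rep.{0} k Γ) (hfin : Finite P.V)
    (hsm : IsSmooth N P) (V₁ : N.Lvl) :
    ∃ V : N.Lvl, V.W ≤ V₁.W ∧ ActsTrivially V.W P := by
  classical
  have := Fintype.ofFinite P.V
  obtain ⟨V, hV, hfix⟩ := exists_lvl_fixing N P hsm V₁ Finset.univ
  exact ⟨V, hV, fun w hw b => hfix b (Finset.mem_univ b) w hw⟩

/-! ## Descending a level-constant cocycle to a finite level -/

lemma coe_quotientToInvariants_ρ (Q : Rep.{0} k Γ) (W : Subgroup Γ) [W.Normal] (g : Γ)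
    (x : (Q.quotientToInvariants W).V) :
    (((Q.quotientToInvariants W).ρ (g : Γ ⧸ W) x : (Q.quotientToInvariants W).V) : Q.V) =
      Q.ρ g (x : Q.V) := rfl

/-- A cochain which is constant modulo a level acting trivially, as a cochain of the quotient. -/
noncomputable def descend₂ (Q : Rep.{0} k Γ) (W : Subgroup Γ) [W.Normal]
    (htriv : ActsTrivially W Q) (c : Γ × Γ → Q.V) :
    (Γ ⧸ W) × (Γ ⧸ W) → (Q.quotientToInvariants W).V :=
  fun x => ⟨c (x.1.out, x.2.out), fun w => htriv w.1 w.2 _⟩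

lemma descend₂_mk (Q : Rep.{0} k Γ) (W : Subgroup Γ) [W.Normal]
    (htriv : ActsTrivially W Q) (c : Γ × Γ → Q.V)
    (hlc : ∀ g g' s s' : Γ, s ∈ W → s' ∈ W → c (g * s, g' * s') = c (g, g')) (g h : Γ) :
    ((descend₂ Q W htriv c ((g : Γ ⧸ W), (h : Γ ⧸ W)) : _) : Q.V) = c (g, h) := by
  obtain ⟨s, hs⟩ := QuotientGroup.mk_out_eq_mul W g
  obtain ⟨s', hs'⟩ := QuotientGroup.mk_out_eq_mul W h
  show c ((g : Γ ⧸ W).out, (h : Γ ⧸ W).out) = c (g, h)
  rw [hs, hs']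
  exact hlc g h s s' s.2 s'.2

lemma descend₂_mem_cocycles₂ (Q : Rep.{0} k Γ) (W : Subgroup Γ) [W.Normal]
    (htriv : ActsTrivially W Q) (c : Γ × Γ → Q.V) (hc : c ∈ cocycles₂ Q)
    (hlc : ∀ g g' s s' : Γ, s ∈ W → s' ∈ W → c (g * s, g' * s') = c (g, g')) :
    descend₂ Q W htriv c ∈ cocycles₂ (Q.quotientToInvariants W) := by
  rw [mem_cocycles₂_def]
  intro x y z
  induction x using QuotientGroup.induction_on with
  | H g =>
  induction y using QuotientGroup.induction_on with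
  | H h =>
  induction z using QuotientGroup.induction_on with
  | H j =>
  apply Subtype.ext
  have h0 := (mem_cocycles₂_def c).1 hc g h j
  have e1 := descend₂_mk Q W htriv c hlc h j
  have e2 := descend₂_mk Q W htriv c hlc (g * h) j
  have e3 := descend₂_mk Q W htriv c hlc g (h * j)
  have e4 := descend₂_mk Q W htriv c hlc g h
  show Q.ρ g (descend₂ Q W htriv c ((h : Γ ⧸ W), (j : Γ ⧸ W)) : Q.V)
      - (descend₂ Q W htriv c (((g * h : Γ) : Γ ⧸ W), (j : Γ ⧸ W)) : Q.V)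
      + (descend₂ Q W htriv c ((g : Γ ⧸ W), ((h * j : Γ) : Γ ⧸ W)) : Q.V)
      - (descend₂ Q W htriv c ((g : Γ ⧸ W), (h : Γ ⧸ W)) : Q.V) = 0
  rw [e1, e2, e3, e4]
  exact h0

/-! ## The kernel sequence at a finite level -/

lemma ker_le_comap {P Q : Rep.{0} k Γ} (φ : P ⟶ Q) (g : Γ) :
    LinearMap.ker φ.hom.toLinearMap ≤ (LinearMap.ker φ.hom.toLinearMap).comap (P.ρ g) := by
  intro x hx
  have hx' : φ.hom x = 0 := hx
  show φ.hom (P.ρ g x) = 0
  rw [Rep.hom_comm_apply, hx', map_zero]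

/-- The kernel of `φ : P ⟶ Q` as a representation. -/
noncomputable abbrev kerRep {P Q : Rep.{0} k Γ} (φ : P ⟶ Q) : Rep.{0} k Γ :=
  Rep.subrepresentation P (LinearMap.ker φ.hom.toLinearMap) (ker_le_comap φ)

/-- The inclusion of the kernel. -/
noncomputable abbrev kerIncl {P Q : Rep.{0} k Γ} (φ : P ⟶ Q) : kerRep φ ⟶ P :=
  Rep.subtype P (LinearMap.ker φ.hom.toLinearMap) (ker_le_comap φ)

/-- The map induced on `W`-invariants, as a morphism of `Γ ⧸ W`-representations. -/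
noncomputable abbrev invF {A B : Rep.{0} k Γ} (W : Subgroup Γ) [W.Normal] (ψ : A ⟶ B) :
    A.quotientToInvariants W ⟶ B.quotientToInvariants W :=
  (Rep.quotientToInvariantsFunctor k W).map ψ

lemma invF_coe {A B : Rep.{0} k Γ} (W : Subgroup Γ) [W.Normal] (ψ : A ⟶ B)
    (x : (A.quotientToInvariants W).V) :
    (((invF W ψ).hom x : (B.quotientToInvariants W).V) : B.V) = ψ.hom (x : A.V) := rfl

lemma kerIncl_coe {P Q : Rep.{0} k Γ} (φ : P ⟶ Q) (x : (kerRep φ).V) :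
    φ.hom ((kerIncl φ).hom x) = 0 := x.2

lemma invF_kerIncl_injective {P Q : Rep.{0} k Γ} (φ : P ⟶ Q) (W : Subgroup Γ) [W.Normal] :
    Function.Injective (invF W (kerIncl φ)).hom := by
  intro x y hxy
  have h1 : (((invF W (kerIncl φ)).hom x : (P.quotientToInvariants W).V) : P.V) =
      (((invF W (kerIncl φ)).hom y : (P.quotientToInvariants W).V) : P.V) := by rw [hxy]
  apply Subtype.ext
  apply Subtype.ext
  exact h1

lemma invF_surjective {P Q : Rep.{0} k Γ} (φ : P ⟶ Q) (hφ : Function.Surjective φ.hom)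
    (W : Subgroup Γ) [W.Normal] (htriv : ActsTrivially W P) :
    Function.Surjective (invF W φ).hom := by
  intro z
  obtain ⟨x, hx⟩ := hφ (z : Q.V)
  refine ⟨⟨x, fun w => htriv w.1 w.2 x⟩, ?_⟩
  apply Subtype.ext
  exact hx

lemma invF_exact {P Q : Rep.{0} k Γ} (φ : P ⟶ Q) (W : Subgroup Γ) [W.Normal]
    (y : (P.quotientToInvariants W).V) (hy : (invF W φ).hom y = 0) :
    ∃ x : ((kerRep φ).quotientToInvariants W).V, (invF W (kerIncl φ)).hom x = y := by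
  have hy' : φ.hom (y : P.V) = 0 := congrArg Subtype.val hy
  refine ⟨⟨⟨(y : P.V), hy'⟩, fun w => Subtype.ext (y.2 w)⟩, ?_⟩
  apply Subtype.ext
  rfl

/-- The sequence `0 → K^W → P^W → Q^W → 0` of `Γ ⧸ W`-modules (`K = ker φ`). -/
noncomputable abbrev sesAt {P Q : Rep.{0} k Γ} (φ : P ⟶ Q) (W : Subgroup Γ) [W.Normal] :
    ShortComplex (Rep.{0} k (Γ ⧸ W)) :=
  ShortComplex.mk (invF W (kerIncl φ)) (invF W φ) (by
    ext x
    exact kerIncl_coe φ x.1)

lemma sesAt_shortExact {P Q : Rep.{0} k Γ} (φ : P ⟶ Q) (hφ : Function.Surjective φ.hom)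
    (W : Subgroup Γ) [W.Normal] (htriv : ActsTrivially W P) : (sesAt φ W).ShortExact where
  exact := by
    rw [← ShortComplex.exact_map_iff_of_faithful _ (forget₂ (Rep k (Γ ⧸ W)) (ModuleCat k)),
      ShortComplex.moduleCat_exact_iff_ker_sub_range]
    intro y hy
    exact invF_exact φ W y hy
  mono_f := (Rep.mono_iff_injective _).2 (invF_kerIncl_injective φ W)
  epi_g := (Rep.epi_iff_surjective _).2 (invF_surjective φ hφ W htriv)

/-! ## Inflation commutes with the connecting homomorphism -/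

lemma infl_δ {P Q : Rep.{0} k Γ} (φ : P ⟶ Q) (hφ : Function.Surjective φ.hom)
    {W' W : Subgroup Γ} [W'.Normal] [W.Normal] (h : W' ≤ W)
    (htriv : ActsTrivially W P) (htriv' : ActsTrivially W' P) :
    δ (sesAt_shortExact φ hφ W htriv) 2 3 rfl ≫ infl (kerRep φ) h 3 =
      infl Q h 2 ≫ δ (sesAt_shortExact φ hφ W' htriv') 2 3 rfl := by
  have hle : W' ≤ W.comap (MonoidHom.id Γ) := by simpa using h
  exact H304.deltaNat k (Γ ⧸ W') (Γ ⧸ W) (QuotientGroup.map W' W (MonoidHom.id Γ) hle)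
    (sesAt φ W) (sesAt_shortExact φ hφ W htriv) (sesAt φ W') (sesAt_shortExact φ hφ W' htriv')
    (invMap (MonoidHom.id Γ) hle (𝟙 (kerRep φ))) (invMap (MonoidHom.id Γ) hle (𝟙 P))
    (invMap (MonoidHom.id Γ) hle (𝟙 Q)) (by ext x; rfl) (by ext x; rfl) 2 3 rfl

/-! ## The kernel is finite, smooth and `p`-torsion -/

lemma kerRep_finite {P Q : Rep.{0} k Γ} (φ : P ⟶ Q) (h : Finite P.V) : Finite (kerRep φ).V :=
  Finite.of_injective (fun x : (kerRep φ).V => (x : P.V)) Subtype.val_injective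

lemma kerRep_torsion {P Q : Rep.{0} k Γ} (φ : P ⟶ Q) (p : ℕ) (h : ∀ x : P.V, p • x = 0)
    (r : (kerRep φ).V) : p • r = 0 :=
  Subtype.ext (h (r : P.V))

lemma kerRep_smooth {P Q : Rep.{0} k Γ} (φ : P ⟶ Q) (N : NLevels Γ) (h : IsSmooth N P) :
    IsSmooth N (kerRep φ) := by
  intro b
  obtain ⟨W, hW, hb⟩ := h (b : P.V)
  exact ⟨W, hW, fun w hw => Subtype.ext (hb w hw)⟩

lemma actsTrivially_of_surjective {P Q : Rep.{0} k Γ} (φ : P ⟶ Q)
    (hφ : Function.Surjective φ.hom) (W : Subgroup Γ) (h : ActsTrivially W P) :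
    ActsTrivially W Q := by
  intro w hw q
  obtain ⟨x, rfl⟩ := hφ q
  rw [← Rep.hom_comm_apply, h w hw x]

/-! ## The theorem -/

/-- **KB-A4.** -/
theorem surjH2 : SurjH2Spec := by
  intro k Γ _ _ N p hp hcd P Q φ hφ hfinP hpP hsmP c hc hlc
  have hK : EffAll N (kerRep φ) 3 :=
    hcd (kerRep φ) (kerRep_finite φ hfinP) (kerRep_torsion φ p hpP) (kerRep_smooth φ N hsmP)
  obtain ⟨W₁, hW₁, hc₁⟩ := hlc
  obtain ⟨V, hVW₁, hVtriv⟩ := exists_lvl_actsTrivially N P hfinP hsmP ⟨W₁, hW₁⟩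
  have hVQ : ActsTrivially V.W Q := actsTrivially_of_surjective φ hφ V.W hVtriv
  have hlcV : ∀ g g' s s' : Γ, s ∈ V.W → s' ∈ V.W → c (g * s, g' * s') = c (g, g') :=
    fun g g' s s' hs hs' => hc₁ g g' s s' (hVW₁ hs) (hVW₁ hs')
  let cV : cocycles₂ (Q.quotientToInvariants V.W) :=
    ⟨descend₂ Q V.W hVQ c, descend₂_mem_cocycles₂ Q V.W hVQ c hc hlcV⟩
  have hXV := sesAt_shortExact φ hφ V.W hVtriv
  obtain ⟨V', hV'V, hkill⟩ := hK V ((δ hXV 2 3 rfl).hom ((H2π _).hom cV))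
  have hV'triv : ActsTrivially V'.W P := fun w hw => hVtriv w (hV'V hw)
  have hXV' := sesAt_shortExact φ hφ V'.W hV'triv
  have hnat := infl_δ φ hφ hV'V hVtriv hV'triv
  have hδ : (δ hXV' 2 3 rfl).hom ((infl Q hV'V 2).hom ((H2π _).hom cV)) = 0 := by
    have h1 := congrArg (fun m => m.hom ((H2π _).hom cV)) hnat
    exact h1.symm.trans hkill
  have hex := mapShortComplex₃_exact hXV' (i := 2) (j := 3) rfl
  obtain ⟨y, hy⟩ : ∃ y : groupCohomology (P.quotientToInvariants V'.W) 2,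
      (groupCohomology.map (MonoidHom.id (Γ ⧸ V'.W)) (invF V'.W φ) 2).hom y =
        (infl Q hV'V 2).hom ((H2π _).hom cV) :=
    (ShortComplex.moduleCat_exact_iff _).1 hex _ hδ
  obtain ⟨cP, rfl⟩ := (ModuleCat.epi_iff_surjective (H2π (P.quotientToInvariants V'.W))).1
    inferInstance y
  have hle : V'.W ≤ V.W.comap (MonoidHom.id Γ) := by simpa using hV'V
  have e1 : (groupCohomology.map (MonoidHom.id (Γ ⧸ V'.W)) (invF V'.W φ) 2).hom
      ((H2π (P.quotientToInvariants V'.W)).hom cP) =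
      (H2π (Q.quotientToInvariants V'.W)).hom
        ((mapCocycles₂ (MonoidHom.id (Γ ⧸ V'.W)) (invF V'.W φ)).hom cP) :=
    congrArg (fun m => m.hom cP) (H2π_comp_map (MonoidHom.id (Γ ⧸ V'.W)) (invF V'.W φ))
  have e2 : (infl Q hV'V 2).hom ((H2π (Q.quotientToInvariants V.W)).hom cV) =
      (H2π (Q.quotientToInvariants V'.W)).hom
        ((mapCocycles₂ (QuotientGroup.map V'.W V.W (MonoidHom.id Γ) hle)
          (invMap (MonoidHom.id Γ) hle (𝟙 Q))).hom cV) :=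
    congrArg (fun m => m.hom cV) (H2π_comp_map (QuotientGroup.map V'.W V.W (MonoidHom.id Γ) hle)
      (invMap (MonoidHom.id Γ) hle (𝟙 Q)))
  rw [e1, e2] at hy
  obtain ⟨b, hb⟩ := (H2π_eq_iff _ _).1 hy
  have hmk : ∀ (g s : Γ), s ∈ V'.W → ((g * s : Γ) : Γ ⧸ V'.W) = (g : Γ ⧸ V'.W) :=
    fun g s hs => QuotientGroup.mk_mul_of_mem g hs
  refine ⟨fun x => ((cP.1 ((x.1 : Γ ⧸ V'.W), (x.2 : Γ ⧸ V'.W)) : _) : P.V), ?_,
    ⟨V'.W, V'.mem, ?_⟩, fun g => ((b (g : Γ ⧸ V'.W) : (Q.quotientToInvariants V'.W).V) : Q.V),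
    ⟨V'.W, V'.mem, ?_⟩, ?_⟩
  · rw [mem_cocycles₂_def]
    intro g h j
    have h0 := congrArg Subtype.val ((mem_cocycles₂_def cP.1).1 cP.2 (g : Γ ⧸ V'.W)
      (h : Γ ⧸ V'.W) (j : Γ ⧸ V'.W))
    exact h0
  · intro g g' s s' hs hs'
    show ((cP.1 (((g * s : Γ) : Γ ⧸ V'.W), ((g' * s' : Γ) : Γ ⧸ V'.W)) : _) : P.V) =
      ((cP.1 ((g : Γ ⧸ V'.W), (g' : Γ ⧸ V'.W)) : _) : P.V)
    rw [hmk g s hs, hmk g' s' hs']
  · intro g s hs
    show ((b ((g * s : Γ) : Γ ⧸ V'.W) : (Q.quotientToInvariants V'.W).V) : Q.V) =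
      ((b (g : Γ ⧸ V'.W) : (Q.quotientToInvariants V'.W).V) : Q.V)
    rw [hmk g s hs]
  · intro g h
    have h1 := congrArg Subtype.val (congrFun hb ((g : Γ ⧸ V'.W), (h : Γ ⧸ V'.W)))
    have h2 := descend₂_mk Q V.W hVQ c hlcV g h
    have h3 : Q.ρ g ((b (h : Γ ⧸ V'.W) : (Q.quotientToInvariants V'.W).V) : Q.V)
        - ((b ((g * h : Γ) : Γ ⧸ V'.W) : (Q.quotientToInvariants V'.W).V) : Q.V)
        + ((b (g : Γ ⧸ V'.W) : (Q.quotientToInvariants V'.W).V) : Q.V)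
        = φ.hom ((cP.1 ((g : Γ ⧸ V'.W), (h : Γ ⧸ V'.W)) : _) : P.V)
          - ((descend₂ Q V.W hVQ c ((g : Γ ⧸ V.W), (h : Γ ⧸ V.W)) : _) : Q.V) := h1
    rw [h2] at h3
    show φ.hom ((cP.1 ((g : Γ ⧸ V'.W), (h : Γ ⧸ V'.W)) : _) : P.V) = c (g, h) +
      (Q.ρ g ((b (h : Γ ⧸ V'.W) : (Q.quotientToInvariants V'.W).V) : Q.V)
        - ((b ((g * h : Γ) : Γ ⧸ V'.W) : (Q.quotientToInvariants V'.W).V) : Q.V)
        + ((b (g : Γ ⧸ V'.W) : (Q.quotientToInvariants V'.W).V) : Q.V))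
    rw [h3]
    abel

end Fermat.Agent.S55.KL.H898
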