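import Fermat.Agent.S55.KL.AdapterPT
import Fermat.Agent.S55.KL.SurjH2H898
import Fermat.Agent.S55.KL.DevCdGlueH593
import Fermat.Agent.S55.KL.DevSylowH543
import Fermat.Agent.S55.KL.DevCH783
import Fermat.Agent.S55.KL.LocalGlueH593
import Fermat.Agent.S55.KL.FormalH587
import Fermat.Agent.S55.KL.LocalDegreeH215
import Fermat.Agent.S55.T.CoresH572

/-!
# S55, layer KL: assembly of input A4 (`PT.Surj2LocSpec`) of the duality engine

`surj2Loc_of_leaves` : the four outstanding leaves (`KummerH3Spec`, `CdScalarsSpec`,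
`LocalH2Spec`, `LocalH3Spec`) imply `PT.Surj2LocSpec p S`.  Everything else is closed.

Architect/owner: helper183.
-/

set_option autoImplicit false

namespace Fermat.Agent.S55.KL

/-- The abstract machine, closed up to the Kummer chase: `KummerH3Spec ⇒ CdSpec`. -/
theorem cd_of_kummer (hK : KummerH3Spec) : CdSpec :=
  H593.cd_of_leaves hK H543.devSylow H783.devPGroup

/-- The local hypotheses, closed up to `H²`, `H³` of local fields. -/
theorem localKummerHyp_of_h23 (hH2 : LocalH2Spec) (hH3 : LocalH3Spec) : LocalKummerHypSpec :=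
  H593.localKummerHyp_of H587.unitsSmooth H587.unitsDiv H587.unitsTors hH2 hH3
    H215.localDegree Fermat.Agent.S55.T.H572.cardTorsion

/-- `cd_p(Gal(ℚ̄_q/ℚ_q)) ≤ 2` from the four outstanding leaves. -/
theorem localCd_of_leaves (hK : KummerH3Spec) (hSc : CdScalarsSpec) (hH2 : LocalH2Spec)
    (hH3 : LocalH3Spec) : LocalCdSpec :=
  H593.localCd_of (cd_of_kummer hK) (localKummerHyp_of_h23 hH2 hH3) hSc

/-- **Input A4 of layer D** from the four outstanding leaves. -/
theorem surj2Loc_of_leaves (hK : KummerH3Spec) (hSc : CdScalarsSpec) (hH2 : LocalH2Spec)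
    (hH3 : LocalH3Spec) (p : ℕ) [Fact p.Prime] (S : Finset Nat.Primes) :
    PT.Surj2LocSpec p S :=
  surj2Loc_of_cd p S H898.surjH2 (localCd_of_leaves hK hSc hH2 hH3)

end Fermat.Agent.S55.KL
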