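import Mathlib

/-!
# S55, layer KL / KB ("Kummer bridge"): definitions                       (architect: helper183)

Purpose of the layer: translate the FINITE-LEVEL class field theory of layers L (local), G (global)
and T (finite-group toolkit) into the statements on level-constant cohomology that the duality
engine (layer D, `coord/S55-D.md` of helper835) consumes: A2 (finiteness of `H¹`),
A4 / A3 (`H²` is right exact, i.e. `cd_p ≤ 2`), A5 / A6 (`H²(μ_p)` is one-dimensional).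

Everything in this file is ABSTRACT and elementary:

* `Γ` is any group (think `Gal(ℚ̄_q/K)`, `K/ℚ_q` finite, or `G_S(K)`),
* a *level* is a normal subgroup `W` of finite index of `Γ` (think `G_E`, `E/K` finite Galois),
* `B : Rep k Γ` is a `Γ`-module (think `ℚ̄_qˣ` with `k = ℤ`, or a finite `𝔽_p[Γ]`-module);
  all definitions are GENERIC in `k` (this avoids the `Module ℤ` instance diamond),
* `HL B W n = Hⁿ(Γ ⧸ W, B^W)` is the finite-level cohomology (Mathlib `groupCohomology`),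
* `HLmap f hf φ n : HL B W n ⟶ HL B' W' n` is the functoriality for `f : Γ' →* Γ` with
  `f(W') ≤ W` and an equivariant `φ : B → B'`; special cases: inflation `infl` (`f = id`,
  `W' ≤ W`), restriction `rest` to a subgroup `U` (levels `W.subgroupOf U`), push-forward `push`.

No `sorry`, Mathlib only.
-/

set_option autoImplicit false
set_option linter.style.haveILetI false

open CategoryTheory groupCohomology

namespace Fermat.Agent.S55.KL

variable {k : Type} [CommRing k] {Γ Γ' : Type} [Group Γ] [Group Γ']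

/-! ## Finite-level cohomology and its functoriality -/

/-- The finite-level cohomology `Hⁿ(Γ ⧸ W, B^W)`. -/
noncomputable abbrev HL (B : Rep.{0} k Γ) (W : Subgroup Γ) [W.Normal] (n : ℕ) : ModuleCat.{0} k :=
  groupCohomology (B.quotientToInvariants W) n

/-- An equivariant map `φ : B → B'` along `f : Γ' → Γ` maps `B^W` to `B'^{W'}` if `f(W') ≤ W`. -/
def invMapLin {B : Rep.{0} k Γ} {B' : Rep.{0} k Γ'} (f : Γ' →* Γ) {W : Subgroup Γ}
    {W' : Subgroup Γ'} (hf : W' ≤ W.comap f) (φ : Rep.res f B ⟶ B') :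
    ↥(Representation.invariants (B.ρ.comp W.subtype)) →ₗ[k]
      ↥(Representation.invariants (B'.ρ.comp W'.subtype)) where
  toFun b := ⟨φ.hom b.1, fun w => by
    have h1 : B.ρ (f w.1) b.1 = b.1 := b.2 ⟨f w.1, hf w.2⟩
    have h2 := Rep.hom_comm_apply φ w.1 b.1
    show B'.ρ w.1 (φ.hom b.1) = φ.hom b.1
    rw [← h2]
    exact congrArg φ.hom h1⟩
  map_add' _ _ := Subtype.ext (map_add _ _ _)
  map_smul' _ _ := Subtype.ext (map_smul _ _ _)

@[simp] lemma invMapLin_coe {B : Rep.{0} k Γ} {B' : Rep.{0} k Γ'} (f : Γ' →* Γ)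
    {W : Subgroup Γ} {W' : Subgroup Γ'} (hf : W' ≤ W.comap f) (φ : Rep.res f B ⟶ B')
    (b : ↥(Representation.invariants (B.ρ.comp W.subtype))) :
    ((invMapLin f hf φ b : _) : B'.V) = φ.hom b.1 := rfl

/-- The map `B^W → B'^{W'}` as a morphism of representations of `Γ' ⧸ W'`. -/
noncomputable def invMap {B : Rep.{0} k Γ} {B' : Rep.{0} k Γ'} (f : Γ' →* Γ) {W : Subgroup Γ}
    [W.Normal] {W' : Subgroup Γ'} [W'.Normal] (hf : W' ≤ W.comap f) (φ : Rep.res f B ⟶ B') :
    Rep.res (QuotientGroup.map W' W f hf) (B.quotientToInvariants W) ⟶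
      B'.quotientToInvariants W' :=
  Rep.ofHom ⟨invMapLin f hf φ, fun g => by
    induction g using QuotientGroup.induction_on with
    | H g =>
      ext b
      exact Rep.hom_comm_apply φ g b.1⟩

/-- **Functoriality of finite-level cohomology.** -/
noncomputable def HLmap {B : Rep.{0} k Γ} {B' : Rep.{0} k Γ'} (f : Γ' →* Γ) {W : Subgroup Γ}
    [W.Normal] {W' : Subgroup Γ'} [W'.Normal] (hf : W' ≤ W.comap f) (φ : Rep.res f B ⟶ B')
    (n : ℕ) : HL B W n ⟶ HL B' W' n :=
  groupCohomology.map (QuotientGroup.map W' W f hf) (invMap f hf φ) n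


/-- **Inflation** `Hⁿ(Γ ⧸ W, B^W) ⟶ Hⁿ(Γ ⧸ W', B^{W'})` for `W' ≤ W`. -/
noncomputable abbrev infl (B : Rep.{0} k Γ) {W' W : Subgroup Γ} [W'.Normal] [W.Normal]
    (h : W' ≤ W) (n : ℕ) : HL B W n ⟶ HL B W' n :=
  HLmap (MonoidHom.id Γ) (W := W) (W' := W') (by simpa using h) (𝟙 B) n

/-- **Push-forward** along a morphism of representations. -/
noncomputable abbrev push {B B' : Rep.{0} k Γ} (φ : B ⟶ B') (W : Subgroup Γ) [W.Normal] (n : ℕ) :
    HL B W n ⟶ HL B' W n :=
  HLmap (MonoidHom.id Γ) (W := W) (W' := W) (by simp) φ n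

/-- **Restriction** to a subgroup `U ≤ Γ`:
`Hⁿ(Γ ⧸ W, B^W) ⟶ Hⁿ(U ⧸ (W ∩ U), B^{W ∩ U})`. -/
noncomputable abbrev rest (B : Rep.{0} k Γ) (U W : Subgroup Γ) [W.Normal] (n : ℕ) :
    HL B W n ⟶ HL (Rep.res U.subtype B) (W.subgroupOf U) n :=
  HLmap U.subtype (W := W) (W' := W.subgroupOf U) le_rfl (𝟙 (Rep.res U.subtype B)) n

/-! ## Level systems -/

/-- A nonempty directed family of normal subgroups of finite index of `Γ` ("levels"). -/
structure NLevels (Γ : Type) [Group Γ] where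
  /-- the levels -/
  carrier : Set (Subgroup Γ)
  normal : ∀ W ∈ carrier, W.Normal
  finiteIndex : ∀ W ∈ carrier, W.FiniteIndex
  nonempty : carrier.Nonempty
  directed : ∀ W ∈ carrier, ∀ W' ∈ carrier, ∃ X ∈ carrier, X ≤ W ⊓ W'

namespace NLevels

/-- A level, bundled (so that `Normal` is found by instance resolution). -/
structure Lvl (N : NLevels Γ) where
  /-- the underlying normal subgroup -/
  W : Subgroup Γ
  mem : W ∈ N.carrier

instance (N : NLevels Γ) (V : N.Lvl) : V.W.Normal := N.normal V.W V.mem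

instance (N : NLevels Γ) (V : N.Lvl) : V.W.FiniteIndex := N.finiteIndex V.W V.mem

instance (N : NLevels Γ) : Nonempty N.Lvl :=
  let ⟨W, hW⟩ := N.nonempty
  ⟨⟨W, hW⟩⟩

lemma exists_le (N : NLevels Γ) (V V' : N.Lvl) : ∃ X : N.Lvl, X.W ≤ V.W ∧ X.W ≤ V'.W := by
  obtain ⟨X, hX, hle⟩ := N.directed V.W V.mem V'.W V'.mem
  exact ⟨⟨X, hX⟩, (le_inf_iff.1 hle).1, (le_inf_iff.1 hle).2⟩

/-- `U` is open: it contains a level. -/
def IsOpen (N : NLevels Γ) (U : Subgroup Γ) : Prop := ∃ W ∈ N.carrier, W ≤ U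

/-- The induced level system on a subgroup `U` (levels `W ∩ U`). -/
def restrict (N : NLevels Γ) (U : Subgroup Γ) : NLevels ↥U where
  carrier := {X | ∃ W ∈ N.carrier, X = W.subgroupOf U}
  normal := by
    rintro X ⟨W, hW, rfl⟩
    haveI := N.normal W hW
    infer_instance
  finiteIndex := by
    rintro X ⟨W, hW, rfl⟩
    haveI := N.finiteIndex W hW
    infer_instance
  nonempty := by
    obtain ⟨W, hW⟩ := N.nonempty
    exact ⟨_, W, hW, rfl⟩
  directed := by
    rintro X ⟨W, hW, rfl⟩ X' ⟨W', hW', rfl⟩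
    obtain ⟨Y, hY, hle⟩ := N.directed W hW W' hW'
    refine ⟨_, ⟨Y, hY, rfl⟩, ?_⟩
    intro u hu
    have hu' : (u : Γ) ∈ Y := Subgroup.mem_subgroupOf.1 hu
    exact ⟨Subgroup.mem_subgroupOf.2 ((le_inf_iff.1 hle).1 hu'),
      Subgroup.mem_subgroupOf.2 ((le_inf_iff.1 hle).2 hu')⟩

/-- The level of `N.restrict U` induced by a level of `N`. -/
def Lvl.restrict {N : NLevels Γ} (V : N.Lvl) (U : Subgroup Γ) : (N.restrict U).Lvl :=
  ⟨V.W.subgroupOf U, V.W, V.mem, rfl⟩

end NLevels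

/-! ## Smoothness, torsion, effaceability -/

/-- `B` is smooth: every element is fixed by some level. -/
def IsSmooth (N : NLevels Γ) (B : Rep.{0} k Γ) : Prop :=
  ∀ b : B.V, ∃ W ∈ N.carrier, ∀ w ∈ W, B.ρ w b = b

/-- `B` is `p`-divisible. -/
def IsDivisibleBy (B : Rep.{0} k Γ) (p : ℕ) : Prop := ∀ b : B.V, ∃ c : B.V, p • c = b

/-- The `p`-torsion of `B`, as a submodule. -/
def torsSub (B : Rep.{0} k Γ) (p : ℕ) : Submodule k B.V where
  carrier := {b | p • b = 0}
  add_mem' {a b} ha hb := by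
    show p • (a + b) = 0
    rw [smul_add, show p • a = 0 from ha, show p • b = 0 from hb, add_zero]
  zero_mem' := smul_zero p
  smul_mem' c b hb := by
    show p • (c • b) = 0
    rw [smul_comm, show p • b = 0 from hb, smul_zero]

lemma mem_torsSub {B : Rep.{0} k Γ} {p : ℕ} {b : B.V} : b ∈ torsSub B p ↔ p • b = 0 := Iff.rfl

/-- The `p`-torsion subrepresentation `B[p]` (think `μ_p`). -/
noncomputable def tors (B : Rep.{0} k Γ) (p : ℕ) : Rep.{0} k Γ :=
  Rep.of (B.ρ.subrepresentation (torsSub B p) (fun g b hb => by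
    show p • (B.ρ g b) = 0
    rw [← map_nsmul, show p • b = 0 from hb, map_zero]))

/-- The inclusion `B[p] ⟶ B`. -/
noncomputable def torsIncl (B : Rep.{0} k Γ) (p : ℕ) : tors B p ⟶ B :=
  Rep.ofHom ⟨(torsSub B p).subtype, fun _ => rfl⟩

/-- The class `y ∈ Hⁿ(Γ ⧸ V, B^V)` is *effaceable*: it dies after inflation to a smaller level. -/
def IsEff (N : NLevels Γ) (B : Rep.{0} k Γ) (n : ℕ) (V : N.Lvl) (y : HL B V.W n) : Prop :=
  ∃ (V' : N.Lvl) (h : V'.W ≤ V.W), (infl B h n).hom y = 0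

/-- `colim_V Hⁿ(Γ ⧸ V, B^V) = 0`. -/
def EffAll (N : NLevels Γ) (B : Rep.{0} k Γ) (n : ℕ) : Prop :=
  ∀ (V : N.Lvl) (y : HL B V.W n), IsEff N B n V y

/-- `colim_V Hⁿ(Γ ⧸ V, B^V)[p] = 0` (elementwise form). -/
def EffTors (N : NLevels Γ) (B : Rep.{0} k Γ) (p n : ℕ) : Prop :=
  ∀ (V : N.Lvl) (y : HL B V.W n), p • y = 0 → IsEff N B n V y

/-- `colim_V Hⁿ(Γ ⧸ V, B^V) ⊗ ℤ/p = 0`: every class becomes divisible by `p` at a smaller level. -/
def EffDiv (N : NLevels Γ) (B : Rep.{0} k Γ) (p n : ℕ) : Prop :=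
  ∀ (V : N.Lvl) (x : HL B V.W n),
    ∃ (V' : N.Lvl) (h : V'.W ≤ V.W) (w : HL B V'.W n), (infl B h n).hom x = p • w

/-- `cd_p ≤ 2` in finite-level form: for every finite smooth `p`-torsion module `R`,
`colim_V H³(Γ ⧸ V, R^V) = 0`. -/
def CdLeTwo (N : NLevels Γ) (k : Type) [CommRing k] (p : ℕ) : Prop :=
  ∀ R : Rep.{0} k Γ, Finite R.V → (∀ r : R.V, p • r = 0) → IsSmooth N R → EffAll N R 3


/-! ## Level-constant cochains (elementwise vocabulary for the adapters to layer D) -/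

/-- `f : Γ → X` is level-constant: it factors through `Γ ⧸ W` for some level `W`. -/
def IsLC₁ (N : NLevels Γ) {X : Type*} (f : Γ → X) : Prop :=
  ∃ W ∈ N.carrier, ∀ g s : Γ, s ∈ W → f (g * s) = f g

/-- `f : Γ × Γ → X` is level-constant. -/
def IsLC₂ (N : NLevels Γ) {X : Type*} (f : Γ × Γ → X) : Prop :=
  ∃ W ∈ N.carrier, ∀ g g' s s' : Γ, s ∈ W → s' ∈ W → f (g * s, g' * s') = f (g, g')

/-- The level `W` acts trivially on `B`. -/
def ActsTrivially (W : Subgroup Γ) (B : Rep.{0} k Γ) : Prop := ∀ w ∈ W, ∀ b : B.V, B.ρ w b = b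

/-! ## The level system of a Galois extension -/

section Galois

variable (K Ω : Type) [Field K] [Field Ω] [Algebra K Ω] [IsGalois K Ω]

/-- The levels of `Gal(Ω/K)`: the subgroups `Gal(Ω/E)`, `E/K` finite Galois. -/
def galLevels : NLevels (Ω ≃ₐ[K] Ω) where
  carrier := {W | ∃ E : FiniteGaloisIntermediateField K Ω, W = E.toIntermediateField.fixingSubgroup}
  normal := by
    rintro W ⟨E, rfl⟩
    rw [← IntermediateField.restrictNormalHom_ker]
    infer_instance
  finiteIndex := by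
    rintro W ⟨E, rfl⟩
    refine ⟨?_⟩
    rw [← IntermediateField.finrank_eq_fixingSubgroup_index]
    exact Module.finrank_pos.ne'
  nonempty := ⟨_, ⊥, rfl⟩
  directed := by
    rintro W ⟨E, rfl⟩ W' ⟨E', rfl⟩
    refine ⟨_, ⟨E ⊔ E', rfl⟩, ?_⟩
    show (E.toIntermediateField ⊔ E'.toIntermediateField).fixingSubgroup ≤ _
    rw [IntermediateField.fixingSubgroup_sup]

/-- The level `Gal(Ω/E)` attached to a finite Galois subextension `E`. -/
def galLvl (E : FiniteGaloisIntermediateField K Ω) : (galLevels K Ω).Lvl :=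
  ⟨E.toIntermediateField.fixingSubgroup, E, rfl⟩

end Galois

end Fermat.Agent.S55.KL
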