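import Fermat.Agent.S55.KL.Spec

/-!
# S55, layer KB: leaf KB-DEV (glue)                                   (helper297)

`devissage_of : DevSylowSpec → DevPGroupSpec → DevissageSpec`.

Ingredients proved here:
* `exists_level_actsTrivially` : a finite smooth module is fixed pointwise by some level;
* `smul_eq_self_of_isPGroup`   : a `p`-group acting additively on a group of order `p` acts
  trivially;
* `rho_eq_self_of_isPGroup_quotient` : if `U/V` is a `p`-group and `V` acts trivially on a module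
  `μ` of order `p`, then `U` acts trivially on `μ`.
-/

set_option autoImplicit false

open CategoryTheory groupCohomology

namespace Fermat.Agent.S55.KL.H297

open Fermat.Agent.S55.KL

variable {k : Type} [CommRing k] {Γ : Type} [Group Γ]

/-- A finite smooth module is fixed pointwise by some level. -/
lemma exists_level_actsTrivially {N : NLevels Γ} {R : Rep.{0} k Γ} (hfin : Finite R.V)
    (hsm : IsSmooth N R) : ∃ V : N.Lvl, ActsTrivially V.W R := by
  classical
  have key : ∀ s : Finset R.V, ∃ V : N.Lvl, ∀ b ∈ s, ∀ w ∈ V.W, R.ρ w b = b := by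
    intro s
    induction s using Finset.induction_on with
    | empty => exact ⟨Classical.arbitrary _, by simp⟩
    | insert a s ha ih =>
      obtain ⟨V, hV⟩ := ih
      obtain ⟨W, hW, hfix⟩ := hsm a
      obtain ⟨X, hX1, hX2⟩ := N.exists_le V ⟨W, hW⟩
      refine ⟨X, fun b hb w hw => ?_⟩
      rcases Finset.mem_insert.1 hb with rfl | hb
      · exact hfix w (hX2 hw)
      · exact hV b hb w (hX1 hw)
  let _ := Fintype.ofFinite R.V
  obtain ⟨V, hV⟩ := key Finset.univ
  exact ⟨V, fun w hw b => hV b (Finset.mem_univ b) w hw⟩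

/-- A `p`-group acting on an additive group of order `p` by additive maps acts trivially. -/
lemma smul_eq_self_of_isPGroup {G' M : Type} [Group G'] [AddCommGroup M] [DistribMulAction G' M]
    {p : ℕ} (hp : p.Prime) (hG : IsPGroup p G') (hM : Nat.card M = p) (g : G') (m : M) :
    g • m = m := by
  have : Fact p.Prime := ⟨hp⟩
  have : Finite M := Nat.finite_of_card_ne_zero (by rw [hM]; exact hp.ne_zero)
  have h1 : Nat.card M ≡ Nat.card (MulAction.fixedPoints G' M) [MOD p] :=
    hG.card_modEq_card_fixedPoints M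
  have h0 : (0 : M) ∈ MulAction.fixedPoints G' M := fun g => smul_zero g
  have hdvd : p ∣ Nat.card (MulAction.fixedPoints G' M) := by
    rw [hM] at h1
    exact (Nat.modEq_zero_iff_dvd).1 (h1.symm.trans (Nat.modEq_zero_iff_dvd.2 dvd_rfl))
  have hpos : 0 < Nat.card (MulAction.fixedPoints G' M) := Finite.card_pos_iff.2 ⟨⟨0, h0⟩⟩
  have hle : p ≤ Nat.card (MulAction.fixedPoints G' M) := Nat.le_of_dvd hpos hdvd
  have huniv : MulAction.fixedPoints G' M = Set.univ := by
    apply Set.eq_of_subset_of_ncard_le (Set.subset_univ _) _ Set.finite_univ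
    rw [Set.ncard_univ, hM, ← Nat.card_coe_set_eq]
    exact hle
  have hm : m ∈ MulAction.fixedPoints G' M := by rw [huniv]; exact Set.mem_univ m
  exact hm g

/-- If `U/V` is a `p`-group, `V ≤ U` acts trivially on the module `μ` of order `p`, then `U` acts
trivially on `μ`. -/
lemma rho_eq_self_of_isPGroup_quotient {μ : Rep.{0} k Γ} {p : ℕ} (hp : p.Prime)
    (hμ : Nat.card μ.V = p) (U V : Subgroup Γ) [V.Normal]
    (hV : ∀ w ∈ V, ∀ m : μ.V, μ.ρ w m = m) (hU : IsPGroup p (↥U ⧸ V.subgroupOf U))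
    (g : Γ) (hg : g ∈ U) (m : μ.V) : μ.ρ g m = m := by
  -- the unit of `End μ` given by `g`
  set u : (μ.V →ₗ[k] μ.V)ˣ := Representation.asGroupHom μ.ρ g with hu
  -- `u` has `p`-power order
  obtain ⟨n, hn⟩ := hU ((⟨g, hg⟩ : ↥U) : ↥U ⧸ V.subgroupOf U)
  have hmem : (⟨g, hg⟩ : ↥U) ^ p ^ n ∈ V.subgroupOf U := by
    rw [← QuotientGroup.eq_one_iff, QuotientGroup.mk_pow]
    exact hn
  have hmem' : g ^ p ^ n ∈ V := by
    have := Subgroup.mem_subgroupOf.1 hmem
    simpa using this
  have hupow : u ^ p ^ n = 1 := by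
    rw [hu, ← map_pow]
    apply Units.ext
    apply LinearMap.ext
    intro x
    show μ.ρ (g ^ p ^ n) x = x
    exact hV _ hmem' x
  -- the cyclic group generated by `u` is a `p`-group acting on `μ.V`
  have hP : IsPGroup p (Subgroup.zpowers u) := by
    rintro ⟨x, hx⟩
    obtain ⟨j, rfl⟩ := Subgroup.mem_zpowers_iff.1 hx
    refine ⟨n, ?_⟩
    apply Subtype.ext
    show (u ^ j) ^ p ^ n = 1
    rw [← zpow_natCast, ← zpow_mul, mul_comm, zpow_mul, zpow_natCast, hupow, one_zpow]
  have := smul_eq_self_of_isPGroup hp hP hμ ⟨u, Subgroup.mem_zpowers u⟩ m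
  exact this

/-- **KB-DEV.**  Dévissage: Sylow reduction + filtration induction. -/
theorem devissage_of (hB : DevSylowSpec) (hC : DevPGroupSpec) : DevissageSpec := by
  intro k Γ _ _ hk N μ p hp hμ hμsm hμeff R hRfin hRp hRsm
  have : Finite μ.V := Nat.finite_of_card_ne_zero (by rw [hμ]; exact hp.ne_zero)
  obtain ⟨V₀, hV₀⟩ := exists_level_actsTrivially (N := N) (R := μ) inferInstance hμsm
  refine hB k Γ N p hp R hRfin hRp hRsm V₀ ?_
  intro U V hVU hVV₀ hVR hUV
  refine hC k ↥U hk (N.restrict U) (Rep.res U.subtype μ) p hp hμ ?_ ?_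
    (Rep.res U.subtype R) hRfin hRp ⟨V.restrict U, ?_, hUV⟩
  · rintro ⟨g, hg⟩ m
    exact rho_eq_self_of_isPGroup_quotient hp hμ U V.W (fun w hw m => hV₀ w (hVV₀ hw) m) hUV
      g hg m
  · exact hμeff U ⟨V.W, V.mem, hVU⟩
  · intro w hw b
    exact hVR w.1 (Subgroup.mem_subgroupOf.1 hw) b

end Fermat.Agent.S55.KL.H297
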