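import Fermat.Agent.S55.KL.Spec
import Fermat.Agent.S55.H295.Basic

/-!
# S55, layer KB, leaf KB-DEV-C (`DevPGroupSpec`): filtration induction         (helper203)

If `Γ` acts on the finite `p`-torsion module `R` through a finite `p`-group `Γ ⧸ V` and `μ` is a
module of order `p` with trivial action and `colim H³(Γ, μ) = 0`, then `colim H³(Γ, R) = 0`.

Route (no connecting homomorphism needed): a `p`-group acting on `R ≠ 0` has a fixed vector
`r ≠ 0`; the line `L = k r` is a subrepresentation with trivial action, isomorphic to `μ`;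
induct on `|R|` with the exact sequence `H³(L) → H³(R) → H³(R/L)` at the levels below `V`.
-/

set_option autoImplicit false
set_option linter.style.haveILetI false
set_option linter.unusedVariables false
set_option linter.unusedSectionVars false

open CategoryTheory groupCohomology

namespace Fermat.Agent.S55.KL.H203

open Fermat.Agent.S55.KL

noncomputable section

variable {k : Type} [CommRing k] {Γ : Type} [Group Γ]

/-! ## Functoriality of `push` and `infl` -/

/-- `push` is the functorial map of `Hⁿ(Γ ⧸ W, -)` applied to the map on invariants. -/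
theorem push_eq_map {B B' : Rep.{0} k Γ} (φ : B ⟶ B') (W : Subgroup Γ) [W.Normal] (n : ℕ) :
    push φ W n =
      (groupCohomology.functor k (Γ ⧸ W) n).map
        ((Rep.quotientToInvariantsFunctor k W).map φ) := by
  refine groupCohomology.map_congr ?_ ?_ n
  · ext g
    rfl
  · rfl

/-- Inflation is transitive. -/
theorem infl_comp (B : Rep.{0} k Γ) {W'' W' W : Subgroup Γ} [W''.Normal] [W'.Normal] [W.Normal]
    (h₁ : W' ≤ W) (h₂ : W'' ≤ W') (n : ℕ) :
    infl B h₁ n ≫ infl B h₂ n = infl B (h₂.trans h₁) n := by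
  rw [infl, infl, infl, HLmap, HLmap, HLmap, ← groupCohomology.map_comp]
  refine groupCohomology.map_congr ?_ ?_ n
  · ext g
    rfl
  · rfl

theorem infl_comp_apply (B : Rep.{0} k Γ) {W'' W' W : Subgroup Γ} [W''.Normal] [W'.Normal]
    [W.Normal] (h₁ : W' ≤ W) (h₂ : W'' ≤ W') (n : ℕ) (y : HL B W n) :
    (infl B h₂ n).hom ((infl B h₁ n).hom y) = (infl B (h₂.trans h₁) n).hom y := by
  rw [← infl_comp B h₁ h₂ n]
  rfl

/-- Inflation commutes with push-forward. -/
theorem push_infl {B B' : Rep.{0} k Γ} (φ : B ⟶ B') {W' W : Subgroup Γ} [W'.Normal] [W.Normal]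
    (h : W' ≤ W) (n : ℕ) :
    push φ W n ≫ infl B' h n = infl B h n ≫ push φ W' n := by
  rw [push, push, infl, infl, HLmap, HLmap, HLmap, HLmap, ← groupCohomology.map_comp,
    ← groupCohomology.map_comp]
  refine groupCohomology.map_congr ?_ ?_ n
  · ext g
    rfl
  · rfl

theorem push_infl_apply {B B' : Rep.{0} k Γ} (φ : B ⟶ B') {W' W : Subgroup Γ} [W'.Normal]
    [W.Normal] (h : W' ≤ W) (n : ℕ) (y : HL B W n) :
    (infl B' h n).hom ((push φ W n).hom y) = (push φ W' n).hom ((infl B h n).hom y) := by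
  have := congrArg (fun f => f.hom y) (push_infl φ h n)
  exact this

theorem push_comp {B B' B'' : Rep.{0} k Γ} (φ : B ⟶ B') (ψ : B' ⟶ B'') (W : Subgroup Γ)
    [W.Normal] (n : ℕ) : push (φ ≫ ψ) W n = push φ W n ≫ push ψ W n := by
  rw [push_eq_map, push_eq_map, push_eq_map, CategoryTheory.Functor.map_comp,
    CategoryTheory.Functor.map_comp]
  rfl

theorem push_id (B : Rep.{0} k Γ) (W : Subgroup Γ) [W.Normal] (n : ℕ) :
    push (𝟙 B) W n = 𝟙 _ := by
  rw [push_eq_map, CategoryTheory.Functor.map_id, CategoryTheory.Functor.map_id]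
  rfl

theorem push_comp_apply {B B' B'' : Rep.{0} k Γ} (φ : B ⟶ B') (ψ : B' ⟶ B'') (W : Subgroup Γ)
    [W.Normal] (n : ℕ) (y : HL B W n) :
    (push (φ ≫ ψ) W n).hom y = (push ψ W n).hom ((push φ W n).hom y) := by
  rw [push_comp]
  rfl

theorem push_id_apply (B : Rep.{0} k Γ) (W : Subgroup Γ) [W.Normal] (n : ℕ) (y : HL B W n) :
    (push (𝟙 B) W n).hom y = y := by
  rw [push_id]
  rfl

/-- The cohomology of the zero module vanishes. -/
theorem HL_eq_zero_of_subsingleton (B : Rep.{0} k Γ) [Subsingleton B.V] (W : Subgroup Γ)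
    [W.Normal] (n : ℕ) (y : HL B W n) : y = 0 := by
  have h0 : (𝟙 (B.quotientToInvariants W) : B.quotientToInvariants W ⟶ _) = 0 := by
    apply Rep.hom_ext
    apply Representation.IntertwiningMap.ext
    apply LinearMap.ext
    intro x
    apply Subtype.ext
    exact Subsingleton.elim _ _
  have h1 : (groupCohomology.functor k (Γ ⧸ W) n).map (𝟙 (B.quotientToInvariants W)) = 0 := by
    rw [h0, CategoryTheory.Functor.map_zero]
  rw [CategoryTheory.Functor.map_id] at h1
  have h2 := congrArg (fun f => f.hom y) h1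
  exact h2

/-! ## Transport of effaceability along an isomorphism -/

theorem effAll_of_iso (N : NLevels Γ) {B B' : Rep.{0} k Γ} (φ : B ⟶ B') (ψ : B' ⟶ B)
    (hψφ : ψ ≫ φ = 𝟙 B') (n : ℕ) (h : EffAll N B n) : EffAll N B' n := by
  intro V y
  obtain ⟨V', hV', hy⟩ := h V ((push ψ V.W n).hom y)
  refine ⟨V', hV', ?_⟩
  have h1 : y = (push φ V.W n).hom ((push ψ V.W n).hom y) := by
    rw [← push_comp_apply, hψφ, push_id_apply]
  rw [h1, push_infl_apply, hy, map_zero]

/-! ## Short exact sequences at a level acting trivially -/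

instance qti_preservesZeroMorphisms203 (W : Subgroup Γ) [W.Normal] :
    (Rep.quotientToInvariantsFunctor.{0} k W).PreservesZeroMorphisms where
  map_zero X Y := by
    apply Rep.hom_ext
    apply Representation.IntertwiningMap.ext
    apply LinearMap.ext
    intro x
    apply Subtype.ext
    rfl

/-- If `W` acts trivially on the middle term, invariants preserve short exactness. -/
theorem shortExact_qti_of_actsTrivially {X : ShortComplex (Rep.{0} k Γ)} (hX : X.ShortExact)
    (W : Subgroup Γ) [W.Normal] (hW : ActsTrivially W X.X₂) :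
    (X.map (Rep.quotientToInvariantsFunctor k W)).ShortExact := by
  have hinj := Fermat.Agent.S55.H295.rep_shortExact_inj hX
  have hsurj := Fermat.Agent.S55.H295.rep_shortExact_surj hX
  have hex := Fermat.Agent.S55.H295.rep_shortExact_exact hX
  apply Fermat.Agent.S55.H295.rep_shortExact_of
  · intro x y hxy
    apply Subtype.ext
    apply hinj
    exact congrArg Subtype.val hxy
  · intro y hy
    have hy' : X.g.hom y.1 = 0 := congrArg Subtype.val hy
    obtain ⟨x, hx⟩ := hex y.1 hy'
    refine ⟨⟨x, fun s => ?_⟩, Subtype.ext hx⟩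
    apply hinj
    change X.f.hom (X.X₁.ρ (s : Γ) x) = X.f.hom x
    rw [Rep.hom_comm_apply]
    exact hW s s.2 _
  · intro z
    obtain ⟨y, hy⟩ := hsurj z.1
    exact ⟨⟨y, fun s => hW s s.2 y⟩, Subtype.ext hy⟩

/-- Exactness of `Hⁿ(X₁) → Hⁿ(X₂) → Hⁿ(X₃)` at a level acting trivially. -/
theorem exists_push_eq_of_push_eq_zero {X : ShortComplex (Rep.{0} k Γ)} (hX : X.ShortExact)
    (W : Subgroup Γ) [W.Normal] (hW : ActsTrivially W X.X₂) (n : ℕ) (y : HL X.X₂ W n)
    (hy : (push X.g W n).hom y = 0) : ∃ z : HL X.X₁ W n, (push X.f W n).hom z = y := by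
  have hX' := shortExact_qti_of_actsTrivially hX W hW
  have hex := groupCohomology.mapShortComplex₂_exact hX' n
  rw [ShortComplex.moduleCat_exact_iff] at hex
  rw [push_eq_map] at hy
  obtain ⟨z, hz⟩ := hex y hy
  refine ⟨z, ?_⟩
  rw [push_eq_map]
  exact hz

/-! ## The short exact sequence of an invariant submodule -/

section Sub

variable (R : Rep.{0} k Γ) (L : Submodule k R.V) (hL : ∀ g, L ≤ L.comap (R.ρ g))

/-- The subrepresentation on an invariant submodule. -/
def subRep : Rep.{0} k Γ := Rep.of (R.ρ.subrepresentation L hL)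

/-- The quotient representation by an invariant submodule. -/
def quotRep : Rep.{0} k Γ := Rep.of (R.ρ.quotient L hL)

/-- The inclusion of the subrepresentation. -/
def subIncl : subRep R L hL ⟶ R := Rep.ofHom ⟨L.subtype, fun _ => rfl⟩

/-- The projection to the quotient representation. -/
def quotProj : R ⟶ quotRep R L hL := Rep.ofHom ⟨L.mkQ, fun _ => rfl⟩

theorem subIncl_apply (x : L) : (subIncl R L hL).hom x = (x : R.V) := rfl

theorem quotProj_apply (x : R.V) : (quotProj R L hL).hom x = L.mkQ x := rfl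

/-- The short complex `L → R → R/L`. -/
def subSC : ShortComplex (Rep.{0} k Γ) :=
  ShortComplex.mk (subIncl R L hL) (quotProj R L hL) (by
    apply Rep.hom_ext
    apply Representation.IntertwiningMap.ext
    apply LinearMap.ext
    intro x
    exact (Submodule.Quotient.mk_eq_zero L).mpr x.2)

theorem subSC_shortExact : (subSC R L hL).ShortExact := by
  apply Fermat.Agent.S55.H295.rep_shortExact_of
  · intro x y hxy
    exact Subtype.ext hxy
  · intro x hx
    have hx' : x ∈ L := (Submodule.Quotient.mk_eq_zero L).mp hx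
    exact ⟨⟨x, hx'⟩, rfl⟩
  · intro z
    obtain ⟨x, rfl⟩ := Submodule.Quotient.mk_surjective L z
    exact ⟨x, rfl⟩

/-- Exactness of `Hⁿ(L) → Hⁿ(R) → Hⁿ(R/L)` at a level acting trivially on `R`. -/
theorem exists_push_subIncl_eq (W : Subgroup Γ) [W.Normal] (hW : ActsTrivially W R) (n : ℕ)
    (y : HL R W n) (hy : (push (quotProj R L hL) W n).hom y = 0) :
    ∃ z : HL (subRep R L hL) W n, (push (subIncl R L hL) W n).hom z = y :=
  exists_push_eq_of_push_eq_zero (subSC_shortExact R L hL) W hW n y hy

end Sub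

/-! ## Modules of order `p` over a quotient of `ℤ` -/

section Line

theorem smul_eq_zero_iff_of_addOrderOf (hk : Function.Surjective (Int.cast : ℤ → k))
    {M M' : Type} [AddCommGroup M] [Module k M] [AddCommGroup M'] [Module k M'] {p : ℕ}
    (x : M) (y : M') (hx : addOrderOf x = p) (hy : addOrderOf y = p) (c : k) :
    c • x = 0 ↔ c • y = 0 := by
  obtain ⟨n, rfl⟩ := hk c
  rw [Int.cast_smul_eq_zsmul, Int.cast_smul_eq_zsmul, ← addOrderOf_dvd_iff_zsmul_eq_zero,
    ← addOrderOf_dvd_iff_zsmul_eq_zero, hx, hy]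

/-- The line through `y`. -/
def lineSub {M' : Type} [AddCommGroup M'] [Module k M'] (y : M') : Submodule k M' :=
  LinearMap.range (LinearMap.toSpanSingleton k M' y)

theorem mem_lineSub_self {M' : Type} [AddCommGroup M'] [Module k M'] (y : M') :
    y ∈ lineSub (k := k) y := ⟨1, by simp⟩

theorem mem_lineSub_iff {M' : Type} [AddCommGroup M'] [Module k M'] (y z : M') :
    z ∈ lineSub (k := k) y ↔ ∃ c : k, c • y = z := by
  constructor
  · rintro ⟨c, hc⟩
    exact ⟨c, by simpa using hc⟩
  · rintro ⟨c, hc⟩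
    exact ⟨c, by simpa using hc⟩

/-- A module of prime order `p` is isomorphic to the line through any element of order `p`. -/
def lineEquiv (hk : Function.Surjective (Int.cast : ℤ → k))
    {M M' : Type} [AddCommGroup M] [Module k M] [AddCommGroup M'] [Module k M'] {p : ℕ}
    (x : M) (y : M') (hx : addOrderOf x = p) (hy : addOrderOf y = p)
    (hsurj : Function.Surjective (LinearMap.toSpanSingleton k M x)) :
    M ≃ₗ[k] lineSub (k := k) y :=
  ((LinearMap.toSpanSingleton k M x).quotKerEquivOfSurjective hsurj).symm ≪≫ₗ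
    (Submodule.quotEquivOfEq _ _ (by
      ext c
      simp only [LinearMap.mem_ker, LinearMap.toSpanSingleton_apply]
      exact smul_eq_zero_iff_of_addOrderOf hk x y hx hy c)) ≪≫ₗ
    (LinearMap.toSpanSingleton k M' y).quotKerEquivRange

theorem addOrderOf_eq_of_card {M : Type} [AddCommGroup M] {p : ℕ} (hp : p.Prime)
    (hcard : Nat.card M = p) (x : M) (hx : x ≠ 0) : addOrderOf x = p := by
  haveI : Fact p.Prime := ⟨hp⟩
  apply addOrderOf_eq_prime
  · rw [← hcard]
    exact card_nsmul_eq_zero'
  · exact hx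

theorem toSpanSingleton_surjective_of_card (hk : Function.Surjective (Int.cast : ℤ → k))
    {M : Type} [AddCommGroup M] [Module k M] {p : ℕ} (hp : p.Prime)
    (hcard : Nat.card M = p) (x : M) (hx : x ≠ 0) :
    Function.Surjective (LinearMap.toSpanSingleton k M x) := by
  haveI : Finite M := Nat.finite_of_card_ne_zero (by rw [hcard]; exact hp.ne_zero)
  have hord := addOrderOf_eq_of_card hp hcard x hx
  have htop : AddSubgroup.zmultiples x = ⊤ := by
    rw [← AddSubgroup.card_eq_iff_eq_top, Nat.card_zmultiples, hord, hcard]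
  intro m
  have hm : m ∈ AddSubgroup.zmultiples x := by rw [htop]; trivial
  obtain ⟨n, hn⟩ := AddSubgroup.mem_zmultiples_iff.mp hm
  refine ⟨(n : k), ?_⟩
  rw [LinearMap.toSpanSingleton_apply, Int.cast_smul_eq_zsmul]
  exact hn

end Line

/-! ## Fixed vectors of a `p`-group -/

theorem exists_fixed_ne_zero (R : Rep.{0} k Γ) [Finite R.V] (p : ℕ) (hp : p.Prime)
    (hR : ∀ r : R.V, p • r = 0) (hnt : Nontrivial R.V) (W : Subgroup Γ) [W.Normal]
    (hW : ActsTrivially W R) (hP : IsPGroup p (Γ ⧸ W)) :
    ∃ r : R.V, r ≠ 0 ∧ ∀ g : Γ, R.ρ g r = r := by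
  haveI : Fact p.Prime := ⟨hp⟩
  let ρ' : (Γ ⧸ W) →* (R.V →ₗ[k] R.V) := QuotientGroup.lift W R.ρ (fun w hw => by
    rw [MonoidHom.mem_ker]
    ext b
    exact hW w hw b)
  letI : MulAction (Γ ⧸ W) R.V := MulAction.compHom R.V ρ'
  have hsmul : ∀ (g : Γ) (b : R.V), ((g : Γ ⧸ W)) • b = R.ρ g b := fun g b => rfl
  have hdvd : p ∣ Nat.card R.V := by
    obtain ⟨x, hx⟩ := exists_ne (0 : R.V)
    have hord : addOrderOf x = p := addOrderOf_eq_prime (hR x) hx
    rw [← hord]
    exact addOrderOf_dvd_natCard x
  have h0 : (0 : R.V) ∈ MulAction.fixedPoints (Γ ⧸ W) R.V := by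
    intro g
    induction g using QuotientGroup.induction_on with
    | H g => rw [hsmul, map_zero]
  obtain ⟨b, hb, hne⟩ := hP.exists_fixed_point_of_prime_dvd_card_of_fixed_point R.V hdvd h0
  exact ⟨b, fun h => hne h.symm, fun g => by rw [← hsmul]; exact hb (g : Γ ⧸ W)⟩

/-! ## The induction -/

theorem devPGroup_aux (hk : Function.Surjective (Int.cast : ℤ → k)) (N : NLevels Γ)
    (μ : Rep.{0} k Γ) (p : ℕ) (hp : p.Prime) (hμcard : Nat.card μ.V = p)
    (hμtriv : ∀ (g : Γ) (m : μ.V), μ.ρ g m = m) (hμ : EffAll N μ 3) :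
    ∀ (n : ℕ) (R : Rep.{0} k Γ), Nat.card R.V = n → Finite R.V → (∀ r : R.V, p • r = 0) →
      (∃ V : N.Lvl, ActsTrivially V.W R ∧ IsPGroup p (Γ ⧸ V.W)) → EffAll N R 3 := by
  intro n
  induction n using Nat.strong_induction_on with
  | _ n ih =>
    intro R hn hfin hR hV
    obtain ⟨V, hV, hP⟩ := hV
    by_cases hsub : Subsingleton R.V
    · intro V' y
      exact ⟨V', le_rfl, by rw [HL_eq_zero_of_subsingleton R V'.W 3 y, map_zero]⟩
    · rw [not_subsingleton_iff_nontrivial] at hsub
      haveI : Fact p.Prime := ⟨hp⟩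
      obtain ⟨r, hr0, hr⟩ := exists_fixed_ne_zero R p hp hR hsub V.W hV hP
      -- the line through `r`
      have hLfix : ∀ (g : Γ) (x : R.V), x ∈ lineSub (k := k) r → R.ρ g x = x := by
        intro g x hx
        obtain ⟨c, rfl⟩ := (mem_lineSub_iff r x).mp hx
        rw [map_smul, hr]
      have hL : ∀ g, lineSub (k := k) r ≤ (lineSub (k := k) r).comap (R.ρ g) := fun g x hx => by
        rw [Submodule.mem_comap, hLfix g x hx]
        exact hx
      haveI hfinQ : Finite (R.V ⧸ lineSub (k := k) r) :=
        Finite.of_surjective _ (Submodule.Quotient.mk_surjective (lineSub (k := k) r))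
      -- effaceability for the line
      have hEL : EffAll N (subRep R (lineSub (k := k) r) hL) 3 := by
        haveI : Finite μ.V := Nat.finite_of_card_ne_zero (by rw [hμcard]; exact hp.ne_zero)
        haveI : Nontrivial μ.V :=
          Finite.one_lt_card_iff_nontrivial.mp (by rw [hμcard]; exact hp.one_lt)
        obtain ⟨m₀, hm₀⟩ : ∃ m₀ : μ.V, m₀ ≠ 0 := exists_ne 0
        have hx := addOrderOf_eq_of_card hp hμcard m₀ hm₀
        have hy : addOrderOf r = p := addOrderOf_eq_prime (hR r) hr0
        let e := lineEquiv hk m₀ r hx hy (toSpanSingleton_surjective_of_card hk hp hμcard m₀ hm₀)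
        let φ : μ ⟶ subRep R (lineSub (k := k) r) hL := Rep.ofHom ⟨e.toLinearMap, fun g => by
          apply LinearMap.ext
          intro m
          apply Subtype.ext
          change ((e (μ.ρ g m) : lineSub (k := k) r) : R.V) = R.ρ g (e m : R.V)
          rw [hμtriv g m, hLfix g _ (e m).2]⟩
        let ψ : subRep R (lineSub (k := k) r) hL ⟶ μ := Rep.ofHom ⟨e.symm.toLinearMap, fun g => by
          apply LinearMap.ext
          intro x
          change e.symm (⟨R.ρ g x.1, _⟩ : lineSub (k := k) r) = μ.ρ g (e.symm x)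
          rw [hμtriv g]
          congr 1
          exact Subtype.ext (hLfix g _ x.2)⟩
        refine effAll_of_iso N φ ψ ?_ 3 hμ
        apply Rep.hom_ext
        apply Representation.IntertwiningMap.ext
        apply LinearMap.ext
        intro x
        exact e.apply_symm_apply x
      -- effaceability for the quotient, by induction
      have hEQ : EffAll N (quotRep R (lineSub (k := k) r) hL) 3 := by
        refine ih (Nat.card (R.V ⧸ lineSub (k := k) r)) ?_ (quotRep R (lineSub (k := k) r) hL)
          rfl ?_ ?_ ⟨V, ?_, hP⟩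
        · -- the cardinality decreases
          have h1 := Submodule.card_eq_card_quotient_mul_card (lineSub (k := k) r)
          have h2 : 1 < Nat.card (lineSub (k := k) r) := by
            rw [Finite.one_lt_card_iff_nontrivial]
            exact ⟨⟨⟨r, mem_lineSub_self r⟩, 0, fun h => hr0 (congrArg Subtype.val h)⟩⟩
          have h3 : 0 < Nat.card (R.V ⧸ lineSub (k := k) r) := Nat.card_pos
          rw [← hn, h1]
          nlinarith
        · exact hfinQ
        · intro x
          obtain ⟨x, rfl⟩ := Submodule.Quotient.mk_surjective _ x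
          change p • Submodule.Quotient.mk x = 0
          rw [← Submodule.Quotient.mk_smul, hR, Submodule.Quotient.mk_zero]
        · intro w hw x
          obtain ⟨x, rfl⟩ := Submodule.Quotient.mk_surjective _ x
          change Submodule.Quotient.mk (R.ρ w x) = Submodule.Quotient.mk x
          rw [hV w hw x]
      -- the chase
      intro V' y
      obtain ⟨V₁, hV₁', hV₁⟩ := N.exists_le V' V
      have hV₁t : ActsTrivially V₁.W R := fun w hw b => hV w (hV₁ hw) b
      obtain ⟨V₂, hV₂, h2⟩ :=
        hEQ V₁ ((push (quotProj R (lineSub (k := k) r) hL) V₁.W 3).hom ((infl R hV₁' 3).hom y))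
      have hV₂t : ActsTrivially V₂.W R := fun w hw b => hV₁t w (hV₂ hw) b
      rw [push_infl_apply, infl_comp_apply] at h2
      obtain ⟨z, hz⟩ := exists_push_subIncl_eq R (lineSub (k := k) r) hL V₂.W hV₂t 3 _ h2
      obtain ⟨V₃, hV₃, h3⟩ := hEL V₂ z
      refine ⟨V₃, (hV₃.trans hV₂).trans hV₁', ?_⟩
      rw [← infl_comp_apply R (hV₂.trans hV₁') hV₃, ← hz, push_infl_apply, h3, map_zero]

/-- **KB-DEV-C** (filtration induction). -/
theorem devPGroup : DevPGroupSpec := by
  intro k Γ _ _ hk N μ p hp hμcard hμtriv hμ R hfin hR hV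
  exact devPGroup_aux hk N μ p hp hμcard hμtriv hμ (Nat.card R.V) R rfl hfin hR hV

end

end Fermat.Agent.S55.KL.H203
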