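import Fermat.Agent.S55.KL.Spec

/-!
# S55, layer KB: leaves KB-DICT2a / KB-DICT2b                          (helper587)

* `dictCocycle₂ : DictCocycle₂Spec` — a level-constant 2-cocycle with values in a smooth module
  is inflated from a finite level (below any given level).
* `dictInfl₂ : DictInfl₂Spec` — inflation on classes is inflation on cocycles.

Also the elementwise lemmas used (`exists_lvl_fixing_finset`, `finite_range_of_isLC₁/₂`,
`rightInv₂_out`).  Degree-1 analogues and converses: `DictExtraH587.lean`.  Mathlib only.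
-/

set_option autoImplicit false
set_option linter.style.haveILetI false

open CategoryTheory groupCohomology

namespace Fermat.Agent.S55.KL.H587

variable {k Γ : Type} [CommRing k] [Group Γ]

/-- Finitely many elements of a smooth module are fixed by a common level, which may be chosen
below any given level. -/
lemma exists_lvl_fixing_finset (N : NLevels Γ) (R : Rep.{0} k Γ) (hR : IsSmooth N R)
    (s : Finset R.V) (V₀ : N.Lvl) :
    ∃ V : N.Lvl, V.W ≤ V₀.W ∧ ∀ b ∈ s, ∀ w ∈ V.W, R.ρ w b = b := by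
  classical
  induction s using Finset.induction_on with
  | empty => exact ⟨V₀, le_rfl, by simp⟩
  | insert a s ha ih =>
    obtain ⟨V, hV, hfix⟩ := ih
    obtain ⟨W, hW, hWa⟩ := hR a
    obtain ⟨X, hX1, hX2⟩ := N.exists_le V ⟨W, hW⟩
    refine ⟨X, hX1.trans hV, ?_⟩
    intro b hb w hw
    rcases Finset.mem_insert.1 hb with rfl | hb
    · exact hWa w (hX2 hw)
    · exact hfix b hb w (hX1 hw)

/-- Same for a finite set. -/
lemma exists_lvl_fixing_finite (N : NLevels Γ) (R : Rep.{0} k Γ) (hR : IsSmooth N R)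
    (s : Set R.V) (hs : s.Finite) (V₀ : N.Lvl) :
    ∃ V : N.Lvl, V.W ≤ V₀.W ∧ ∀ b ∈ s, ∀ w ∈ V.W, R.ρ w b = b := by
  obtain ⟨V, hV, h⟩ := exists_lvl_fixing_finset N R hR hs.toFinset V₀
  exact ⟨V, hV, fun b hb => h b (hs.mem_toFinset.2 hb)⟩

/-- A function on `Γ × Γ` which is right-invariant under a subgroup `W` of finite index has
finitely many values. -/
lemma finite_range_of_rightInv₂ {X : Type*} (W : Subgroup Γ) [W.FiniteIndex] (f : Γ × Γ → X)
    (hf : ∀ g g' s s' : Γ, s ∈ W → s' ∈ W → f (g * s, g' * s') = f (g, g')) :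
    (Set.range f).Finite := by
  haveI : Finite (Γ ⧸ W) := Subgroup.finite_quotient_of_finiteIndex
  let F : (Γ ⧸ W) × (Γ ⧸ W) → X := fun x => f (x.1.out, x.2.out)
  refine (Set.finite_range F).subset ?_
  rintro _ ⟨⟨g, g'⟩, rfl⟩
  refine ⟨((g : Γ ⧸ W), (g' : Γ ⧸ W)), ?_⟩
  obtain ⟨s, hs⟩ := QuotientGroup.mk_out_eq_mul W g
  obtain ⟨s', hs'⟩ := QuotientGroup.mk_out_eq_mul W g'
  show f ((g : Γ ⧸ W).out, (g' : Γ ⧸ W).out) = f (g, g')
  rw [hs, hs']
  exact hf g g' s s' s.2 s'.2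

/-- A function on `Γ` which is right-invariant under a subgroup `W` of finite index has
finitely many values. -/
lemma finite_range_of_rightInv₁ {X : Type*} (W : Subgroup Γ) [W.FiniteIndex] (f : Γ → X)
    (hf : ∀ g s : Γ, s ∈ W → f (g * s) = f g) :
    (Set.range f).Finite := by
  haveI : Finite (Γ ⧸ W) := Subgroup.finite_quotient_of_finiteIndex
  let F : (Γ ⧸ W) → X := fun x => f x.out
  refine (Set.finite_range F).subset ?_
  rintro _ ⟨g, rfl⟩
  refine ⟨(g : Γ ⧸ W), ?_⟩
  obtain ⟨s, hs⟩ := QuotientGroup.mk_out_eq_mul W g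
  show f (g : Γ ⧸ W).out = f g
  rw [hs]
  exact hf g s s.2

/-- A level-constant function on `Γ × Γ` has finitely many values. -/
lemma finite_range_of_isLC₂ (N : NLevels Γ) {X : Type*} (f : Γ × Γ → X) (hf : IsLC₂ N f) :
    (Set.range f).Finite := by
  obtain ⟨W, hW, h⟩ := hf
  haveI := N.finiteIndex W hW
  exact finite_range_of_rightInv₂ W f h

/-- A level-constant function on `Γ` has finitely many values. -/
lemma finite_range_of_isLC₁ (N : NLevels Γ) {X : Type*} (f : Γ → X) (hf : IsLC₁ N f) :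
    (Set.range f).Finite := by
  obtain ⟨W, hW, h⟩ := hf
  haveI := N.finiteIndex W hW
  exact finite_range_of_rightInv₁ W f h

/-- Level-constancy passes to smaller levels. -/
lemma rightInv₂_of_le {X : Type*} {W W' : Subgroup Γ} (h : W' ≤ W) (f : Γ × Γ → X)
    (hf : ∀ g g' s s' : Γ, s ∈ W → s' ∈ W → f (g * s, g' * s') = f (g, g')) :
    ∀ g g' s s' : Γ, s ∈ W' → s' ∈ W' → f (g * s, g' * s') = f (g, g') :=
  fun g g' s s' hs hs' => hf g g' s s' (h hs) (h hs')

/-- The value of a right-`W`-invariant function at representatives. -/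
lemma rightInv₂_out {X : Type*} (W : Subgroup Γ) (f : Γ × Γ → X)
    (hf : ∀ g g' s s' : Γ, s ∈ W → s' ∈ W → f (g * s, g' * s') = f (g, g')) (g g' : Γ) :
    f ((g : Γ ⧸ W).out, (g' : Γ ⧸ W).out) = f (g, g') := by
  obtain ⟨s, hs⟩ := QuotientGroup.mk_out_eq_mul W g
  obtain ⟨s', hs'⟩ := QuotientGroup.mk_out_eq_mul W g'
  rw [hs, hs']
  exact hf g g' s s' s.2 s'.2

/-- The value of a right-`W`-invariant function at representatives. -/
lemma rightInv₁_out {X : Type*} (W : Subgroup Γ) (f : Γ → X)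
    (hf : ∀ g s : Γ, s ∈ W → f (g * s) = f g) (g : Γ) :
    f (g : Γ ⧸ W).out = f g := by
  obtain ⟨s, hs⟩ := QuotientGroup.mk_out_eq_mul W g
  rw [hs]
  exact hf g s s.2

/-- The action of `Γ ⧸ W` on `R^W`, on representatives. -/
lemma quotientToInvariants_ρ_mk_coe (R : Rep.{0} k Γ) (W : Subgroup Γ) [W.Normal] (g : Γ)
    (x : (R.quotientToInvariants W).V) :
    (((R.quotientToInvariants W).ρ (g : Γ ⧸ W) x : _) : R.V) = R.ρ g (x : R.V) := rfl

/-- **KB-DICT2a.** -/
theorem dictCocycle₂ : DictCocycle₂Spec := by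
  intro k Γ _ _ N R hR c hc hLC V₀
  obtain ⟨W, hW, hcW⟩ := hLC
  obtain ⟨V₁, hV₁0, hV₁W⟩ := N.exists_le V₀ ⟨W, hW⟩
  obtain ⟨V, hVV₁, hfix⟩ := exists_lvl_fixing_finite N R hR (Set.range c)
    (finite_range_of_isLC₂ N c ⟨W, hW, hcW⟩) V₁
  have hVW : V.W ≤ W := hVV₁.trans hV₁W
  have hcV := rightInv₂_of_le hVW c hcW
  have hmem : ∀ g h : Γ, c (g, h) ∈ Representation.invariants (R.ρ.comp V.W.subtype) :=
    fun g h w => hfix _ ⟨(g, h), rfl⟩ w.1 w.2
  let c' : (Γ ⧸ V.W) × (Γ ⧸ V.W) → (R.quotientToInvariants V.W).V :=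
    fun x => ⟨c (x.1.out, x.2.out), hmem _ _⟩
  have hc' : ∀ g h : Γ, ((c' ((g : Γ ⧸ V.W), (h : Γ ⧸ V.W)) : _) : R.V) = c (g, h) :=
    fun g h => rightInv₂_out V.W c hcV g h
  have hcoc : c' ∈ cocycles₂ (R.quotientToInvariants V.W) := by
    rw [mem_cocycles₂_iff]
    intro x y z
    induction x using QuotientGroup.induction_on with
    | H g =>
    induction y using QuotientGroup.induction_on with
    | H h =>
    induction z using QuotientGroup.induction_on with
    | H j =>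
    apply Subtype.ext
    have h0 := (mem_cocycles₂_iff c).1 hc g h j
    have e1 : ((c' (((g : Γ ⧸ V.W) * (h : Γ ⧸ V.W)), (j : Γ ⧸ V.W)) : _) : R.V) = c (g * h, j) :=
      hc' (g * h) j
    have e2 : ((c' ((g : Γ ⧸ V.W), ((h : Γ ⧸ V.W) * (j : Γ ⧸ V.W))) : _) : R.V) = c (g, h * j) :=
      hc' g (h * j)
    have e3 := hc' g h
    have e4 := hc' h j
    show ((c' (((g : Γ ⧸ V.W) * (h : Γ ⧸ V.W)), (j : Γ ⧸ V.W)) : _) : R.V) +
        ((c' ((g : Γ ⧸ V.W), (h : Γ ⧸ V.W)) : _) : R.V) =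
      R.ρ g ((c' ((h : Γ ⧸ V.W), (j : Γ ⧸ V.W)) : _) : R.V) +
        ((c' ((g : Γ ⧸ V.W), ((h : Γ ⧸ V.W) * (j : Γ ⧸ V.W))) : _) : R.V)
    rw [e1, e2, e3, e4]
    exact h0
  exact ⟨V, hVV₁.trans hV₁0, ⟨c', hcoc⟩, hc'⟩

/-- **KB-DICT2b.** -/
theorem dictInfl₂ : DictInfl₂Spec := by
  intro k Γ _ _ N R V' V h c c' hcc'
  have key : (mapCocycles₂ (QuotientGroup.map V'.W V.W (MonoidHom.id Γ) (by simpa using h))
      (invMap (MonoidHom.id Γ) (W := V.W) (W' := V'.W) (by simpa using h) (𝟙 R))).hom c = c' := by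
    apply cocycles₂_ext
    intro x y
    induction x using QuotientGroup.induction_on with
    | H g =>
    induction y using QuotientGroup.induction_on with
    | H g' =>
    apply Subtype.ext
    refine Eq.trans ?_ (hcc' g g').symm
    rfl
  have := H2π_comp_map_apply (QuotientGroup.map V'.W V.W (MonoidHom.id Γ) (by simpa using h))
      (invMap (MonoidHom.id Γ) (W := V.W) (W' := V'.W) (by simpa using h) (𝟙 R)) c
  rw [key] at this
  exact this

end Fermat.Agent.S55.KL.H587
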