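import Fermat.Agent.S55.KL.Spec2
import Fermat.Agent.S55.KL.DictH587

/-!
# S55, layer KB: leaves KB-A5a / KB-A5b  (subtask 413)                       (helper181)

* `dimH2Le : DimH2LeSpec` — `dim H²_LC(Γ, A[p]) ≤ 1` if `A` is smooth, `p`-divisible,
  `colim H¹(Γ/V, A^V) = 0` and every `H²(Γ/V, A^V)` is cyclic;
* `dimH2Ge : DimH2GeSpec` — `H²_LC(Γ, A[p]) ≠ 0` if some `p`-torsion class of `H²(Γ/V, A^V)` is
  not effaceable.

Both proofs are the Kummer chase for `0 → A[p] → A → A → 0`, done by hand on cochains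
(no long exact sequence is used).  Mathlib + `KL/DictH587` only.
-/

set_option autoImplicit false
set_option linter.style.haveILetI false

open CategoryTheory groupCohomology

namespace Fermat.Agent.S55.KL.H181

variable {k Γ : Type} [CommRing k] [Group Γ]

/-! ## Cyclic groups -/

/-- Two elements of a cyclic group are dependent with coprime coefficients. -/
lemma exists_coprime_combination {C : Type*} [AddCommGroup C] [IsAddCyclic C] (x₁ x₂ : C) :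
    ∃ a₁ a₂ : ℤ, IsCoprime a₁ a₂ ∧ a₁ • x₁ + a₂ • x₂ = 0 := by
  obtain ⟨γ, hγ⟩ := IsAddCyclic.exists_generator (α := C)
  obtain ⟨n₁, rfl⟩ := AddSubgroup.mem_zmultiples_iff.1 (hγ x₁)
  obtain ⟨n₂, rfl⟩ := AddSubgroup.mem_zmultiples_iff.1 (hγ x₂)
  by_cases h0 : n₁ = 0 ∧ n₂ = 0
  · refine ⟨1, 0, isCoprime_one_left, ?_⟩
    rw [h0.1, h0.2]
    simp
  · have hd : 0 < Int.gcd n₁ n₂ := by
      rw [Int.gcd_pos_iff]
      by_contra h
      rw [not_or, not_not, not_not] at h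
      exact h0 h
    refine ⟨n₂ / (Int.gcd n₁ n₂ : ℤ), -(n₁ / (Int.gcd n₁ n₂ : ℤ)), ?_, ?_⟩
    · have h1 : Int.gcd (n₁ / (Int.gcd n₁ n₂ : ℤ)) (n₂ / (Int.gcd n₁ n₂ : ℤ)) = 1 :=
        Int.gcd_div_gcd_div_gcd hd
      have h2 : IsCoprime (n₁ / (Int.gcd n₁ n₂ : ℤ)) (n₂ / (Int.gcd n₁ n₂ : ℤ)) :=
        Int.isCoprime_iff_gcd_eq_one.2 h1
      exact h2.symm.neg_right
    · obtain ⟨m₁, hm₁⟩ := Int.gcd_dvd_left (a := n₁) (b := n₂)
      obtain ⟨m₂, hm₂⟩ := Int.gcd_dvd_right (a := n₁) (b := n₂)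
      have hd0 : (Int.gcd n₁ n₂ : ℤ) ≠ 0 := by exact_mod_cast hd.ne'
      have e1 : n₁ / (Int.gcd n₁ n₂ : ℤ) = m₁ := Int.ediv_eq_of_eq_mul_right hd0 hm₁
      have e2 : n₂ / (Int.gcd n₁ n₂ : ℤ) = m₂ := Int.ediv_eq_of_eq_mul_right hd0 hm₂
      rw [e1, e2, smul_smul, smul_smul, ← add_smul]
      have : m₂ * n₁ + -m₁ * n₂ = 0 := by
        linear_combination m₂ * hm₁ - m₁ * hm₂
      rw [this, zero_smul]

/-- Coprime integers are not both divisible by a prime. -/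
lemma not_dvd_or_of_isCoprime {p : ℕ} (hp : p.Prime) {a₁ a₂ : ℤ} (h : IsCoprime a₁ a₂) :
    ¬ (p : ℤ) ∣ a₁ ∨ ¬ (p : ℤ) ∣ a₂ := by
  by_contra hc
  rw [not_or, not_not, not_not] at hc
  obtain ⟨u, v, huv⟩ := h
  have h1 : (p : ℤ) ∣ u * a₁ + v * a₂ :=
    dvd_add (Dvd.dvd.mul_left hc.1 u) (Dvd.dvd.mul_left hc.2 v)
  rw [huv] at h1
  have h2 := Int.natCast_dvd_natCast.1 (by simpa using h1 : ((p : ℕ) : ℤ) ∣ ((1 : ℕ) : ℤ))
  exact hp.one_lt.ne' (Nat.dvd_one.1 h2)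

/-! ## Elementwise dictionary between cochains on `Γ` and finite-level cohomology -/

section Dict

variable (N : NLevels Γ) (A : Rep.{0} k Γ)

/-- A cocycle on `Γ` which is constant modulo the level `V` and has values in `A^V` is a cocycle
of `Γ ⧸ V` with values in `A^V`. -/
lemma exists_cocycle₂_at_level (V : N.Lvl) (c : Γ × Γ → A.V) (hc : c ∈ cocycles₂ A)
    (hcV : ∀ g g' s s' : Γ, s ∈ V.W → s' ∈ V.W → c (g * s, g' * s') = c (g, g'))
    (hfix : ∀ g h : Γ, ∀ w ∈ V.W, A.ρ w (c (g, h)) = c (g, h)) :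
    ∃ c' : cocycles₂ (A.quotientToInvariants V.W),
      ∀ g h : Γ, ((c'.1 ((g : Γ ⧸ V.W), (h : Γ ⧸ V.W)) : _) : A.V) = c (g, h) := by
  have hmem : ∀ g h : Γ, c (g, h) ∈ Representation.invariants (A.ρ.comp V.W.subtype) :=
    fun g h w => hfix g h w.1 w.2
  let c' : (Γ ⧸ V.W) × (Γ ⧸ V.W) → (A.quotientToInvariants V.W).V :=
    fun x => ⟨c (x.1.out, x.2.out), hmem _ _⟩
  have hc' : ∀ g h : Γ, ((c' ((g : Γ ⧸ V.W), (h : Γ ⧸ V.W)) : _) : A.V) = c (g, h) :=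
    fun g h => H587.rightInv₂_out V.W c hcV g h
  have hcoc : c' ∈ cocycles₂ (A.quotientToInvariants V.W) := by
    rw [mem_cocycles₂_iff]
    intro x y z
    induction x using QuotientGroup.induction_on with
    | H g =>
    induction y using QuotientGroup.induction_on with
    | H h =>
    induction z using QuotientGroup.induction_on with
    | H j =>
    apply Subtype.ext
    have h0 := (mem_cocycles₂_iff c).1 hc g h j
    have e1 : ((c' (((g : Γ ⧸ V.W) * (h : Γ ⧸ V.W)), (j : Γ ⧸ V.W)) : _) : A.V) = c (g * h, j) :=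
      hc' (g * h) j
    have e2 : ((c' ((g : Γ ⧸ V.W), ((h : Γ ⧸ V.W) * (j : Γ ⧸ V.W))) : _) : A.V) = c (g, h * j) :=
      hc' g (h * j)
    have e3 := hc' g h
    have e4 := hc' h j
    show ((c' (((g : Γ ⧸ V.W) * (h : Γ ⧸ V.W)), (j : Γ ⧸ V.W)) : _) : A.V) +
        ((c' ((g : Γ ⧸ V.W), (h : Γ ⧸ V.W)) : _) : A.V) =
      A.ρ g ((c' ((h : Γ ⧸ V.W), (j : Γ ⧸ V.W)) : _) : A.V) +
        ((c' ((g : Γ ⧸ V.W), ((h : Γ ⧸ V.W) * (j : Γ ⧸ V.W))) : _) : A.V)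
    rw [e1, e2, e3, e4]
    exact h0
  exact ⟨⟨c', hcoc⟩, hc'⟩

/-- A finite-level `2`-cocycle whose class vanishes is, elementwise, a coboundary. -/
lemma exists_cochain_of_H2π_eq_zero (V : N.Lvl) (c' : cocycles₂ (A.quotientToInvariants V.W))
    (h0 : (H2π (A.quotientToInvariants V.W)).hom c' = 0) :
    ∃ β : Γ ⧸ V.W → (A.quotientToInvariants V.W).V, ∀ g h : Γ,
      ((c'.1 ((g : Γ ⧸ V.W), (h : Γ ⧸ V.W)) : _) : A.V) =
        A.ρ g ((β (h : Γ ⧸ V.W) : _) : A.V) - ((β ((g * h : Γ) : Γ ⧸ V.W) : _) : A.V) +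
          ((β (g : Γ ⧸ V.W) : _) : A.V) := by
  obtain ⟨β, hβ⟩ := (H2π_eq_zero_iff c').1 h0
  refine ⟨β, fun g h => ?_⟩
  have h1 := congrFun hβ ((g : Γ ⧸ V.W), (h : Γ ⧸ V.W))
  rw [d₁₂_hom_apply] at h1
  have h2 := congrArg Subtype.val h1
  exact h2.symm

/-- Elementwise criterion for the vanishing of an inflated class. -/
lemma infl_H2π_eq_zero (V V' : N.Lvl) (h : V'.W ≤ V.W)
    (ξ : cocycles₂ (A.quotientToInvariants V.W))
    (η : Γ ⧸ V'.W → (A.quotientToInvariants V'.W).V)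
    (hη : ∀ g g' : Γ, ((ξ.1 ((g : Γ ⧸ V.W), (g' : Γ ⧸ V.W)) : _) : A.V) =
      A.ρ g ((η (g' : Γ ⧸ V'.W) : _) : A.V) - ((η ((g * g' : Γ) : Γ ⧸ V'.W) : _) : A.V) +
        ((η (g : Γ ⧸ V'.W) : _) : A.V)) :
    (infl A h 2).hom ((H2π (A.quotientToInvariants V.W)).hom ξ) = 0 := by
  have h1 := H2π_comp_map_apply (QuotientGroup.map V'.W V.W (MonoidHom.id Γ) (by simpa using h))
      (invMap (MonoidHom.id Γ) (W := V.W) (W' := V'.W) (by simpa using h) (𝟙 A)) ξ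
  refine h1.trans ?_
  rw [H2π_eq_zero_iff]
  refine ⟨η, ?_⟩
  funext ⟨x, y⟩
  induction x using QuotientGroup.induction_on with
  | H g =>
  induction y using QuotientGroup.induction_on with
  | H g' =>
  apply Subtype.ext
  rw [d₁₂_hom_apply]
  refine Eq.trans ?_ (hη g g').symm
  rfl

/-- Elementwise form of effaceability in degree `1`. -/
lemma exists_of_effAll₁ (heff : EffAll N A 1) (V : N.Lvl)
    (f : cocycles₁ (A.quotientToInvariants V.W)) :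
    ∃ (V' : N.Lvl) (_ : V'.W ≤ V.W) (α : A.V), (∀ w ∈ V'.W, A.ρ w α = α) ∧
      ∀ g : Γ, ((f.1 (g : Γ ⧸ V.W) : _) : A.V) = A.ρ g α - α := by
  obtain ⟨V', h, hinf⟩ := heff V ((H1π (A.quotientToInvariants V.W)).hom f)
  have h1 := H1π_comp_map_apply (QuotientGroup.map V'.W V.W (MonoidHom.id Γ) (by simpa using h))
      (invMap (MonoidHom.id Γ) (W := V.W) (W' := V'.W) (by simpa using h) (𝟙 A)) f
  have h2 : (H1π (A.quotientToInvariants V'.W)).hom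
      ((mapCocycles₁ (QuotientGroup.map V'.W V.W (MonoidHom.id Γ) (by simpa using h))
        (invMap (MonoidHom.id Γ) (W := V.W) (W' := V'.W) (by simpa using h) (𝟙 A))).hom f) = 0 :=
    h1.symm.trans hinf
  obtain ⟨α, hα⟩ := (H1π_eq_zero_iff _).1 h2
  refine ⟨V', h, (α : A.V), fun w hw => α.2 ⟨w, hw⟩, fun g => ?_⟩
  have h3 := congrFun hα (g : Γ ⧸ V'.W)
  rw [d₀₁_hom_apply] at h3
  have h4 := congrArg Subtype.val h3
  refine Eq.trans ?_ h4.symm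
  rfl

end Dict

/-! ## The torsion submodule -/

section Tors

variable (A : Rep.{0} k Γ) (p : ℕ)

/-- The underlying element of `A` of an element of `A[p]`. -/
def tval (b : (tors A p).V) : A.V := (torsSub A p).subtype b

lemma tval_injective : Function.Injective (tval A p) := Subtype.val_injective

lemma nsmul_tval (b : (tors A p).V) : p • tval A p b = 0 := b.2

lemma tval_add (b b' : (tors A p).V) : tval A p (b + b') = tval A p b + tval A p b' := rfl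

lemma tval_sub (b b' : (tors A p).V) : tval A p (b - b') = tval A p b - tval A p b' := rfl

lemma tval_zsmul (n : ℤ) (b : (tors A p).V) : tval A p (n • b) = n • tval A p b :=
  map_zsmul (torsSub A p).subtype n b

lemma tval_ρ (g : Γ) (b : (tors A p).V) : tval A p ((tors A p).ρ g b) = A.ρ g (tval A p b) := rfl

/-- An element of `A` killed by `p`, as an element of `A[p]`. -/
def tmk (a : A.V) (ha : p • a = 0) : (tors A p).V := ⟨a, ha⟩

lemma tval_tmk (a : A.V) (ha : p • a = 0) : tval A p (tmk A p a ha) = a := rfl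

lemma tval_comp_mem_cocycles₂ {c : Γ × Γ → (tors A p).V} (hc : c ∈ cocycles₂ (tors A p)) :
    (fun x => tval A p (c x)) ∈ cocycles₂ A := by
  rw [mem_cocycles₂_iff]
  intro g h j
  have h0 := congrArg (tval A p) ((mem_cocycles₂_iff c).1 hc g h j)
  rw [tval_add, tval_add, tval_ρ] at h0
  exact h0

lemma mem_cocycles₂_of_tval_comp {c : Γ × Γ → (tors A p).V}
    (hc : (fun x => tval A p (c x)) ∈ cocycles₂ A) : c ∈ cocycles₂ (tors A p) := by
  rw [mem_cocycles₂_iff]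
  intro g h j
  apply tval_injective A p
  rw [tval_add, tval_add, tval_ρ]
  exact (mem_cocycles₂_iff _).1 hc g h j

lemma tval_d₁₂ (b : Γ → (tors A p).V) (g h : Γ) :
    tval A p ((d₁₂ (tors A p)).hom b (g, h)) =
      A.ρ g (tval A p (b h)) - tval A p (b (g * h)) + tval A p (b g) := by
  rw [d₁₂_hom_apply, tval_add, tval_sub, tval_ρ]

end Tors

/-! ## KB-A5a -/

/-- **KB-A5a.** -/
theorem dimH2Le : DimH2LeSpec := by
  intro k Γ _ _ N A p hp hsm hdiv _ heff hcyc c₁ hc₁ c₂ hc₂ hLC₁ hLC₂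
  -- the cocycles, with values in `A`
  set C₁ : Γ × Γ → A.V := fun x => tval A p (c₁ x) with hC₁def
  set C₂ : Γ × Γ → A.V := fun x => tval A p (c₂ x) with hC₂def
  have hC₁ : C₁ ∈ cocycles₂ A := tval_comp_mem_cocycles₂ A p hc₁
  have hC₂ : C₂ ∈ cocycles₂ A := tval_comp_mem_cocycles₂ A p hc₂
  -- a common level
  obtain ⟨W₁, hW₁, h₁⟩ := hLC₁
  obtain ⟨W₂, hW₂, h₂⟩ := hLC₂
  obtain ⟨X, hX₁, hX₂⟩ := N.exists_le ⟨W₁, hW₁⟩ ⟨W₂, hW₂⟩
  have hfin : (Set.range C₁ ∪ Set.range C₂).Finite :=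
    (H587.finite_range_of_isLC₂ N C₁ ⟨W₁, hW₁, fun g g' s s' hs hs' => by
        simp only [hC₁def, h₁ g g' s s' hs hs']⟩).union
      (H587.finite_range_of_isLC₂ N C₂ ⟨W₂, hW₂, fun g g' s s' hs hs' => by
        simp only [hC₂def, h₂ g g' s s' hs hs']⟩)
  obtain ⟨V, hVX, hfix⟩ := H587.exists_lvl_fixing_finite N A hsm _ hfin X
  obtain ⟨c₁', hc₁'⟩ := exists_cocycle₂_at_level N A V C₁ hC₁
    (fun g g' s s' hs hs' => by
      simp only [hC₁def, h₁ g g' s s' (hX₁ (hVX hs)) (hX₁ (hVX hs'))])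
    (fun g h w hw => hfix _ (Or.inl ⟨(g, h), rfl⟩) w hw)
  obtain ⟨c₂', hc₂'⟩ := exists_cocycle₂_at_level N A V C₂ hC₂
    (fun g g' s s' hs hs' => by
      simp only [hC₂def, h₂ g g' s s' (hX₂ (hVX hs)) (hX₂ (hVX hs'))])
    (fun g h w hw => hfix _ (Or.inr ⟨(g, h), rfl⟩) w hw)
  -- dependence in the cyclic group `H²(Γ/V, A^V)`
  haveI := hcyc V
  obtain ⟨a₁, a₂, hcop, hsum⟩ := exists_coprime_combination
    ((H2π (A.quotientToInvariants V.W)).hom c₁') ((H2π (A.quotientToInvariants V.W)).hom c₂')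
  refine ⟨a₁, a₂, not_dvd_or_of_isCoprime hp hcop, ?_⟩
  have hsum' : (H2π (A.quotientToInvariants V.W)).hom (a₁ • c₁' + a₂ • c₂') = 0 := by
    rw [map_add, map_zsmul, map_zsmul]
    exact hsum
  obtain ⟨β, hβ⟩ := exists_cochain_of_H2π_eq_zero N A V _ hsum'
  have hβ' : ∀ g h : Γ, a₁ • C₁ (g, h) + a₂ • C₂ (g, h) =
      A.ρ g ((β (h : Γ ⧸ V.W) : _) : A.V) - ((β ((g * h : Γ) : Γ ⧸ V.W) : _) : A.V) +
        ((β (g : Γ ⧸ V.W) : _) : A.V) := by
    intro g h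
    rw [← hβ g h, ← hc₁' g h, ← hc₂' g h]
    rfl
  have hp0 : ∀ g h : Γ, p • (a₁ • C₁ (g, h) + a₂ • C₂ (g, h)) = 0 := by
    intro g h
    rw [smul_add, smul_comm p a₁, smul_comm p a₂]
    simp only [hC₁def, hC₂def, nsmul_tval, smul_zero, add_zero]
  -- `p • β` is a `1`-cocycle
  have hf : (fun x => p • β x) ∈ cocycles₁ (A.quotientToInvariants V.W) := by
    rw [mem_cocycles₁_iff]
    intro x y
    induction x using QuotientGroup.induction_on with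
    | H g =>
    induction y using QuotientGroup.induction_on with
    | H h =>
    apply Subtype.ext
    show p • ((β ((g * h : Γ) : Γ ⧸ V.W) : _) : A.V) =
      A.ρ g (p • ((β (h : Γ ⧸ V.W) : _) : A.V)) + p • ((β (g : Γ ⧸ V.W) : _) : A.V)
    have h0 := hp0 g h
    rw [hβ' g h, smul_add, smul_sub, ← map_nsmul, sub_add_eq_add_sub, sub_eq_zero] at h0
    exact h0.symm
  obtain ⟨V', hV', α, hα, hfα⟩ := exists_of_effAll₁ N A heff V ⟨_, hf⟩
  have hfα' : ∀ g : Γ, p • ((β (g : Γ ⧸ V.W) : _) : A.V) = A.ρ g α - α := fun g => hfα g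
  obtain ⟨α', hα'⟩ := hdiv α
  obtain ⟨W', hW', hW'α⟩ := hsm α'
  obtain ⟨Y, hYV, hYW'⟩ := N.exists_le V ⟨W', hW'⟩
  -- the corrected cochain
  have hb₀ : ∀ g : Γ, p • (((β (g : Γ ⧸ V.W) : _) : A.V) - (A.ρ g α' - α')) = 0 := by
    intro g
    rw [smul_sub, smul_sub, ← map_nsmul, hα', hfα' g, sub_self]
  refine ⟨fun g => tmk A p _ (hb₀ g), ⟨Y.W, Y.mem, fun g s hs => ?_⟩, ?_⟩
  · apply tval_injective A p
    rw [tval_tmk, tval_tmk]
    have e1 : ((g * s : Γ) : Γ ⧸ V.W) = (g : Γ ⧸ V.W) := by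
      rw [QuotientGroup.eq]
      simpa using (hYV hs)
    have e2 : A.ρ (g * s) α' = A.ρ g α' := by
      rw [map_mul, Module.End.mul_apply, hW'α s (hYW' hs)]
    rw [e1, e2]
  · funext ⟨g, h⟩
    apply tval_injective A p
    rw [tval_d₁₂]
    simp only [tval_tmk]
    have e0 : tval A p ((a₁ • c₁ + a₂ • c₂) (g, h)) = a₁ • C₁ (g, h) + a₂ • C₂ (g, h) := by
      simp only [Pi.add_apply, Pi.smul_apply, tval_add, tval_zsmul, hC₁def, hC₂def]
    rw [e0, hβ' g h, map_mul, Module.End.mul_apply, map_sub, map_sub]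
    abel

/-! ## KB-A5b -/

/-- A finite-level cocycle, as a cocycle on `Γ`. -/
lemma pullback_mem_cocycles₂ (A : Rep.{0} k Γ) (W : Subgroup Γ) [W.Normal]
    (ξ : cocycles₂ (A.quotientToInvariants W)) :
    (fun x : Γ × Γ => ((ξ.1 ((x.1 : Γ ⧸ W), (x.2 : Γ ⧸ W)) : _) : A.V)) ∈ cocycles₂ A := by
  rw [mem_cocycles₂_iff]
  intro g h j
  have h0 := (mem_cocycles₂_iff ξ.1).1 ξ.2 (g : Γ ⧸ W) (h : Γ ⧸ W) (j : Γ ⧸ W)
  exact congrArg Subtype.val h0

/-- **KB-A5b.** -/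
theorem dimH2Ge : DimH2GeSpec := by
  intro k Γ _ _ N A p _ hsm hdiv _ hex
  obtain ⟨V, x, hpx, hneff⟩ := hex
  obtain ⟨ξ, rfl⟩ : ∃ ξ : cocycles₂ (A.quotientToInvariants V.W),
      (H2π (A.quotientToInvariants V.W)).hom ξ = x :=
    H2_induction_on x (fun ξ => ⟨ξ, rfl⟩)
  have hpξ : (H2π (A.quotientToInvariants V.W)).hom (p • ξ) = 0 := by
    rw [map_nsmul]
    exact hpx
  obtain ⟨β, hβ⟩ := exists_cochain_of_H2π_eq_zero N A V _ hpξ
  -- the cocycle on `Γ`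
  set Ξ : Γ × Γ → A.V :=
    fun x => ((ξ.1 ((x.1 : Γ ⧸ V.W), (x.2 : Γ ⧸ V.W)) : _) : A.V) with hΞdef
  have hΞ : Ξ ∈ cocycles₂ A := pullback_mem_cocycles₂ A V.W ξ
  have hβ' : ∀ g h : Γ, p • Ξ (g, h) =
      A.ρ g ((β (h : Γ ⧸ V.W) : _) : A.V) - ((β ((g * h : Γ) : Γ ⧸ V.W) : _) : A.V) +
        ((β (g : Γ ⧸ V.W) : _) : A.V) := by
    intro g h
    rw [← hβ g h]
    rfl
  -- `p`-th roots
  choose root hroot using hdiv
  set γ : Γ → A.V := fun g => root ((β (g : Γ ⧸ V.W) : _) : A.V) with hγdef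
  have hγ : ∀ g : Γ, p • γ g = ((β (g : Γ ⧸ V.W) : _) : A.V) := fun g => hroot _
  have hmk : ∀ g s : Γ, s ∈ V.W → ((g * s : Γ) : Γ ⧸ V.W) = (g : Γ ⧸ V.W) := by
    intro g s hs
    rw [QuotientGroup.eq]
    simpa using hs
  have hγV : ∀ g s : Γ, s ∈ V.W → γ (g * s) = γ g := by
    intro g s hs
    simp only [hγdef, hmk g s hs]
  have hΞV : ∀ g g' s s' : Γ, s ∈ V.W → s' ∈ V.W → Ξ (g * s, g' * s') = Ξ (g, g') := by
    intro g g' s s' hs hs'
    simp only [hΞdef, hmk g s hs, hmk g' s' hs']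
  set c₀ : Γ × Γ → A.V := Ξ - (d₁₂ A).hom γ with hc₀def
  have hc₀ : c₀ ∈ cocycles₂ A :=
    Submodule.sub_mem _ hΞ (d₁₂_apply_mem_cocycles₂ γ)
  have hc₀_apply : ∀ g h : Γ, c₀ (g, h) = Ξ (g, h) - (A.ρ g (γ h) - γ (g * h) + γ g) := by
    intro g h
    rw [hc₀def, Pi.sub_apply, d₁₂_hom_apply]
  have hpc₀ : ∀ x : Γ × Γ, p • c₀ x = 0 := by
    rintro ⟨g, h⟩
    rw [hc₀_apply, smul_sub, hβ' g h, smul_add, smul_sub, ← map_nsmul, hγ, hγ, hγ, sub_self]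
  refine ⟨fun x => tmk A p (c₀ x) (hpc₀ x), mem_cocycles₂_of_tval_comp A p hc₀, ?_, ?_⟩
  · -- level-constancy
    have hfinγ : (Set.range γ).Finite := H587.finite_range_of_rightInv₁ V.W γ hγV
    obtain ⟨X, hXV, hXfix⟩ := H587.exists_lvl_fixing_finite N A hsm _ hfinγ V
    refine ⟨X.W, X.mem, fun g g' s s' hs hs' => ?_⟩
    apply tval_injective A p
    rw [tval_tmk, tval_tmk, hc₀_apply, hc₀_apply, hΞV g g' s s' (hXV hs) (hXV hs'),
      hγV g s (hXV hs), hγV g' s' (hXV hs')]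
    have e1 : A.ρ (g * s) (γ g') = A.ρ g (γ g') := by
      rw [map_mul, Module.End.mul_apply, hXfix _ ⟨g', rfl⟩ s hs]
    have e2 : γ (g * s * (g' * s')) = γ (g * g') := by
      have h1 : g * s * (g' * s') = g * g' * (g'⁻¹ * s * g' * s') := by group
      rw [h1]
      refine hγV _ _ (mul_mem ?_ (hXV hs'))
      have h2 := (inferInstance : V.W.Normal).conj_mem s (hXV hs) g'⁻¹
      simpa using h2
    rw [e1, e2]
  · -- non-triviality
    rintro ⟨b, ⟨Wb, hWb, hbW⟩, hcb⟩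
    apply hneff
    set η₀ : Γ → A.V := fun g => γ g + tval A p (b g) with hη₀def
    have key : ∀ g h : Γ, Ξ (g, h) = A.ρ g (η₀ h) - η₀ (g * h) + η₀ g := by
      intro g h
      have h1 := congrArg (tval A p) (congrFun hcb (g, h))
      rw [tval_tmk, tval_d₁₂, hc₀_apply] at h1
      simp only [hη₀def, map_add]
      rw [sub_eq_iff_eq_add] at h1
      rw [h1]
      abel
    obtain ⟨Y₀, hY₀V, hY₀b⟩ := N.exists_le V ⟨Wb, hWb⟩
    have hη₀Y₀ : ∀ g s : Γ, s ∈ Y₀.W → η₀ (g * s) = η₀ g := by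
      intro g s hs
      simp only [hη₀def, hγV g s (hY₀V hs), hbW g s (hY₀b hs)]
    haveI : Y₀.W.FiniteIndex := inferInstance
    have hfinη : (Set.range η₀).Finite := H587.finite_range_of_rightInv₁ Y₀.W η₀ hη₀Y₀
    obtain ⟨Y, hYY₀, hYfix⟩ := H587.exists_lvl_fixing_finite N A hsm _ hfinη Y₀
    have hη₀Y : ∀ g s : Γ, s ∈ Y.W → η₀ (g * s) = η₀ g :=
      fun g s hs => hη₀Y₀ g s (hYY₀ hs)
    have hmem : ∀ g : Γ, η₀ g ∈ Representation.invariants (A.ρ.comp Y.W.subtype) :=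
      fun g w => hYfix _ ⟨g, rfl⟩ w.1 w.2
    let η : Γ ⧸ Y.W → (A.quotientToInvariants Y.W).V := fun x => ⟨η₀ x.out, hmem _⟩
    have hη : ∀ g : Γ, ((η (g : Γ ⧸ Y.W) : _) : A.V) = η₀ g :=
      fun g => H587.rightInv₁_out Y.W η₀ hη₀Y g
    refine ⟨Y, hYY₀.trans hY₀V, infl_H2π_eq_zero N A V Y (hYY₀.trans hY₀V) ξ η ?_⟩
    intro g g'
    rw [hη, hη, hη]
    exact key g g'

end Fermat.Agent.S55.KL.H181
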