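import Fermat.Agent.S55.KL.Spec2
import Fermat.Agent.S55.L.SpecClass
import Fermat.Agent.S55.T.Spec

/-!
# S55, layer KL (local Kummer bridge): the local instantiation of the abstract machine

`Γ = Gal(Ω/K)` for a Galois extension `Ω/K` (in the application `K = ℚ_q`, `Ω = PadicAlgCl q`),
levels `galLevels K Ω`, module `A = Ωˣ = Rep.ofAlgebraAutOnUnits K Ω : Rep ℤ Γ`.

Interface statements only (Spec pattern, no `sorry`).  Architect: helper183.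
Blueprint: `coord/S55-KL.md` on `origin/helper183`.
-/

set_option autoImplicit false

open CategoryTheory groupCohomology

namespace Fermat.Agent.S55.KL

/-! ## Vocabulary -/

/-- `Ωˣ` as a `Gal(Ω/K)`-module. -/
noncomputable abbrev unitsOm (K Ω : Type) [Field K] [Field Ω] [Algebra K Ω] :
    Rep.{0} ℤ (Ω ≃ₐ[K] Ω) :=
  Rep.ofAlgebraAutOnUnits K Ω

/-- The compositum `E·E'` as an extension of `E`. -/
abbrev compositumOver {K Ω : Type} [Field K] [Field Ω] [Algebra K Ω]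
    (E E' : IntermediateField K Ω) : IntermediateField ↥E Ω :=
  IntermediateField.extendScalars (le_sup_left : E ≤ E ⊔ E')

/-! ## Formal leaves (any Galois extension `Ω/K`) -/

/-- **KL-SM.**  `Ωˣ` is smooth. -/
def UnitsSmoothSpec : Prop :=
  ∀ (K Ω : Type) [Field K] [Field Ω] [Algebra K Ω] [IsGalois K Ω],
    IsSmooth (galLevels K Ω) (unitsOm K Ω)

/-- **KL-DIV.**  `Ωˣ` is `p`-divisible if `Ω` is algebraically closed. -/
def UnitsDivSpec : Prop :=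
  ∀ (K Ω : Type) [Field K] [Field Ω] [Algebra K Ω] [IsAlgClosed Ω] (p : ℕ), 0 < p →
    IsDivisibleBy (unitsOm K Ω) p

/-- **KL-MU.**  `μ_p(Ω)` has order `p` if `Ω` is algebraically closed of characteristic zero. -/
def UnitsTorsSpec : Prop :=
  ∀ (K Ω : Type) [Field K] [Field Ω] [Algebra K Ω] [IsAlgClosed Ω] [CharZero Ω] (p : ℕ),
    p.Prime → Nat.card (tors (unitsOm K Ω) p).V = p

/-- **KL-OPEN.**  The open subgroups of `Gal(Ω/K)` are the `Gal(Ω/E)`, `E/K` finite. -/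
def OpenSubgroupSpec : Prop :=
  ∀ (K Ω : Type) [Field K] [Field Ω] [Algebra K Ω] [IsGalois K Ω] (U : Subgroup (Ω ≃ₐ[K] Ω)),
    (galLevels K Ω).IsOpen U ↔
      ∃ E : IntermediateField K Ω, FiniteDimensional K E ∧ U = E.fixingSubgroup

/-- **KL-TR** (transport).  For `U = Gal(Ω/E)` and the level `V = Gal(Ω/E')` (`E'/K` finite
Galois): `M = E·E'` is finite Galois over `E`, `U/(V ∩ U) ≅ Gal(M/E)` has order `[M : E]`, and
`Hⁿ(U/(V ∩ U), (Ωˣ)^{V ∩ U}) ≅ Hⁿ(Gal(M/E), Mˣ)` for all `n`. -/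
def TransportSpec : Prop :=
  ∀ (K Ω : Type) [Field K] [Field Ω] [Algebra K Ω] [IsGalois K Ω]
    (E : IntermediateField K Ω) (E' : FiniteGaloisIntermediateField K Ω),
    FiniteDimensional ↥E ↥(compositumOver E E'.toIntermediateField) ∧
    IsGalois ↥E ↥(compositumOver E E'.toIntermediateField) ∧
    Nat.card (↥E.fixingSubgroup ⧸ (galLvl K Ω E').W.subgroupOf E.fixingSubgroup) =
      Module.finrank ↥E ↥(compositumOver E E'.toIntermediateField) ∧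
    ∀ n : ℕ, Nonempty
      (HL (Rep.res E.fixingSubgroup.subtype (unitsOm K Ω))
          ((galLvl K Ω E').W.subgroupOf E.fixingSubgroup) n ≅
        groupCohomology
          (Rep.ofAlgebraAutOnUnits ↥E ↥(compositumOver E E'.toIntermediateField)) n)

/-! ## Arithmetic leaves: `K = ℚ_q`, `Ω = PadicAlgCl q` -/

/-- **KL-H1** (Hilbert 90 at every level of every open subgroup). -/
def LocalH1Spec : Prop :=
  ∀ (q : ℕ) [Fact q.Prime] (U : Subgroup (PadicAlgCl q ≃ₐ[ℚ_[q]] PadicAlgCl q)),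
    (galLevels ℚ_[q] (PadicAlgCl q)).IsOpen U →
    ∀ V : ((galLevels ℚ_[q] (PadicAlgCl q)).restrict U).Lvl,
      Subsingleton (HL (Rep.res U.subtype (unitsOm ℚ_[q] (PadicAlgCl q))) V.W 1)

/-- **KL-H2** (`H²(U/V, (Ωˣ)^V)` is cyclic of order `[U : V]`). -/
def LocalH2Spec : Prop :=
  ∀ (q : ℕ) [Fact q.Prime] (U : Subgroup (PadicAlgCl q ≃ₐ[ℚ_[q]] PadicAlgCl q)),
    (galLevels ℚ_[q] (PadicAlgCl q)).IsOpen U →
    ∀ V : ((galLevels ℚ_[q] (PadicAlgCl q)).restrict U).Lvl,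
      Nonempty (HL (Rep.res U.subtype (unitsOm ℚ_[q] (PadicAlgCl q))) V.W 2 ≃+
        ZMod (Nat.card (↥U ⧸ V.W)))

/-- **KL-H3** (Tate: `H³(U/V, (Ωˣ)^V) = 0`). -/
def LocalH3Spec : Prop :=
  ∀ (q : ℕ) [Fact q.Prime] (U : Subgroup (PadicAlgCl q ≃ₐ[ℚ_[q]] PadicAlgCl q)),
    (galLevels ℚ_[q] (PadicAlgCl q)).IsOpen U →
    ∀ V : ((galLevels ℚ_[q] (PadicAlgCl q)).restrict U).Lvl,
      Subsingleton (HL (Rep.res U.subtype (unitsOm ℚ_[q] (PadicAlgCl q))) V.W 3)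

/-- **KL-DEG** (degrees are unbounded at `p`): below every level there is a level `V'` such that
`p · [U : V]` divides `[U : V']`. -/
def LocalDegreeSpec : Prop :=
  ∀ (q : ℕ) [Fact q.Prime] (p : ℕ), p.Prime →
    ∀ U : Subgroup (PadicAlgCl q ≃ₐ[ℚ_[q]] PadicAlgCl q),
    (galLevels ℚ_[q] (PadicAlgCl q)).IsOpen U →
    ∀ V : ((galLevels ℚ_[q] (PadicAlgCl q)).restrict U).Lvl,
      ∃ V' : ((galLevels ℚ_[q] (PadicAlgCl q)).restrict U).Lvl, V'.W ≤ V.W ∧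
        p * Nat.card (↥U ⧸ V.W) ∣ Nat.card (↥U ⧸ V'.W)

/-- **KL-FIN** (`Eˣ/(Eˣ)^p` is finite for every finite extension `E/ℚ_q`; from L-LPI). -/
def LocalPowFiniteSpec : Prop :=
  ∀ (q : ℕ) [Fact q.Prime] (p : ℕ), p.Prime →
    PowFinite (galLevels ℚ_[q] (PadicAlgCl q)) (unitsOm ℚ_[q] (PadicAlgCl q)) p

/-- **KL-NE** (the Brauer group of an open subgroup has non-effaceable `p`-torsion). -/
def LocalNonEffSpec : Prop :=
  ∀ (q : ℕ) [Fact q.Prime] (p : ℕ), p.Prime →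
    ∀ U : Subgroup (PadicAlgCl q ≃ₐ[ℚ_[q]] PadicAlgCl q),
    (galLevels ℚ_[q] (PadicAlgCl q)).IsOpen U →
    ∃ (V : ((galLevels ℚ_[q] (PadicAlgCl q)).restrict U).Lvl)
      (x : HL (Rep.res U.subtype (unitsOm ℚ_[q] (PadicAlgCl q))) V.W 2),
      p • x = 0 ∧
        ¬ IsEff ((galLevels ℚ_[q] (PadicAlgCl q)).restrict U)
          (Rep.res U.subtype (unitsOm ℚ_[q] (PadicAlgCl q))) 2 V x

/-- **KL-HYP** (goal of the local instantiation): the hypotheses of the abstract machine hold for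
`(Gal(ℚ̄_q/ℚ_q), ℚ̄_qˣ, p)`. -/
def LocalKummerHypSpec : Prop :=
  ∀ (q : ℕ) [Fact q.Prime] (p : ℕ), p.Prime →
    KummerHyp (galLevels ℚ_[q] (PadicAlgCl q)) (unitsOm ℚ_[q] (PadicAlgCl q)) p

/-- **KL-CD** (goal): `cd_p(Gal(ℚ̄_q/ℚ_q)) ≤ 2` in finite-level form, coefficients over `ZMod p`
(and over `ℤ`). -/
def LocalCdSpec : Prop :=
  ∀ (q : ℕ) [Fact q.Prime] (p : ℕ), p.Prime →
    CdLeTwo (galLevels ℚ_[q] (PadicAlgCl q)) ℤ p ∧
      CdLeTwo (galLevels ℚ_[q] (PadicAlgCl q)) (ZMod p) p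

/-- **KL-A4** (goal = input A4 of layer D, elementwise): `H²` is right exact on level-constant
cohomology of `Gal(ℚ̄_q/ℚ_q)` with finite `𝔽_p`-coefficients. -/
def LocalSurjH2Spec : Prop :=
  ∀ (q : ℕ) [Fact q.Prime] (p : ℕ), p.Prime →
    ∀ (P Q : Rep.{0} (ZMod p) (PadicAlgCl q ≃ₐ[ℚ_[q]] PadicAlgCl q)) (φ : P ⟶ Q),
      Function.Surjective φ.hom → Finite P.V → IsSmooth (galLevels ℚ_[q] (PadicAlgCl q)) P →
      ∀ c ∈ cocycles₂ Q, IsLC₂ (galLevels ℚ_[q] (PadicAlgCl q)) c →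
        ∃ c' ∈ cocycles₂ P, IsLC₂ (galLevels ℚ_[q] (PadicAlgCl q)) c' ∧
          ∃ b : (PadicAlgCl q ≃ₐ[ℚ_[q]] PadicAlgCl q) → Q.V,
            IsLC₁ (galLevels ℚ_[q] (PadicAlgCl q)) b ∧
              ∀ g h, φ.hom (c' (g, h)) = c (g, h) + (d₁₂ Q).hom b (g, h)

/-- **KL-A2** (goal = input A2 of layer D, elementwise): the level-constant `H¹` of
`Gal(ℚ̄_q/ℚ_q)` with finite `𝔽_p`-coefficients is finite. -/
def LocalFinH1Spec : Prop :=
  ∀ (q : ℕ) [Fact q.Prime] (p : ℕ), p.Prime →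
    ∀ R : Rep.{0} (ZMod p) (PadicAlgCl q ≃ₐ[ℚ_[q]] PadicAlgCl q), Finite R.V →
      IsSmooth (galLevels ℚ_[q] (PadicAlgCl q)) R → FinLC₁ (galLevels ℚ_[q] (PadicAlgCl q)) R

/-- **KL-A5** (goal = inputs A5/A6 of layer D, elementwise): for every open subgroup `U` of
`Gal(ℚ̄_q/ℚ_q)`, `dim H²_LC(U, μ_p) ≤ 1`; and `H²_LC(U, μ_p) ≠ 0`. -/
def LocalDimH2Spec : Prop :=
  ∀ (q : ℕ) [Fact q.Prime] (p : ℕ), p.Prime →
    ∀ U : Subgroup (PadicAlgCl q ≃ₐ[ℚ_[q]] PadicAlgCl q),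
    (galLevels ℚ_[q] (PadicAlgCl q)).IsOpen U →
      DimLC₂Le ((galLevels ℚ_[q] (PadicAlgCl q)).restrict U)
          (tors (Rep.res U.subtype (unitsOm ℚ_[q] (PadicAlgCl q))) p) p ∧
        DimLC₂Ge ((galLevels ℚ_[q] (PadicAlgCl q)).restrict U)
          (tors (Rep.res U.subtype (unitsOm ℚ_[q] (PadicAlgCl q))) p)

end Fermat.Agent.S55.KL
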