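import Fermat.Agent.S55.KL.LocalNonEffH775
import Fermat.Agent.S55.KL.DimH2H181
import Fermat.Agent.S55.KL.LocalGlueH593

/-!
# S55, layer KL, glue KL-A5 (helper775)

`localDimH2 : LocalDimH2Spec` — for every open subgroup `U` of `Gal(ℚ̄_q/ℚ_q)`:
`dim H²_LC(U, μ_p) ≤ 1` and `H²_LC(U, μ_p) ≠ 0` (elementwise forms `DimLC₂Le`, `DimLC₂Ge`).

Glue of `H181.dimH2Le`, `H181.dimH2Ge` (abstract Kummer chase in degree 2) with the local inputs
`H587.unitsSmooth/unitsDiv/unitsTors`, `H775.localH1` (Hilbert 90), `H775.localH2` (`H²` cyclic)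
and `H775.localNonEff`.
-/

set_option autoImplicit false
set_option linter.style.haveILetI false

open CategoryTheory groupCohomology

namespace Fermat.Agent.S55.KL.H775

open Fermat.Agent.S55 Fermat.Agent.S55.KL

/-- **KL-A5.** -/
theorem localDimH2 : LocalDimH2Spec := by
  intro q _ p hp U hU
  have hsm : IsSmooth ((galLevels ℚ_[q] (PadicAlgCl q)).restrict U)
      (Rep.res U.subtype (unitsOm ℚ_[q] (PadicAlgCl q))) := by
    intro b
    obtain ⟨W, hW, h⟩ := H587.unitsSmooth ℚ_[q] (PadicAlgCl q) b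
    exact ⟨W.subgroupOf U, ⟨W, hW, rfl⟩, fun w hw => h w.1 (Subgroup.mem_subgroupOf.1 hw)⟩
  have hdiv : IsDivisibleBy (Rep.res U.subtype (unitsOm ℚ_[q] (PadicAlgCl q))) p :=
    H587.unitsDiv ℚ_[q] (PadicAlgCl q) p hp.pos
  have hfin : Finite (tors (Rep.res U.subtype (unitsOm ℚ_[q] (PadicAlgCl q))) p).V := by
    have hcard : Nat.card (tors (unitsOm ℚ_[q] (PadicAlgCl q)) p).V = p :=
      H587.unitsTors ℚ_[q] (PadicAlgCl q) p hp
    have hfin0 : Finite (tors (unitsOm ℚ_[q] (PadicAlgCl q)) p).V :=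
      Nat.finite_of_card_ne_zero (by rw [hcard]; exact hp.ne_zero)
    exact hfin0
  refine ⟨?_, ?_⟩
  · refine H181.dimH2Le ℤ ↥U _ _ p hp hsm hdiv hfin ?_ ?_
    · exact H593.effAll_of_subsingleton _ _ 1 (fun V => localH1 q U hU V)
    · intro V
      obtain ⟨e⟩ := localH2 q U hU V
      haveI : IsAddCyclic (ZMod (Nat.card (↥U ⧸ V.W))) := inferInstance
      exact isAddCyclic_of_surjective e.symm.toAddMonoidHom e.symm.surjective
  · exact H181.dimH2Ge ℤ ↥U _ _ p hp hsm hdiv hfin (localNonEff q p hp U hU)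

end Fermat.Agent.S55.KL.H775
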