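import Fermat.Agent.S55.KL.H73.QInfCore
import Fermat.Agent.S55.KL.FormalH587
import Fermat.Agent.S55.KL.LocalH123H775
import Fermat.Agent.S55.KL.TransportH496
import Fermat.Agent.S55.KL.LocalDegreeH215

/-!
# S55, layer KL, leaf KL-NE (helper775)

`localNonEff : LocalNonEffSpec` — for every open subgroup `U` of `Gal(ℚ̄_q/ℚ_q)` there is a level
`V` and a class `x ∈ H²(U/V, (ℚ̄_qˣ)^V)` with `p • x = 0` which is not effaceable.

Proof: choose `V` with `p ∣ [U : V]` (`H215.localDegree`); `H²(U/V, ·) ≅ ℤ/[U : V]`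
(`local_h123_of`), so there is `x ≠ 0` with `p • x = 0`; inflation is injective in degree 2.

Contents (all for an arbitrary Galois extension `Ω/K` unless stated):
* `infl_injective775` : abstract; `H¹(V ⧸ V', A^{V'}) = 0` ⇒ inflation
  `H²(Γ ⧸ V, A^V) → H²(Γ ⧸ V', A^{V'})` is injective (class-level wrapper of `H73.qInf_core`);
* `hilbert90_fixing775` : Hilbert 90 for finite-level cocycles `Gal(Ω/M) → Ωˣ`;
* `h1_units775` : `H¹(V ⧸ V', (Ωˣ)^{V'}) = 0` for levels `V' ≤ V` of an open subgroup `U`;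
* `unitsInfl_injective775` : inflation is injective on `H²(U/V, (Ωˣ)^V)`;
* `localH1`, `localH2`, `localH3` : KL-H123 closed (`H496.transport`, `H587.openSubgroup`);
* `localNonEff : LocalNonEffSpec`.
-/

set_option autoImplicit false
set_option linter.style.haveILetI false

open CategoryTheory groupCohomology

namespace Fermat.Agent.S55.KL.H775

open Fermat.Agent.S55 Fermat.Agent.S55.KL

section Abstract



variable {Γ : Type} [Group Γ]

/-- Injectivity of inflation in degree 2 from `H¹(V ⧸ V', A^{V'}) = 0`. -/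
theorem infl_injective775 (A : Rep.{0} ℤ Γ) (V V' : Subgroup Γ) [V.Normal] [V'.Normal]
    (h : V' ≤ V)
    (h1 : Subsingleton (H1 (Rep.res (V.map (QuotientGroup.mk' V')).subtype
      (A.quotientToInvariants V'))))
    (x : HL A V 2) (hx : (infl A h 2).hom x = 0) : x = 0 := by
  induction x using H2_induction_on with
  | h ξ =>
  -- the inflated class, on cocycles
  have e1 := H2π_comp_map_apply (QuotientGroup.map V' V (MonoidHom.id Γ) (by simpa using h))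
      (invMap (MonoidHom.id Γ) (W := V) (W' := V') (by simpa using h) (𝟙 A)) ξ
  have e2 : (H2π (A.quotientToInvariants V')).hom
      ((mapCocycles₂ (QuotientGroup.map V' V (MonoidHom.id Γ) (by simpa using h))
        (invMap (MonoidHom.id Γ) (W := V) (W' := V') (by simpa using h) (𝟙 A))).hom ξ) = 0 :=
    e1.symm.trans hx
  obtain ⟨β, hβ⟩ := (H2π_eq_zero_iff _).1 e2
  -- cochains on `Γ`
  let f : Γ × Γ → A.V := fun gh => ((ξ.1 ((gh.1 : Γ ⧸ V), (gh.2 : Γ ⧸ V)) : _) : A.V)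
  let x₀ : Γ → A.V := fun g => ((β (g : Γ ⧸ V') : _) : A.V)
  have hmk : ∀ (W : Subgroup Γ) [W.Normal] (g s : Γ), s ∈ W →
      ((g * s : Γ) : Γ ⧸ W) = (g : Γ ⧸ W) := by
    intro W _ g s hs
    rw [QuotientGroup.mk_mul, (QuotientGroup.eq_one_iff s).2 hs, mul_one]
  have hf : ∀ g h' s t : Γ, s ∈ V → t ∈ V →
      f (g * s, h' * t) = f (g, h') ∧ A.ρ s (f (g, h')) = f (g, h') := by
    intro g h' s t hs ht
    refine ⟨?_, ?_⟩
    · show ((ξ.1 (((g * s : Γ) : Γ ⧸ V), ((h' * t : Γ) : Γ ⧸ V)) : _) : A.V) = _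
      rw [hmk V g s hs, hmk V h' t ht]
    · exact (ξ.1 ((g : Γ ⧸ V), (h' : Γ ⧸ V))).2 ⟨s, hs⟩
  have hx₀ : ∀ g s : Γ, s ∈ V' → x₀ (g * s) = x₀ g ∧ A.ρ s (x₀ g) = x₀ g := by
    intro g s hs
    refine ⟨?_, ?_⟩
    · show ((β ((g * s : Γ) : Γ ⧸ V') : _) : A.V) = _
      rw [hmk V' g s hs]
    · exact (β (g : Γ ⧸ V')).2 ⟨s, hs⟩
  have hdx : (d₁₂ A).hom x₀ = f := by
    funext ⟨g, h'⟩
    have h3 := congrFun hβ ((g : Γ ⧸ V'), (h' : Γ ⧸ V'))
    rw [d₁₂_hom_apply] at h3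
    have h4 := congrArg Subtype.val h3
    rw [d₁₂_hom_apply]
    refine Eq.trans ?_ (h4.trans ?_)
    · rfl
    · rfl
  obtain ⟨y, hy, hdy⟩ := H73.qInf_core A V' V h h1 f hf x₀ hx₀ hdx
  -- descend `y`
  rw [H2π_eq_zero_iff]
  let η : Γ ⧸ V → (A.quotientToInvariants V).V :=
    fun c => ⟨y c.out, fun w => (hy c.out w.1 w.2).2⟩
  have hη : ∀ g : Γ, ((η (g : Γ ⧸ V) : _) : A.V) = y g := by
    intro g
    obtain ⟨s, hs⟩ := QuotientGroup.mk_out_eq_mul V g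
    show y (g : Γ ⧸ V).out = y g
    rw [hs]
    exact (hy g s s.2).1
  refine ⟨η, ?_⟩
  funext ⟨a, b⟩
  induction a using QuotientGroup.induction_on with
  | H g =>
  induction b using QuotientGroup.induction_on with
  | H h' =>
  apply Subtype.ext
  rw [d₁₂_hom_apply]
  have h5 := congrFun hdy (g, h')
  rw [d₁₂_hom_apply] at h5
  show A.ρ g ((η (h' : Γ ⧸ V) : _) : A.V) - ((η ((g : Γ ⧸ V) * (h' : Γ ⧸ V)) : _) : A.V) +
      ((η (g : Γ ⧸ V) : _) : A.V) = f (g, h')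
  rw [← QuotientGroup.mk_mul, hη, hη, hη]
  exact h5

end Abstract

section Galois



variable {K Ω : Type} [Field K] [Field Ω] [Algebra K Ω] [IsGalois K Ω]

set_option synthInstance.maxHeartbeats 400000 in
set_option maxHeartbeats 1000000 in
theorem hilbert90_fixing775 (M E₂ : IntermediateField K Ω) [FiniteDimensional K E₂]
    [IsGalois K E₂] (x : ↥M.fixingSubgroup → Ωˣ)
    (hx1 : ∀ s t : ↥M.fixingSubgroup, (t : Ω ≃ₐ[K] Ω) ∈ E₂.fixingSubgroup → x (s * t) = x s)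
    (hx2 : ∀ s : ↥M.fixingSubgroup, ((x s : Ωˣ) : Ω) ∈ M ⊔ E₂)
    (hx3 : ∀ s t : ↥M.fixingSubgroup, x (s * t) = ((s : Ω ≃ₐ[K] Ω) • x t) * x s) :
    ∃ β : Ωˣ, (β : Ω) ∈ M ⊔ E₂ ∧ ∀ s : ↥M.fixingSubgroup, x s = ((s : Ω ≃ₐ[K] Ω) • β) / β := by
  classical
  haveI := H496.isGalois_comp496 M E₂
  haveI := H496.finiteDimensional_comp496 M E₂
  letI instAct : MulDistribMulAction (↥(H496.comp496 M E₂) ≃ₐ[↥M] ↥(H496.comp496 M E₂))
      (↥(H496.comp496 M E₂))ˣ := inferInstance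
  -- lifts
  have hsurj := H496.resHom496_surjective M E₂
  let lift : (↥(H496.comp496 M E₂) ≃ₐ[↥M] ↥(H496.comp496 M E₂)) → ↥M.fixingSubgroup :=
    Function.surjInv hsurj
  have hlift : ∀ σ, H496.resHom496 M E₂ (lift σ) = σ := Function.surjInv_eq hsurj
  -- `x` only depends on the image in `Gal(M E₂ / M)`
  have hdep : ∀ s t : ↥M.fixingSubgroup,
      H496.resHom496 M E₂ s = H496.resHom496 M E₂ t → x s = x t := by
    intro s t hst
    have h1 : s⁻¹ * t ∈ (H496.resHom496 M E₂).ker := by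
      rw [MonoidHom.mem_ker, map_mul, map_inv, hst, inv_mul_cancel]
    rw [H496.resHom496_ker, Subgroup.mem_subgroupOf] at h1
    have h2 := hx1 s (s⁻¹ * t) h1
    rw [mul_inv_cancel_left] at h2
    exact h2.symm
  -- membership of the values
  have hmemL : ∀ s : ↥M.fixingSubgroup, ((x s : Ωˣ) : Ω) ∈ H496.comp496 M E₂ := fun s => hx2 s
  -- the finite-level cocycle
  let f : (↥(H496.comp496 M E₂) ≃ₐ[↥M] ↥(H496.comp496 M E₂)) → (↥(H496.comp496 M E₂))ˣ :=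
    fun σ => Units.mk0 ⟨((x (lift σ) : Ωˣ) : Ω), hmemL (lift σ)⟩ (by
      intro h
      exact (x (lift σ)).ne_zero (congrArg (fun t : ↥(H496.comp496 M E₂) => (t : Ω)) h))
  have hfval : ∀ σ, (((f σ : (↥(H496.comp496 M E₂))ˣ) : ↥(H496.comp496 M E₂)) : Ω) =
      ((x (lift σ) : Ωˣ) : Ω) := fun _ => rfl
  have hf : IsMulCocycle₁ f := by
    intro σ τ
    apply Units.ext
    apply Subtype.ext
    have h1 : x (lift (σ * τ)) = x (lift σ * lift τ) := by
      apply hdep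
      rw [hlift, map_mul, hlift, hlift]
    have h2 := hx3 (lift σ) (lift τ)
    have h3 : ((σ • f τ : (↥(H496.comp496 M E₂))ˣ) : ↥(H496.comp496 M E₂)) =
        σ ((f τ : (↥(H496.comp496 M E₂))ˣ) : ↥(H496.comp496 M E₂)) := rfl
    have h4 : ((σ ((f τ : (↥(H496.comp496 M E₂))ˣ) : ↥(H496.comp496 M E₂)) :
        ↥(H496.comp496 M E₂)) : Ω) =
        ((lift σ : ↥M.fixingSubgroup) : Ω ≃ₐ[K] Ω) ((x (lift τ) : Ωˣ) : Ω) := by
      have := H496.resHom496_apply M E₂ (lift σ) ((f τ : (↥(H496.comp496 M E₂))ˣ) : _)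
      rw [hlift] at this
      exact this
    show (((f (σ * τ) : (↥(H496.comp496 M E₂))ˣ) : ↥(H496.comp496 M E₂)) : Ω) =
      (((σ • f τ * f σ : (↥(H496.comp496 M E₂))ˣ) : ↥(H496.comp496 M E₂)) : Ω)
    rw [hfval, h1, h2, Units.val_mul, Units.val_mul, h3]
    show _ = ((σ ((f τ : (↥(H496.comp496 M E₂))ˣ) : ↥(H496.comp496 M E₂)) :
        ↥(H496.comp496 M E₂)) : Ω) * (((f σ : (↥(H496.comp496 M E₂))ˣ) : _) : Ω)
    rw [h4, hfval]
    rfl
  obtain ⟨β, hβ⟩ := isMulCoboundary₁_of_isMulCocycle₁_of_aut_to_units f hf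
  -- back to `Ω`
  let β' : Ωˣ := Units.map ((algebraMap ↥(H496.comp496 M E₂) Ω : _ →+* Ω) : _ →* Ω) β
  have hβ' : ((β' : Ωˣ) : Ω) = ((β : (↥(H496.comp496 M E₂))ˣ) : ↥(H496.comp496 M E₂)) := rfl
  refine ⟨β', ?_, fun s => ?_⟩
  · rw [hβ']
    exact ((β : (↥(H496.comp496 M E₂))ˣ) : ↥(H496.comp496 M E₂)).2
  · have h1 : x s = x (lift (H496.resHom496 M E₂ s)) := hdep _ _ (hlift _).symm
    have h2 := hβ (H496.resHom496 M E₂ s)
    rw [eq_div_iff_mul_eq']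
    apply Units.ext
    rw [h1, Units.val_mul]
    have h3 : (((f (H496.resHom496 M E₂ s) * β : (↥(H496.comp496 M E₂))ˣ) :
        ↥(H496.comp496 M E₂)) : Ω) =
        (((H496.resHom496 M E₂ s • β : (↥(H496.comp496 M E₂))ˣ) : ↥(H496.comp496 M E₂)) : Ω) := by
      rw [← h2, div_mul_cancel]
    have h4 : (((H496.resHom496 M E₂ s • β : (↥(H496.comp496 M E₂))ˣ) :
        ↥(H496.comp496 M E₂)) : Ω) = (s : Ω ≃ₐ[K] Ω) ((β' : Ωˣ) : Ω) :=
      H496.resHom496_apply M E₂ s ((β : (↥(H496.comp496 M E₂))ˣ) : _)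
    rw [h4] at h3
    have h5 : (((f (H496.resHom496 M E₂ s) * β : (↥(H496.comp496 M E₂))ˣ) :
        ↥(H496.comp496 M E₂)) : Ω) =
        ((x (lift (H496.resHom496 M E₂ s)) : Ωˣ) : Ω) * ((β' : Ωˣ) : Ω) := rfl
    rw [h5] at h3
    exact h3




/-- Core, with the fields explicit. -/
theorem h1_units_core775 (E : IntermediateField K Ω) (E₁ E₂ : IntermediateField K Ω)
    [FiniteDimensional K E₂] [IsGalois K E₂]
    (V V' : Subgroup ↥E.fixingSubgroup) [V'.Normal]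
    (hV : V = E₁.fixingSubgroup.subgroupOf E.fixingSubgroup)
    (hV' : V' = E₂.fixingSubgroup.subgroupOf E.fixingSubgroup) (h : V' ≤ V) :
    Subsingleton (H1 (Rep.res (V.map (QuotientGroup.mk' V')).subtype
      ((Rep.res E.fixingSubgroup.subtype (unitsOm K Ω)).quotientToInvariants V'))) := by
  classical
  subst hV hV'
  set B : Rep.{0} ℤ ↥E.fixingSubgroup := Rep.res E.fixingSubgroup.subtype (unitsOm K Ω) with hB
  set V : Subgroup ↥E.fixingSubgroup := E₁.fixingSubgroup.subgroupOf E.fixingSubgroup with hVdef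
  set V' : Subgroup ↥E.fixingSubgroup := E₂.fixingSubgroup.subgroupOf E.fixingSubgroup
    with hV'def
  let M : IntermediateField K Ω := E ⊔ E₁
  have hM : ∀ s : Ω ≃ₐ[K] Ω, s ∈ M.fixingSubgroup ↔
      s ∈ E.fixingSubgroup ∧ s ∈ E₁.fixingSubgroup := by
    intro s
    show s ∈ (E ⊔ E₁).fixingSubgroup ↔ _
    rw [IntermediateField.fixingSubgroup_sup, Subgroup.mem_inf]
  have hML : ∀ s : Ω ≃ₐ[K] Ω, s ∈ (M ⊔ E₂).fixingSubgroup ↔
      s ∈ M.fixingSubgroup ∧ s ∈ E₂.fixingSubgroup := by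
    intro s
    rw [IntermediateField.fixingSubgroup_sup, Subgroup.mem_inf]
  -- the action of `B` in multiplicative terms
  have hρ : ∀ (g : ↥E.fixingSubgroup) (v : B.V),
      B.ρ g v = Additive.ofMul ((g : Ω ≃ₐ[K] Ω) • (Additive.toMul v : Ωˣ)) := fun _ _ => rfl
  refine subsingleton_of_forall_eq 0 fun a => ?_
  induction a using H1_induction_on with
  | h z =>
  rw [H1π_eq_zero_iff]
  -- dictionary `Gal(Ω/M) → V/V'`
  let toΓ : ↥M.fixingSubgroup → ↥E.fixingSubgroup := fun s => ⟨s.1, ((hM s.1).1 s.2).1⟩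
  have htoΓV : ∀ s : ↥M.fixingSubgroup, toΓ s ∈ V := fun s =>
    Subgroup.mem_subgroupOf.2 ((hM s.1).1 s.2).2
  let toW : ↥M.fixingSubgroup → ↥(V.map (QuotientGroup.mk' V')) := fun s =>
    ⟨QuotientGroup.mk' V' (toΓ s), ⟨toΓ s, htoΓV s, rfl⟩⟩
  have htoW_mul : ∀ s t : ↥M.fixingSubgroup, toW (s * t) = toW s * toW t := fun s t =>
    Subtype.ext (map_mul (QuotientGroup.mk' V') (toΓ s) (toΓ t))
  let x : ↥M.fixingSubgroup → Ωˣ := fun s => Additive.toMul ((z.1 (toW s)).1 : B.V)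
  have hx1 : ∀ s t : ↥M.fixingSubgroup, (t : Ω ≃ₐ[K] Ω) ∈ E₂.fixingSubgroup →
      x (s * t) = x s := by
    intro s t ht
    have h1 : toW (s * t) = toW s := by
      apply Subtype.ext
      show QuotientGroup.mk' V' (toΓ s * toΓ t) = QuotientGroup.mk' V' (toΓ s)
      rw [map_mul]
      have h2 : QuotientGroup.mk' V' (toΓ t) = 1 :=
        (QuotientGroup.eq_one_iff _).2 (Subgroup.mem_subgroupOf.2 ht)
      rw [h2, mul_one]
    show Additive.toMul ((z.1 (toW (s * t))).1 : B.V) = Additive.toMul ((z.1 (toW s)).1 : B.V)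
    rw [h1]
  have hfixV' : ∀ (v : (B.quotientToInvariants V').V) (σ : Ω ≃ₐ[K] Ω),
      σ ∈ E.fixingSubgroup → σ ∈ E₂.fixingSubgroup →
      σ • (Additive.toMul (v.1 : B.V) : Ωˣ) = Additive.toMul (v.1 : B.V) := by
    intro v σ hσE hσ2
    have h1 := v.2 ⟨⟨σ, hσE⟩, Subgroup.mem_subgroupOf.2 hσ2⟩
    exact congrArg Additive.toMul h1
  have hmemL : ∀ u : Ωˣ, (∀ σ : Ω ≃ₐ[K] Ω, σ ∈ E.fixingSubgroup → σ ∈ E₂.fixingSubgroup →
      σ • u = u) → (u : Ω) ∈ M ⊔ E₂ := by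
    intro u hu
    rw [← InfiniteGalois.fixedField_fixingSubgroup (M ⊔ E₂)]
    rintro ⟨σ, hσ⟩
    have h1 := (hML σ).1 hσ
    have h2 := hu σ ((hM σ).1 h1.1).1 h1.2
    exact congrArg (fun t : Ωˣ => (t : Ω)) h2
  have hx2 : ∀ s : ↥M.fixingSubgroup, ((x s : Ωˣ) : Ω) ∈ M ⊔ E₂ := fun s =>
    hmemL _ (hfixV' (z.1 (toW s)))
  have hx3 : ∀ s t : ↥M.fixingSubgroup,
      x (s * t) = ((s : Ω ≃ₐ[K] Ω) • x t) * x s := by
    intro s t
    have hz := (mem_cocycles₁_iff (A := Rep.res (V.map (QuotientGroup.mk' V')).subtype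
      (B.quotientToInvariants V')) z.1).1 z.2 (toW s) (toW t)
    have h1 := congrArg Subtype.val hz
    show Additive.toMul ((z.1 (toW (s * t))).1 : B.V) = _
    rw [htoW_mul]
    exact congrArg Additive.toMul h1
  obtain ⟨β, hβmem, hβ⟩ := hilbert90_fixing775 M E₂ x hx1 hx2 hx3
  -- the coboundary
  have hβfix : ∀ w : ↥V', (B.ρ.comp V'.subtype) w (Additive.ofMul β : B.V) = Additive.ofMul β := by
    intro w
    have hwV : (w : ↥E.fixingSubgroup) ∈ V := h w.2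
    have hw1 : ((w : ↥E.fixingSubgroup) : Ω ≃ₐ[K] Ω) ∈ E₁.fixingSubgroup :=
      Subgroup.mem_subgroupOf.1 hwV
    have hw2 : ((w : ↥E.fixingSubgroup) : Ω ≃ₐ[K] Ω) ∈ E₂.fixingSubgroup :=
      Subgroup.mem_subgroupOf.1 w.2
    have hwL : ((w : ↥E.fixingSubgroup) : Ω ≃ₐ[K] Ω) ∈ (M ⊔ E₂).fixingSubgroup :=
      (hML _).2 ⟨(hM _).2 ⟨(w : ↥E.fixingSubgroup).2, hw1⟩, hw2⟩
    have h3 : ((w : ↥E.fixingSubgroup) : Ω ≃ₐ[K] Ω) (β : Ω) = (β : Ω) := hwL ⟨(β : Ω), hβmem⟩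
    show Additive.ofMul (((w : ↥E.fixingSubgroup) : Ω ≃ₐ[K] Ω) • β) = Additive.ofMul β
    have h4 : ((w : ↥E.fixingSubgroup) : Ω ≃ₐ[K] Ω) • β = β := Units.ext h3
    rw [h4]
  let b : (B.quotientToInvariants V').V := ⟨Additive.ofMul β, hβfix⟩
  refine ⟨b, ?_⟩
  funext a
  obtain ⟨aq, g, hgV, rfl⟩ := a
  let s : ↥M.fixingSubgroup := ⟨g.1, (hM g.1).2 ⟨g.2, Subgroup.mem_subgroupOf.1 hgV⟩⟩
  have hs : toW s = ⟨QuotientGroup.mk' V' g, ⟨g, hgV, rfl⟩⟩ := Subtype.ext rfl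
  apply Subtype.ext
  rw [d₀₁_hom_apply]
  have h5 : ((z.1 ⟨QuotientGroup.mk' V' g, ⟨g, hgV, rfl⟩⟩ : _) : B.V) = Additive.ofMul (x s) := by
    rw [← hs]
    rfl
  refine Eq.trans ?_ h5.symm
  rw [hβ s]
  rfl

/-- **Hilbert 90 between two levels of an open subgroup.** -/
theorem h1_units775 (U : Subgroup (Ω ≃ₐ[K] Ω)) (hU : (galLevels K Ω).IsOpen U)
    (V V' : ((galLevels K Ω).restrict U).Lvl) (h : V'.W ≤ V.W) :
    Subsingleton (H1 (Rep.res (V.W.map (QuotientGroup.mk' V'.W)).subtype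
      ((Rep.res U.subtype (unitsOm K Ω)).quotientToInvariants V'.W))) := by
  obtain ⟨E, -, rfl⟩ := (H587.openSubgroup K Ω U).mp hU
  obtain ⟨W₁, ⟨E₁, rfl⟩, hV⟩ := V.mem
  obtain ⟨W₂, ⟨E₂, rfl⟩, hV'⟩ := V'.mem
  exact h1_units_core775 E E₁.toIntermediateField E₂.toIntermediateField V.W V'.W hV hV' h

end Galois

section Local



/-- **KL-H1**, closed. -/
theorem localH1 : LocalH1Spec := (local_h123_of H496.transport H587.openSubgroup).1

/-- **KL-H2**, closed. -/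
theorem localH2 : LocalH2Spec := (local_h123_of H496.transport H587.openSubgroup).2.1

/-- **KL-H3**, closed. -/
theorem localH3 : LocalH3Spec := (local_h123_of H496.transport H587.openSubgroup).2.2

/-- Inflation is injective in degree 2 for `Ωˣ` (any Galois extension `Ω/K`, any open `U`). -/
theorem unitsInfl_injective775 {K Ω : Type} [Field K] [Field Ω] [Algebra K Ω] [IsGalois K Ω]
    (U : Subgroup (Ω ≃ₐ[K] Ω)) (hU : (galLevels K Ω).IsOpen U)
    (V V' : ((galLevels K Ω).restrict U).Lvl) (h : V'.W ≤ V.W)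
    (x : HL (Rep.res U.subtype (unitsOm K Ω)) V.W 2)
    (hx : (infl (Rep.res U.subtype (unitsOm K Ω)) h 2).hom x = 0) : x = 0 :=
  infl_injective775 (Rep.res U.subtype (unitsOm K Ω)) V.W V'.W h (h1_units775 U hU V V' h) x hx

/-- **KL-NE.** -/
theorem localNonEff : LocalNonEffSpec := by
  intro q _ p hp U hU
  obtain ⟨V₀⟩ : Nonempty ((galLevels ℚ_[q] (PadicAlgCl q)).restrict U).Lvl := inferInstance
  obtain ⟨V, -, hdvd⟩ := H215.localDegree q p hp U hU V₀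
  have hpn : p ∣ Nat.card (↥U ⧸ V.W) := dvd_trans (dvd_mul_right p _) hdvd
  obtain ⟨e⟩ := localH2 q U hU V
  have hn : 0 < Nat.card (↥U ⧸ V.W) := by
    haveI : Finite (↥U ⧸ V.W) := Subgroup.finite_quotient_of_finiteIndex
    exact Nat.card_pos
  obtain ⟨m, hm⟩ := hpn
  have hm0 : 0 < m := by
    rcases Nat.eq_zero_or_pos m with h0 | h0
    · rw [h0, mul_zero] at hm
      omega
    · exact h0
  refine ⟨V, e.symm ((m : ℕ) : ZMod (Nat.card (↥U ⧸ V.W))), ?_, ?_⟩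
  · rw [← map_nsmul, nsmul_eq_mul, ← Nat.cast_mul, ← hm, ZMod.natCast_self, map_zero]
  · rintro ⟨V', h, hx⟩
    have h0 := unitsInfl_injective775 U hU V V' h _ hx
    have h1 : ((m : ℕ) : ZMod (Nat.card (↥U ⧸ V.W))) = 0 := by
      have := congrArg e h0
      simpa using this
    rw [ZMod.natCast_eq_zero_iff] at h1
    have h2 : Nat.card (↥U ⧸ V.W) ≤ m := Nat.le_of_dvd hm0 h1
    have h3 : 2 * m ≤ p * m := Nat.mul_le_mul_right m hp.two_le
    omega

end Local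

end Fermat.Agent.S55.KL.H775
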