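import Fermat.Agent.S55.KL.FormalH587
import Fermat.Agent.S55.L.H715.OuterClosed
import Fermat.Agent.S55.H424.LocalFldPow

/-!
# S55, layer KL, leaf KL-FIN (helper775)

`localPowFinite : LocalPowFiniteSpec` — for every open subgroup `U = Gal(ℚ̄_q/E)` of
`Gal(ℚ̄_q/ℚ_q)` the group `Eˣ/(Eˣ)^p` is finite (elementwise form `PowFinite`).

Inputs: `H587.openSubgroup` (open subgroups are `Gal(Ω/E)`, `E/ℚ_q` finite),
`L.Closed.padicExtInst` (`E` is a local field), `H424.isLocalFld_finite_quotient_pow`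
(local power index), and infinite Galois theory (`fixedField (fixingSubgroup E) = E`).
-/

set_option autoImplicit false
set_option linter.style.haveILetI false

open CategoryTheory groupCohomology

namespace Fermat.Agent.S55.KL.H775

open Fermat.Agent.S55 Fermat.Agent.S55.KL

/-- Abstract form: if `Eˣ/(Eˣ)^p` is finite then `PowFinite` holds at `U = Gal(Ω/E)`. -/
theorem powFinite_fixingSubgroup775 (K Ω : Type) [Field K] [Field Ω] [Algebra K Ω]
    [IsGalois K Ω] (E : IntermediateField K Ω) (p : ℕ)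
    [Finite ((↥E)ˣ ⧸ (powMonoidHom p : (↥E)ˣ →* (↥E)ˣ).range)] :
    ∃ F : Finset (unitsOm K Ω).V, ∀ a : (unitsOm K Ω).V,
      (∀ u ∈ E.fixingSubgroup, (unitsOm K Ω).ρ u a = a) →
      ∃ f ∈ F, ∃ b : (unitsOm K Ω).V,
        (∀ u ∈ E.fixingSubgroup, (unitsOm K Ω).ρ u b = b) ∧ a = f + p • b := by
  classical
  letI : Fintype ((↥E)ˣ ⧸ (powMonoidHom p : (↥E)ˣ →* (↥E)ˣ).range) := Fintype.ofFinite _
  -- the inclusion `Eˣ → Ωˣ`
  let ι : (↥E)ˣ →* Ωˣ := Units.map ((algebraMap ↥E Ω : ↥E →+* Ω) : ↥E →* Ω)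
  have hιfix : ∀ (x : (↥E)ˣ) (u : Ω ≃ₐ[K] Ω), u ∈ E.fixingSubgroup →
      (unitsOm K Ω).ρ u (Additive.ofMul (ι x)) = Additive.ofMul (ι x) := by
    intro x u hu
    show Additive.ofMul (u • ι x) = Additive.ofMul (ι x)
    have h1 : u • ι x = ι x := Units.ext (hu ⟨((x : ↥E) : Ω), (x : ↥E).2⟩)
    rw [h1]
  refine ⟨Finset.univ.image (fun c : (↥E)ˣ ⧸ (powMonoidHom p : (↥E)ˣ →* (↥E)ˣ).range =>
    (Additive.ofMul (ι (Quotient.out c)) : (unitsOm K Ω).V)), ?_⟩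
  intro a ha
  -- `a` lies in `E`
  let u₀ : Ωˣ := Additive.toMul a
  have hmem : (u₀ : Ω) ∈ E := by
    have h1 : (u₀ : Ω) ∈ IntermediateField.fixedField E.fixingSubgroup := by
      rintro ⟨σ, hσ⟩
      have h2 : (unitsOm K Ω).ρ σ a = a := ha σ hσ
      have h3 : σ • u₀ = u₀ := congrArg Additive.toMul h2
      exact congrArg (fun t : Ωˣ => (t : Ω)) h3
    rwa [InfiniteGalois.fixedField_fixingSubgroup] at h1
  have hne : (⟨(u₀ : Ω), hmem⟩ : ↥E) ≠ 0 := by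
    intro h
    exact u₀.ne_zero (congrArg (fun t : ↥E => (t : Ω)) h)
  let x : (↥E)ˣ := Units.mk0 ⟨(u₀ : Ω), hmem⟩ hne
  have hx : ι x = u₀ := Units.ext rfl
  -- decompose `x` modulo `p`-th powers
  let c : (↥E)ˣ ⧸ (powMonoidHom p : (↥E)ˣ →* (↥E)ˣ).range := QuotientGroup.mk x
  have hc : (QuotientGroup.mk (Quotient.out c) : (↥E)ˣ ⧸ _) = QuotientGroup.mk x :=
    Quotient.out_eq c
  obtain ⟨y, hy⟩ : ∃ y : (↥E)ˣ, x = Quotient.out c * y ^ p := by
    have h1 : (Quotient.out c)⁻¹ * x ∈ (powMonoidHom p : (↥E)ˣ →* (↥E)ˣ).range :=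
      QuotientGroup.eq.mp hc
    obtain ⟨y, hy⟩ := h1
    refine ⟨y, ?_⟩
    have h2 : y ^ p = (Quotient.out c)⁻¹ * x := hy
    rw [h2, mul_inv_cancel_left]
  refine ⟨_, Finset.mem_image.mpr ⟨c, Finset.mem_univ c, rfl⟩, Additive.ofMul (ι y),
    fun u hu => hιfix y u hu, ?_⟩
  show a = Additive.ofMul (ι (Quotient.out c)) + p • Additive.ofMul (ι y)
  have h3 : u₀ = ι (Quotient.out c) * ι y ^ p := by
    rw [← hx, hy, map_mul, map_pow]
  show a = Additive.ofMul (ι (Quotient.out c) * ι y ^ p)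
  rw [← h3]
  rfl

/-- **KL-FIN.** -/
theorem localPowFinite : LocalPowFiniteSpec := by
  intro q _ p hp U hU
  obtain ⟨E, hEfin, rfl⟩ := (H587.openSubgroup ℚ_[q] (PadicAlgCl q) U).mp hU
  haveI := hEfin
  haveI : L.IsLocalFld ↥E := (L.Closed.padicExtInst q E hEfin).1
  haveI : Finite ((↥E)ˣ ⧸ (powMonoidHom p : (↥E)ˣ →* (↥E)ˣ).range) :=
    H424.isLocalFld_finite_quotient_pow ↥E p hp.ne_zero
  exact powFinite_fixingSubgroup775 ℚ_[q] (PadicAlgCl q) E p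

end Fermat.Agent.S55.KL.H775
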