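import Fermat.Agent.S55.KL.Spec

/-!
# S55, layer KB (abstract Kummer bridge), part 2: degrees 1 and 2, change of scalars

Interface statements only (Spec pattern, no `sorry`).  Architect: helper183.
Blueprint: `coord/S55-KL.md` on `origin/helper183`.

* `ScalarsSpec`   : effaceability does not depend on the coefficient ring (`k` versus `ℤ`);
* `FinH1Spec`     : finiteness of level-constant `H¹` (input A1 / A2 of layer D), elementwise;
* `DimH2LeSpec`   : `dim H²_LC(Γ, μ) ≤ 1` (input A5 / A6 of layer D), elementwise;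
* `DimH2GeSpec`   : `H²_LC(Γ, μ) ≠ 0`.
-/

set_option autoImplicit false

open CategoryTheory groupCohomology

namespace Fermat.Agent.S55.KL

variable {k : Type} [CommRing k] {Γ : Type} [Group Γ]

/-! ## Change of scalars -/

/-- Restriction of scalars to `ℤ` of a representation. -/
noncomputable def toInt (R : Rep.{0} k Γ) : Rep.{0} ℤ Γ :=
  Rep.of (k := ℤ) (X := R.V)
    { toFun := fun g => (R.ρ g).toAddMonoidHom.toIntLinearMap
      map_one' := by
        ext x
        simp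
      map_mul' := fun g h => by
        ext x
        simp }

/-- **KB-SCAL.**  `colim Hⁿ(Γ, R) = 0` may be checked after restriction of scalars to `ℤ`
(inhomogeneous cochains do not depend on the coefficient ring). -/
def ScalarsSpec : Prop :=
  ∀ (k Γ : Type) [CommRing k] [Group Γ] (N : NLevels Γ) (R : Rep.{0} k Γ) (n : ℕ),
    EffAll N (toInt R) n → EffAll N R n

/-- **KB-SCAL'.**  `cd_p ≤ 2` over `ℤ` implies `cd_p ≤ 2` over any `k`. -/
def CdScalarsSpec : Prop :=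
  ∀ (k Γ : Type) [CommRing k] [Group Γ] (N : NLevels Γ) (p : ℕ),
    CdLeTwo N ℤ p → CdLeTwo N k p

/-! ## Degree 1: finiteness -/

/-- `(A^U)/p` is finite for every open subgroup `U` (elementwise form). -/
def PowFinite (N : NLevels Γ) (A : Rep.{0} k Γ) (p : ℕ) : Prop :=
  ∀ U : Subgroup Γ, N.IsOpen U →
    ∃ F : Finset A.V, ∀ a : A.V, (∀ u ∈ U, A.ρ u a = a) →
      ∃ f ∈ F, ∃ b : A.V, (∀ u ∈ U, A.ρ u b = b) ∧ a = f + p • b

/-- The level-constant `H¹(Γ, R)` is finite (elementwise form: finitely many level-constant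
1-cocycles represent all classes). -/
def FinLC₁ (N : NLevels Γ) (R : Rep.{0} k Γ) : Prop :=
  ∃ F : Finset (Γ → R.V), ∀ c ∈ cocycles₁ R, IsLC₁ N c →
    ∃ f ∈ F, ∃ r : R.V, ∀ g : Γ, c g = f g + (R.ρ g r - r)

/-- **KB-A2.**  If `A` is smooth and `p`-divisible with `|A[p]| = p`, `colim H¹(U, A) = 0` for
every open subgroup `U` (Hilbert 90) and `(A^U)/p` is finite for every open `U`, then the
level-constant `H¹(Γ, R)` is finite for every finite smooth `p`-torsion module `R`.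
(inflation–restriction to a level `V` acting trivially on `R` and `A[p]`; `Hom_LC(V, A[p])`
injects into `(A^V)/p` by the Kummer map.) -/
def FinH1Spec : Prop :=
  ∀ (kA k Γ : Type) [CommRing kA] [CommRing k] [Group Γ] (N : NLevels Γ) (A : Rep.{0} kA Γ)
    (p : ℕ), p.Prime → IsSmooth N A → IsDivisibleBy A p → Nat.card (tors A p).V = p →
    (∀ U : Subgroup Γ, N.IsOpen U → EffAll (N.restrict U) (Rep.res U.subtype A) 1) →
    PowFinite N A p →
    ∀ R : Rep.{0} k Γ, Finite R.V → (∀ r : R.V, p • r = 0) → IsSmooth N R → FinLC₁ N R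

/-! ## Degree 2: `H²(μ)` is one-dimensional -/

/-- `dim_{𝔽_p} H²_LC(Γ, R) ≤ 1` (elementwise form): any two level-constant 2-cocycles are
linearly dependent modulo coboundaries of level-constant cochains. -/
def DimLC₂Le (N : NLevels Γ) (R : Rep.{0} k Γ) (p : ℕ) : Prop :=
  ∀ c₁ ∈ cocycles₂ R, ∀ c₂ ∈ cocycles₂ R, IsLC₂ N c₁ → IsLC₂ N c₂ →
    ∃ a₁ a₂ : ℤ, (¬ (p : ℤ) ∣ a₁ ∨ ¬ (p : ℤ) ∣ a₂) ∧
      ∃ b : Γ → R.V, IsLC₁ N b ∧ a₁ • c₁ + a₂ • c₂ = (d₁₂ R).hom b

/-- `H²_LC(Γ, R) ≠ 0` (elementwise form). -/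
def DimLC₂Ge (N : NLevels Γ) (R : Rep.{0} k Γ) : Prop :=
  ∃ c ∈ cocycles₂ R, IsLC₂ N c ∧ ¬ ∃ b : Γ → R.V, IsLC₁ N b ∧ c = (d₁₂ R).hom b

/-- **KB-A5a.**  If `A` is smooth and `p`-divisible, `colim H¹(Γ, A) = 0` and every
`H²(Γ/V, A^V)` is cyclic, then `dim H²_LC(Γ, A[p]) ≤ 1`.
(Kummer chase in degree 2: `ker(H²(μ) → H²(A))` is effaceable; the `p`-torsion of a cyclic
group has order `≤ p`.) -/
def DimH2LeSpec : Prop :=
  ∀ (k Γ : Type) [CommRing k] [Group Γ] (N : NLevels Γ) (A : Rep.{0} k Γ) (p : ℕ), p.Prime →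
    IsSmooth N A → IsDivisibleBy A p → Finite (tors A p).V → EffAll N A 1 →
    (∀ V : N.Lvl, IsAddCyclic (HL A V.W 2)) →
      DimLC₂Le N (tors A p) p

/-- **KB-A5b.**  If moreover some `p`-torsion class of `H²(Γ/V, A^V)` is not effaceable, then
`H²_LC(Γ, A[p]) ≠ 0`. -/
def DimH2GeSpec : Prop :=
  ∀ (k Γ : Type) [CommRing k] [Group Γ] (N : NLevels Γ) (A : Rep.{0} k Γ) (p : ℕ), p.Prime →
    IsSmooth N A → IsDivisibleBy A p → Finite (tors A p).V →
    (∃ (V : N.Lvl) (x : HL A V.W 2), p • x = 0 ∧ ¬ IsEff N A 2 V x) →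
      DimLC₂Ge N (tors A p)

end Fermat.Agent.S55.KL
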